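/-
A two dimensional pseudo-representation with an odd involution and one invertible mixed term comes from a
representation by two by two matrices, over any commutative ring in which `2` is invertible.
-/
import Mathlib.LinearAlgebra.Matrix.Trace
import Mathlib.LinearAlgebra.Matrix.Determinant.Basic
import Mathlib.Tactic.LinearCombination

set_option autoImplicit false
set_option linter.unusedSectionVars false

noncomputable section

namespace Fermat.Agent.Auto

variable {G : Type*} [Group G] {T : Type*} [CommRing T]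

/-- A two dimensional pseudo-representation with determinant `d`. -/
structure IsPseudo (t : G → T) (d : G →* T) : Prop where
  map_one : t 1 = 2
  comm : ∀ g h, t (g * h) = t (h * g)
  mul : ∀ g h, t g * t h = t (g * h) + d h * t (g * h⁻¹)

namespace IsPseudo

variable {t : G → T} {d : G →* T} (hp : IsPseudo t d)
include hp

theorem inv (h : G) : t h = d h * t h⁻¹ := by
  have := hp.mul 1 h
  rw [hp.map_one, one_mul, one_mul] at this
  linear_combination this

/-- The trace identity in three variables. -/
theorem tri (g h k : G) :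
    t g * t h * t k - t (g * h) * t k - t (h * k) * t g - t (g * k) * t h +
      t (g * h * k) + t (g * k * h) = 0 := by
  have e1 := hp.mul g h
  have e3 := hp.mul g (h * k)
  rw [map_mul, mul_inv_rev, ← mul_assoc, ← mul_assoc] at e3
  have e4 := hp.mul (g * k) h
  have e6 := hp.mul (h⁻¹ * g) k
  rw [mul_assoc h⁻¹ g k, hp.comm h⁻¹ (g * k), mul_assoc h⁻¹ g k⁻¹, hp.comm h⁻¹ (g * k⁻¹),
    hp.comm h⁻¹ g] at e6
  linear_combination (t k) * e1 - e3 - e4 + (d h) * e6

variable {c : G} (hc : c * c = 1) (hdc : d c = -1)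
include hc hdc

theorem conj_self (x : G) : t (c * x * c) = t x := by
  rw [hp.comm, ← mul_assoc, hc, one_mul]

variable [Invertible (2 : T)]

theorem map_c : t c = 0 := by
  have := hp.inv c
  rw [hdc, inv_eq_of_mul_eq_one_left hc] at this
  linear_combination ⅟(2 : T) * this - (t c) * invOf_mul_self (2 : T)

theorem rank_one₁ (x y : G) :
    t (c * x * y) + t (x * c * y) = t (c * x) * t y + t x * t (c * y) := by
  have := hp.tri x c y
  rw [hp.map_c hc hdc, hp.comm x c, hp.comm (x * y) c, ← mul_assoc] at this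
  linear_combination this

theorem rank_one₂ (x y : G) :
    t (x * y) + t (c * x * c * y) = t x * t y + t (c * x) * t (c * y) := by
  have := hp.tri (c * x) c y
  rw [hp.map_c hc hdc, hp.conj_self hc hdc x, hp.comm (c * x * y) c, mul_assoc c x y,
    ← mul_assoc c c, hc, one_mul] at this
  linear_combination this

omit hp hc hdc in
/-- The entry in the corner fixed by the involution. -/
def aPart (t : G → T) (c g : G) : T := ⅟2 * (t g + t (c * g))

omit hp hc hdc in
/-- The entry in the corner negated by the involution. -/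
def ePart (t : G → T) (c g : G) : T := t g - aPart t c g

omit hp hc hdc in
/-- The product of the off diagonal entries. -/
def xPart (t : G → T) (c g h : G) : T := aPart t c (g * h) - aPart t c g * aPart t c h

theorem xPart_mul (g h k : G) :
    xPart t c g (h * k) = xPart t c g h * aPart t c k + ePart t c h * xPart t c g k := by
  have p1 := hp.tri g h k
  have p2 := hp.tri (c * g) h k
  have p3 := hp.tri g h (k * c)
  have p4 := hp.tri (c * g) h (k * c)
  have r1 := hp.rank_one₁ hc hdc (g * k) h
  have r2 := hp.rank_one₂ hc hdc (g * k) h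
  simp only [← mul_assoc] at p1 p2 p3 p4 r1 r2
  have q1 : t (k * c) = t (c * k) := hp.comm _ _
  have q2 : ∀ x : G, t (x * c) = t (c * x) := fun x => hp.comm _ _
  simp only [q2] at p3 p4
  simp only [← mul_assoc, hc, one_mul] at p3 p4
  simp only [xPart, ePart, aPart, ← mul_assoc]
  linear_combination (⅟(2 : T)) ^ 2 * (p1 + p2 + p3 + p4) - (⅟(2 : T)) ^ 2 * (r1 + r2) -
    ⅟(2 : T) * (t (g * h * k) + t (c * g * h * k) - t h * (t (g * k) + t (c * g * k))) *
      invOf_mul_self (2 : T)

theorem xPart_symm (g h : G) :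
    xPart t c g h = ePart t c (h * g) - ePart t c h * ePart t c g := by
  have r1 := hp.rank_one₁ hc hdc g h
  rw [mul_assoc g c h, hp.comm g (c * h)] at r1
  simp only [xPart, ePart, aPart, ← mul_assoc, hp.comm h g]
  linear_combination ⅟(2 : T) * r1 + (t (g * h) - t g * t h) * invOf_mul_self (2 : T)

theorem xPart_mul_left (g h k : G) :
    xPart t c (g * h) k = aPart t c g * xPart t c h k + xPart t c g k * ePart t c h := by
  have := hp.xPart_mul hc hdc g h k
  simp only [xPart, ← mul_assoc] at this ⊢
  linear_combination this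

theorem xPart_exchange (g g₀ h₀ h : G) :
    xPart t c g h₀ * xPart t c g₀ h = xPart t c g₀ h₀ * xPart t c g h := by
  have e1 := hp.xPart_mul hc hdc g (h₀ * g₀) h
  have e2 := hp.xPart_mul hc hdc g h₀ (g₀ * h)
  have e3 := hp.xPart_mul hc hdc g h₀ g₀
  have e4 := hp.xPart_mul hc hdc g g₀ h
  have e5 := hp.xPart_symm hc hdc g₀ h₀
  rw [mul_assoc h₀ g₀ h, e2, e3, e4,
    show aPart t c (g₀ * h) = xPart t c g₀ h + aPart t c g₀ * aPart t c h from (sub_add_cancel _ _).symm,
    show ePart t c (h₀ * g₀) = xPart t c g₀ h₀ + ePart t c h₀ * ePart t c g₀ by rw [e5, sub_add_cancel]] at e1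
  linear_combination e1

theorem aPart_one : aPart t c 1 = 1 := by
  rw [aPart, mul_one, hp.map_one, hp.map_c hc hdc, add_zero, invOf_mul_self]

theorem ePart_one : ePart t c 1 = 1 := by
  rw [ePart, hp.aPart_one hc hdc, hp.map_one]
  norm_num

theorem xPart_one_left (h : G) : xPart t c 1 h = 0 := by
  rw [xPart, hp.aPart_one hc hdc, one_mul, one_mul, sub_self]

theorem xPart_one_right (g : G) : xPart t c g 1 = 0 := by
  rw [xPart, hp.aPart_one hc hdc, mul_one, mul_one, sub_self]

theorem det_eq (g : G) : aPart t c g * ePart t c g - xPart t c g g = d g := by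
  have e1 := hp.mul g g
  have e2 := hp.mul (c * g) g
  rw [mul_inv_cancel, hp.map_one] at e1
  rw [mul_inv_cancel_right, hp.map_c hc hdc] at e2
  simp only [xPart, ePart, aPart, ← mul_assoc] at *
  linear_combination ⅟(2 : T) * e1 + ⅟(2 : T) * e2 + d g * invOf_mul_self (2 : T)

/-- The representation attached to the pseudo-representation and an invertible mixed term. -/
def rep (g₀ h₀ : G) (u : Tˣ) (hu : (u : T) = xPart t c g₀ h₀) : G →* Matrix (Fin 2) (Fin 2) T where
  toFun g := !![aPart t c g, xPart t c g h₀; ↑u⁻¹ * xPart t c g₀ g, ePart t c g]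
  map_one' := by
    rw [hp.aPart_one hc hdc, hp.ePart_one hc hdc, hp.xPart_one_left hc hdc,
      hp.xPart_one_right hc hdc, mul_zero, Matrix.one_fin_two]
  map_mul' g h := by
    have hu' : xPart t c g₀ h₀ * (↑u⁻¹ : T) = 1 := by rw [← hu]; exact u.mul_inv
    have e1 := hp.xPart_exchange hc hdc g g₀ h₀ h
    have e2 := hp.xPart_exchange hc hdc h g₀ h₀ g
    have e3 := hp.xPart_symm hc hdc h g
    have e4 := hp.xPart_mul_left hc hdc g h h₀
    have e5 := hp.xPart_mul hc hdc g₀ g h
    have e6 : xPart t c g h = aPart t c (g * h) - aPart t c g * aPart t c h := rfl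
    rw [Matrix.mul_fin_two]
    congr 1
    simp only [Matrix.vecCons]
    refine congrArg₂ _ (congrArg₂ _ ?_ (congrArg₂ _ ?_ rfl)) (congrArg₂ _ (congrArg₂ _ ?_ (congrArg₂ _ ?_ rfl)) rfl)
    · linear_combination -(↑u⁻¹ : T) * e1 - xPart t c g h * hu' - e6
    · linear_combination e4
    · linear_combination (↑u⁻¹ : T) * e5
    · linear_combination -(↑u⁻¹ : T) * e2 - xPart t c h g * hu' - e3

theorem trace_rep (g₀ h₀ : G) (u : Tˣ) (hu : (u : T) = xPart t c g₀ h₀) (g : G) :
    (hp.rep hc hdc g₀ h₀ u hu g).trace = t g := by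
  rw [Matrix.trace_fin_two]
  exact add_sub_cancel _ _

theorem det_rep (g₀ h₀ : G) (u : Tˣ) (hu : (u : T) = xPart t c g₀ h₀) (g : G) :
    (hp.rep hc hdc g₀ h₀ u hu g).det = d g := by
  have hu' : xPart t c g₀ h₀ * (↑u⁻¹ : T) = 1 := by rw [← hu]; exact u.mul_inv
  have e1 := hp.xPart_exchange hc hdc g g₀ h₀ g
  rw [Matrix.det_fin_two, ← hp.det_eq hc hdc g]
  change aPart t c g * ePart t c g - xPart t c g h₀ * (↑u⁻¹ * xPart t c g₀ g) = _
  linear_combination -(↑u⁻¹ : T) * e1 - xPart t c g g * hu'

end IsPseudo

end Fermat.Agent.Auto
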