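/-
The Galois representation with values in a complete local ring receiving the Hecke algebra, with absolutely
irreducible reduction; the ring may have nilpotents.
-/
import Fermat.Agent.Auto.PseudoRep
import Fermat.Agent.GalRep.Unramified
import Fermat.Agent.GalRep.PadicLift
import Fermat.Agent.GalRep.Model.Reduction
import Fermat.Agent.GalRep.Endgame
import Fermat.Agent.GalRep.Semistable.ComplexConj
import Fermat.Agent.Deform.TraceEquiv

set_option autoImplicit false
set_option linter.style.haveILetI false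

noncomputable section

namespace Fermat.Agent.Auto

open Fermat.Agent.Galois (GQ)
open Fermat.Agent.GalRep Fermat.Agent.Deform
open IsLocalRing Polynomial
open scoped TensorProduct IsMulCommutative

section Pure

variable {G : Type} [Group G]

theorem map_aPart {T T' : Type*} [CommRing T] [CommRing T'] [Invertible (2 : T)] [Invertible (2 : T')]
    (φ : T →+* T') (t : G → T) (c g : G) :
    φ (IsPseudo.aPart t c g) = IsPseudo.aPart (φ ∘ t) c g := by
  have : φ ⅟(2 : T) = ⅟(2 : T') := (invOf_eq_left_inv (by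
    rw [← map_ofNat φ 2, ← map_mul, invOf_mul_self, map_one])).symm
  simp [IsPseudo.aPart, map_mul, map_add, this]

theorem map_xPart {T T' : Type*} [CommRing T] [CommRing T'] [Invertible (2 : T)] [Invertible (2 : T')]
    (φ : T →+* T') (t : G → T) (c g h : G) :
    φ (IsPseudo.xPart t c g h) = IsPseudo.xPart (φ ∘ t) c g h := by
  simp [IsPseudo.xPart, map_aPart φ t c]

variable {k : Type} [Field k] [Invertible (2 : k)]

/-- An odd irreducible representation has a nonvanishing mixed term. -/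
theorem exists_xPart_ne_zero (r : G →* Mat2 k) (hnd : TraceNondeg r) (c : G) (hc : c * c = 1)
    (hc0 : (r c).trace = 0) :
    ∃ g h, IsPseudo.xPart (fun x => (r x).trace) c g h ≠ 0 := by
  by_contra hcon
  push Not at hcon
  set E : Mat2 k := ⅟(2 : k) • (1 + r c) with hEdef
  have ha : ∀ g, IsPseudo.aPart (fun x => (r x).trace) c g = (E * r g).trace := fun g => by
    simp [hEdef, IsPseudo.aPart, add_mul, Matrix.trace_smul, Matrix.trace_add, map_mul, mul_add]
  have h1 : ∀ g, E * r g = (E * r g).trace • E := fun g => by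
    rw [← sub_eq_zero]
    refine hnd _ fun h => ?_
    rw [sub_mul, Matrix.trace_sub, Matrix.smul_mul (E * r g).trace E (r h), Matrix.trace_smul, mul_assoc E, ← map_mul, ← ha, ← ha,
      ← ha, smul_eq_mul]
    exact hcon g h
  have hEE : E * E = E := by
    have hC : r c * r c = 1 := by rw [← map_mul, hc, map_one]
    rw [hEdef, smul_mul_smul_comm, add_mul, mul_add, mul_add, one_mul, one_mul, mul_one, hC]
    rw [show (1 + r c + (r c + 1) : Mat2 k) = (2 : k) • (1 + r c) by rw [two_smul]; abel, smul_smul,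
      mul_assoc, invOf_mul_self, mul_one]
  have htE : E.trace = 1 := by
    rw [hEdef, Matrix.trace_smul, Matrix.trace_add, hc0, add_zero, Matrix.trace_one, Fintype.card_fin,
      smul_eq_mul, Nat.cast_ofNat, invOf_mul_self]
  have h2 : ∀ g, E * r g * (1 - E) = 0 := fun g => by
    rw [h1 g, smul_mul_assoc, mul_sub, mul_one, hEE, sub_self, smul_zero]
  have h3 : ∀ i j, (1 - E) * Matrix.single i j (1 : k) * E = 0 := fun i j => hnd _ fun g => by
    rw [mul_assoc ((1 - E) * Matrix.single i j 1) E (r g), mul_assoc (1 - E), Matrix.trace_mul_comm,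
      mul_assoc, h2, mul_zero, Matrix.trace_zero]
  have h4 : ∀ a i j b, (1 - E) a i * E j b = 0 := fun a i j b => by
    have := congrFun (congrFun (h3 i j) a) b
    simp only [Matrix.mul_apply, Matrix.single_apply, Fin.sum_univ_two, Matrix.zero_apply] at this
    fin_cases i <;> fin_cases j <;> simpa using this
  by_cases hE : E = 0
  · rw [hE, Matrix.trace_zero] at htE
    exact zero_ne_one htE
  obtain ⟨j, b, hjb⟩ : ∃ j b, E j b ≠ 0 := by
    by_contra hall
    push Not at hall
    exact hE (Matrix.ext fun j b => hall j b)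
  have h5 : (1 : Mat2 k) - E = 0 := Matrix.ext fun a i =>
    (mul_eq_zero.mp (h4 a i j b)).resolve_right hjb
  have := congrArg Matrix.trace h5
  rw [Matrix.trace_sub, htE, Matrix.trace_one, Fintype.card_fin, Matrix.trace_zero] at this
  exact one_ne_zero (α := k) (by linear_combination this)

omit [Invertible (2 : k)] in
theorem traceNondeg_map {K : Type} [Field K] [Algebra k K] {r : G →* Mat2 k} (hnd : TraceNondeg r) :
    TraceNondeg ((mapHom (algebraMap k K)).comp r) := by
  intro X hX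
  refine Matrix.ext fun i j => ?_
  let b := Module.Basis.ofVectorSpace k K
  refine b.ext_elem fun l => ?_
  have h0 : X.map (b.coord l) = 0 := hnd _ fun g => by
    have := congrArg (b.coord l) (hX g)
    rw [map_zero] at this
    rw [← this]
    simp only [Matrix.trace, Matrix.diag, Matrix.mul_apply, Matrix.map_apply, map_sum, MonoidHom.coe_comp,
      Function.comp_apply, mapHom_apply]
    refine Finset.sum_congr rfl fun a _ => Finset.sum_congr rfl fun e _ => ?_
    rw [mul_comm (X a e), ← Algebra.smul_def, map_smul, smul_eq_mul, mul_comm]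
  rw [Matrix.zero_apply, map_zero, Finsupp.zero_apply]
  exact congrFun (congrFun h0 i) j

end Pure

theorem isAbsolutelyIrreducible_of_traceNondeg {k : Type} [Field k] [Invertible (2 : k)]
    {ρ : ResidualGaloisRep k} {r : GalQ →* Mat2 k} (h : RHasMatrix ρ r) (hnd : TraceNondeg r) :
    ρ.IsAbsolutelyIrreducible := by
  obtain ⟨b, hb⟩ := h.baseChange (k' := AlgebraicClosure k)
  have hnd' := traceNondeg_map (K := AlgebraicClosure k) hnd
  intro W hW
  by_contra hcon
  push Not at hcon
  obtain ⟨v, hv, hv0⟩ := Submodule.exists_mem_ne_zero_of_ne_bot hcon.1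
  obtain ⟨f, hf0, hfW⟩ := Submodule.exists_le_ker_of_lt_top W hcon.2.lt_top
  let w : Fin 2 → AlgebraicClosure k := fun i => f (b i)
  have hfx : ∀ x, f x = w ⬝ᵥ (b.repr x : Fin 2 → AlgebraicClosure k) := fun x => by
    conv_lhs => rw [← b.sum_repr x]
    rw [map_sum]
    exact Finset.sum_congr rfl fun i _ => by rw [map_smul, smul_eq_mul, mul_comm]
  have h0 : Matrix.vecMulVec (b.repr v : Fin 2 → AlgebraicClosure k) w = 0 := hnd' _ fun g => by
    rw [Matrix.vecMulVec_mul, Matrix.trace_vecMulVec, dotProduct_comm, ← Matrix.dotProduct_mulVec,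
      ← hb g, LinearMap.toMatrix_mulVec_repr, ← hfx]
    exact LinearMap.mem_ker.mp (hfW (hW g v hv))
  have hv1 : (b.repr v : Fin 2 → AlgebraicClosure k) ≠ 0 := fun h => hv0
    (b.repr.map_eq_zero_iff.mp (Finsupp.ext fun i => congrFun h i))
  have hw1 : w ≠ 0 := fun h => hf0 (b.ext fun i => congrFun h i)
  obtain ⟨i, hi⟩ := Function.ne_iff.mp hv1
  obtain ⟨j, hj⟩ := Function.ne_iff.mp hw1
  exact mul_ne_zero hi hj (congrFun (congrFun h0 i) j)

variable {N p : ℕ} [NeZero N] [Fact p.Prime]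

theorem commute_galois_of_mem (D : EichlerShimuraDatum N p) (S : Set ℕ) {x : Module.End ℤ_[p] D.L}
    (hx : x ∈ heckeClosure D S) (g : GQ) : Commute (D.galois g) x := by
  have hle : heckeClosure D S ≤ Subalgebra.centralizer ℤ_[p] {D.galois g} := Algebra.adjoin_le (by
    rintro _ ⟨i, rfl⟩
    rw [SetLike.mem_coe, Subalgebra.mem_centralizer_iff]
    rintro y rfl
    exact (D.galois_hecke g _).eq)
  exact (Subalgebra.mem_centralizer_iff ℤ_[p]).mp (hle hx) _ rfl

theorem uTrace_comm (D : EichlerShimuraDatum N p) (S : Finset ℕ) (g h : GQ) :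
    uTrace D (g * h) = uTrace D (h * g) := by
  have hc := commute_galois_of_mem D _ (uTrace_mem D frobeniusPowDensity S (g * h)) h
  have e : uTrace D (h * g) = D.galois h * uTrace D (g * h) * D.galois h⁻¹ := by
    rw [uTrace, uTrace, mul_add, add_mul, mul_smul_comm, smul_mul_assoc, ← map_mul, ← map_mul, ← map_mul,
      ← map_mul, map_mul (cyc p) h g, map_mul (cyc p) g h, mul_comm (cyc p h) (cyc p g)]
    rw [show h * (g * h) * h⁻¹ = h * g by group, show h * (g * h)⁻¹ * h⁻¹ = (h * g)⁻¹ by group]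
  rw [e, hc.eq, mul_assoc, galois_mul_inv, mul_one]

theorem uTrace_mul (D : EichlerShimuraDatum N p) (S : Finset ℕ) (g h : GQ) :
    uTrace D g * uTrace D h = uTrace D (g * h) + (cyc p h).val • uTrace D (g * h⁻¹) := by
  have hc := (commute_galois_of_mem D _ (uTrace_mem D frobeniusPowDensity S h) g⁻¹).eq
  have hcy : (cyc p h).val * (cyc p (g * h⁻¹)).val = (cyc p g).val := by
    rw [← Units.val_mul, mul_comm (cyc p h), ← map_mul, inv_mul_cancel_right]
  rw [show uTrace D g = D.galois g + (cyc p g).val • D.galois g⁻¹ from rfl, add_mul, smul_mul_assoc, hc]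
  simp only [uTrace, mul_add, add_mul, mul_smul_comm, smul_mul_assoc, ← map_mul, smul_add, smul_smul,
    hcy, mul_inv_rev, inv_inv]
  rw [map_mul (cyc p) g h, Units.val_mul]
  abel

/-- The representation of Galois with values in a ring receiving the Hecke algebra. -/
theorem exists_galoisRep_of_heckeHom (hp2 : p ≠ 2) (S : Finset ℕ) (hpS : p ∈ S)
    {T : Type} [CommRing T] [IsLocalRing T] [IsAdicComplete (maximalIdeal T) T]
    (hp : (p : T) ∈ maximalIdeal T)
    (π : CuspForm.heckeAlgebra N 2 (↑S : Set ℕ) →+* T)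
    (rbar : GQ →* Mat2 (ResidueField T)) (hlev : GaloisFactorsThroughFiniteLevel rbar)
    (hnd : TraceNondeg rbar)
    (hfrob : ∀ (ℓ : ℕ) (hℓ : ℓ.Prime) (hℓN : ¬ ℓ ∣ N) (hℓS : ℓ ∉ (↑S : Set ℕ)),
      ∀ A : ValuationSubring (AlgebraicClosure ℚ), A.LiesOverPrime ℓ →
        ∀ σ : GQ, A.IsFrobeniusAt σ ℓ →
          (rbar σ).trace = residue T (π (CuspForm.heckeAlgebra.T hℓ hℓN hℓS)) ∧
          (rbar σ).det = (ℓ : ResidueField T)) :
    ∃ (ρ : GaloisRepAdic T) (r : GQ →* Mat2 T), HasMatrix ρ r ∧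
      (∀ (ℓ : ℕ) (hℓ : ℓ.Prime) (hℓN : ¬ ℓ ∣ N) (hℓS : ℓ ∉ (↑S : Set ℕ)),
        ∀ A : ValuationSubring (AlgebraicClosure ℚ), A.LiesOverPrime ℓ →
          ∀ σ : GQ, A.IsFrobeniusAt σ ℓ → LinearMap.charpoly (ρ.ρ σ) =
            X ^ 2 - C (π (CuspForm.heckeAlgebra.T hℓ hℓN hℓS)) * X + C ((ℓ : T))) ∧
      (∀ g, residue T (r g).trace = (rbar g).trace) ∧
      ρ.residual.IsAbsolutelyIrreducible := by
  classical
  letI : Algebra ℤ_[p] T := padicAlgebra hp
  obtain ⟨D⟩ := nonempty_datum (fun M => Model.kummerReduction M) N p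
  have hnotunit : ¬ IsUnit (p : T) := (mem_maximalIdeal _).mp hp
  have h2 : IsUnit (2 : T) := by
    have hz : IsUnit (2 : ℤ_[p]) := by
      rw [show (2 : ℤ_[p]) = ((2 : ℕ) : ℤ_[p]) by norm_num, PadicInt.isUnit_iff,
        PadicInt.norm_natCast_eq_one_iff]
      exact (Nat.coprime_primes (Fact.out : p.Prime) Nat.prime_two).mpr hp2
    rw [← map_ofNat (algebraMap ℤ_[p] T) 2]
    exact hz.map _
  letI : Invertible (2 : T) := h2.invertible
  letI : Invertible (2 : ResidueField T) := ((map_ofNat (residue T) 2) ▸ h2.map (residue T)).invertible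
  obtain ⟨ψ, hψ, hψc⟩ := exists_extension (D := D) (S := (↑S : Set ℕ)) hp
    (fun x hx => IsHausdorff.haus (inferInstance : IsHausdorff (maximalIdeal T) T) x fun k => by
      rw [SModEq.zero, smul_eq_mul, Ideal.mul_top]; exact hx k) π
  let u : GQ → heckeClosure D (↑S : Set ℕ) := fun g => ⟨uTrace D g, uTrace_mem D frobeniusPowDensity S g⟩
  let t : GQ → T := fun g => ψ (u g)
  let d : GQ →* T := (algebraMap ℤ_[p] T).toMonoidHom.comp ((Units.coeHom ℤ_[p]).comp (cyc p))
  have hd : ∀ g, d g = algebraMap ℤ_[p] T (cyc p g).val := fun _ => rfl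
  have hpt : IsPseudo t d :=
    { map_one := by
        show ψ (u 1) = 2
        rw [show u 1 = 2 from Subtype.ext (by
          show uTrace D 1 = ((2 : heckeClosure D (↑S : Set ℕ)) : Module.End ℤ_[p] D.L)
          rw [uTrace, inv_one, map_one, map_one, Units.val_one, one_smul]
          norm_cast), map_ofNat]
      comm := fun g h => congrArg ψ (Subtype.ext (uTrace_comm D S g h))
      mul := fun g h => by
        show ψ (u g) * ψ (u h) = ψ (u (g * h)) + d h * ψ (u (g * h⁻¹))
        rw [← map_mul, show u g * u h = u (g * h) + (cyc p h).val • u (g * h⁻¹) from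
          Subtype.ext (uTrace_mul D S g h), map_add, map_smul, Algebra.smul_def, hd] }
  set c : GQ := Semistable.conjQ
  have hdc : d c = -1 := by
    rw [hd, Semistable.cyc_conjQ, Units.val_neg, Units.val_one, map_neg, map_one]
  -- the residual trace
  have hres : ∀ g, residue T (t g) = (rbar g).trace := fun g => by
    obtain ⟨m, hm⟩ := hψc 1
    obtain ⟨F, hF, hF'⟩ := exists_level_eigen D S ψ hm frobeniusPowDensity
    obtain ⟨L, hL, hrL⟩ := hlev
    obtain ⟨ℓ, hℓ, hbad, A, hA, σ, hσ, b, hb⟩ :=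
      frobeniusPowDensity (F ⊔ L) (S ∪ {p} ∪ N.primeFactors) g
    simp only [Finset.mem_union, Finset.mem_singleton, not_or] at hbad
    have hℓN : ¬ ℓ ∣ N := fun h => hbad.2 (Nat.mem_primeFactors.mpr ⟨hℓ, h, NeZero.ne N⟩)
    have hℓS : ℓ ∉ (↑S : Set ℕ) := fun h => hbad.1.1 (by simpa using h)
    let i : GoodPrimeOff N (↑S : Set ℕ) := ⟨⟨⟨ℓ, hℓ⟩, hℓN⟩, hℓS⟩
    have h1 := hF' g σ i A b hbad.1.2 hA hσ fun x hx => hb x ((le_sup_left : F ≤ F ⊔ L) hx)
    rw [pow_one, ← residue_eq_zero_iff, map_sub, sub_eq_zero, map_frobPoly, hψ i] at h1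
    have h3 : rbar g = rbar σ ^ b := by
      have h4 : rbar ((σ ^ b)⁻¹ * g) = 1 := hrL _ fun x hx => by
        rw [AlgEquiv.mul_apply, ← hb x ((le_sup_right : L ≤ F ⊔ L) hx)]
        exact (σ ^ b).symm_apply_apply x
      rw [← mul_inv_cancel_left (σ ^ b) g, map_mul, h4, mul_one, map_pow]
    obtain ⟨e1, e2⟩ := hfrob ℓ hℓ hℓN hℓS A hA σ hσ
    rw [h3, trace_pow_eq_frobPoly, e1, e2]
    rw [map_natCast] at h1
    exact h1
  have hc0 : (rbar c).trace = 0 := by
    rw [← hres, hpt.map_c Semistable.conjQ_mul_self hdc, map_zero]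
  obtain ⟨g₀, h₀, hx⟩ := exists_xPart_ne_zero rbar hnd c Semistable.conjQ_mul_self hc0
  have hx' : IsUnit (IsPseudo.xPart t c g₀ h₀) := by
    refine notMem_maximalIdeal.mp fun hmem => hx ?_
    rw [← residue_eq_zero_iff, map_xPart] at hmem
    rwa [show (fun x => (rbar x).trace) = residue T ∘ t from funext fun x => (hres x).symm]
  let r := hpt.rep Semistable.conjQ_mul_self hdc g₀ h₀ hx'.unit hx'.unit_spec
  have htr : ∀ g, (r g).trace = t g := hpt.trace_rep _ _ _ _ _ _
  have hdet : ∀ g, (r g).det = d g := hpt.det_rep _ _ _ _ _ _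
  have hcts : MatCts r := fun n => by
    obtain ⟨m, hm⟩ := hψc n
    obtain ⟨F, hF, hF'⟩ := exists_uTrace_level D m
    refine ⟨F, hF, fun σ hσ => ?_⟩
    let q := Ideal.Quotient.mk (maximalIdeal T ^ n)
    have hsh : ∀ y, q (t (y * σ)) = q (t y) := fun y => by
      obtain ⟨f, hf⟩ := hF' (y * σ) y fun x hx => by rw [AlgEquiv.mul_apply, hσ x hx]
      refine (Ideal.Quotient.mk_eq_mk_iff_sub_mem _ _).mpr ?_
      show ψ (u (y * σ)) - ψ (u y) ∈ _
      rw [← map_sub]
      exact hm _ ⟨f, by rw [AddSubgroupClass.coe_sub]; exact hf⟩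
    have hsh' : ∀ y, q (t (σ * y)) = q (t y) := fun y => by rw [hpt.comm, hsh]
    have ha : ∀ y, q (IsPseudo.aPart t c (y * σ)) = q (IsPseudo.aPart t c y) := fun y => by
      simp only [IsPseudo.aPart, map_mul, map_add, ← mul_assoc, hsh]
    have ha' : ∀ y, q (IsPseudo.aPart t c (σ * y)) = q (IsPseudo.aPart t c y) := fun y => by
      simp only [IsPseudo.aPart, map_mul, map_add, hsh']
      rw [hpt.comm c (σ * y), mul_assoc, hsh', hpt.comm y c]
    have ha1 : q (IsPseudo.aPart t c σ) = 1 := by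
      rw [← one_mul σ, ha, hpt.aPart_one Semistable.conjQ_mul_self hdc, map_one]
    have he1 : q (IsPseudo.ePart t c σ) = 1 := by
      rw [IsPseudo.ePart, map_sub, ha1]
      conv_lhs => rw [← one_mul σ, hsh, hpt.map_one, map_ofNat]
      norm_num
    have hx1 : ∀ y, q (IsPseudo.xPart t c σ y) = 0 := fun y => by
      rw [IsPseudo.xPart, map_sub, map_mul, ha', ha1, one_mul, sub_self]
    have hx2 : ∀ y, q (IsPseudo.xPart t c y σ) = 0 := fun y => by
      rw [IsPseudo.xPart, map_sub, map_mul, ha, ha1, mul_one, sub_self]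
    intro i j
    rw [← Ideal.Quotient.eq_zero_iff_mem]
    change q ((r σ - 1) i j) = 0
    fin_cases i <;> fin_cases j
    · show q (IsPseudo.aPart t c σ - 1) = 0
      rw [map_sub, ha1, map_one, sub_self]
    · show q (IsPseudo.xPart t c σ h₀ - 0) = 0
      rw [sub_zero, hx1]
    · show q (↑hx'.unit⁻¹ * IsPseudo.xPart t c g₀ σ - 0) = 0
      rw [sub_zero, map_mul, hx2, mul_zero]
    · show q (IsPseudo.ePart t c σ - 1) = 0
      rw [map_sub, he1, map_one, sub_self]
  refine ⟨ofMatrix r hcts, r, hasMatrix_ofMatrix r hcts, fun ℓ hℓ hℓN hℓS A hA σ hσ => ?_,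
    fun g => by rw [htr, hres], ?_⟩
  · have hℓp : ℓ ≠ p := fun h => hℓS (h ▸ Finset.mem_coe.mpr hpS)
    obtain ⟨b, hb⟩ := hasMatrix_ofMatrix r hcts
    rw [← LinearMap.charpoly_toMatrix _ b, hb, Matrix.charpoly_fin_two, htr, hdet]
    congr
    · show ψ (u σ) = _
      rw [← hψ ⟨⟨⟨ℓ, hℓ⟩, hℓN⟩, hℓS⟩]
      exact congrArg ψ (Subtype.ext (uTrace_frobenius D hℓp hA hσ))
    · rw [hd, cyc_frobenius p hℓ hℓp hA hσ, map_natCast]
  · obtain ⟨U, hU⟩ := exists_conj_of_trace_eq' hnd (π := RingHom.id _) (fun a ha => isUnit_iff_ne_zero.mpr ha)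
      (r := rbar) (r' := (mapHom (residue T)).comp r) (fun g => Matrix.map_id _) (fun g => by
        rw [← hres, ← htr]
        simp [Matrix.trace_fin_two])
    refine isAbsolutelyIrreducible_of_traceNondeg (hasMatrix_ofMatrix r hcts).residual ?_
    intro X hX
    have h0 : (↑U⁻¹ : Mat2 (ResidueField T)) * X * U = 0 := hnd _ fun g => by
      have e : (mapHom (residue T)).comp r g = U * rbar g * ↑U⁻¹ := by
        rw [← hU g, mul_assoc, Units.mul_inv, mul_one]
      rw [← hX g, e, mul_assoc, mul_assoc, Matrix.trace_mul_comm]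
      simp only [mul_assoc]
    calc X = (U : Mat2 (ResidueField T)) * ((↑U⁻¹ : Mat2 (ResidueField T)) * X * U) * ↑U⁻¹ := by
          simp [mul_assoc]
      _ = 0 := by rw [h0]; simp

end Fermat.Agent.Auto
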