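/-
Hecke-Galois data over the localised Hecke algebra of weight two.
-/
import Fermat.Agent.Auto.HeckeRep
import Fermat.Agent.S23
import Fermat.Prelude.Def_CuspForm_HeckeLocal

set_option autoImplicit false
set_option linter.style.haveILetI false
set_option linter.unusedSectionVars false

noncomputable section

namespace Fermat.Agent.Auto

open Fermat.Agent.Galois (GQ)
open Fermat.Agent.Deform CuspForm
open IsLocalRing
open scoped TensorProduct

/-- Integral structures exist in weight two. -/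
instance fact_hasIntegralStructure (N : ℕ) [NeZero N] : Fact (HasIntegralStructure N 2) :=
  ⟨Fermat.Agent.S23.result N⟩

variable (N : ℕ) [NeZero N] (S : Set ℕ) (𝒪 : Type) [CommRing 𝒪] [IsDomain 𝒪] [IsDiscreteValuationRing 𝒪]
  [IsAdicComplete (maximalIdeal 𝒪) 𝒪] (θ : heckeAlgebra N 2 S →+* ResidueField 𝒪)

set_option synthInstance.maxHeartbeats 400000 in
theorem heckeLocal_algebraMap_surjective :
    Function.Surjective (algebraMap (heckeBaseAlgebra N S 𝒪) (heckeLocal N S 𝒪 θ)) := by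
  haveI : Module.Finite 𝒪 (heckeBaseAlgebra N S 𝒪) :=
    inferInstanceAs (Module.Finite 𝒪 (𝒪 ⊗[ℤ] ↥(heckeLatticeAlgebra N S)))
  obtain ⟨hfin, hbij, -, -⟩ :=
    Algebra.finite_maximalSpectrum_and_bijective_localization_of_module_finite (𝒪 := 𝒪)
      (heckeBaseAlgebra N S 𝒪)
  classical
  let P : MaximalSpectrum (heckeBaseAlgebra N S 𝒪) := ⟨heckeLocalIdeal N S 𝒪 θ, inferInstance⟩
  intro z
  let e := IsLocalization.algEquiv (heckeLocalIdeal N S 𝒪 θ).primeCompl
    (Localization.AtPrime (heckeLocalIdeal N S 𝒪 θ)) (heckeLocal N S 𝒪 θ)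
  obtain ⟨b, hb⟩ := hbij.2 (Function.update 0 P (e.symm z))
  refine ⟨b, ?_⟩
  have h := congrFun hb P
  rw [Function.update_self] at h
  rw [← e.apply_symm_apply z, ← h]
  exact (e.commutes b).symm

set_option synthInstance.maxHeartbeats 400000 in
theorem residue_π_eq (t : heckeAlgebra N 2 S) :
    residue (heckeLocal N S 𝒪 θ) (heckeLocal.π N S 𝒪 θ t) =
      ResidueField.map (algebraMap 𝒪 (heckeLocal N S 𝒪 θ)) (θ t) := by
  obtain ⟨a, ha⟩ := residue_surjective (θ t)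
  rw [← ha, ResidueField.map_residue, ← sub_eq_zero, ← map_sub, residue_eq_zero_iff,
    mem_maximalIdeal, mem_nonunits_iff]
  have hx : (1 : 𝒪) ⊗ₜ[ℤ] t - algebraMap 𝒪 _ a ∈ heckeCharKernel N S 𝒪 θ := by
    rw [mem_heckeCharKernel_iff, map_sub, residualCharacter_tmul, residualCharacter_algebraMap, map_one,
      one_mul, ha, sub_self]
  have hm : latticeBaseChange N S 𝒪 ((1 : 𝒪) ⊗ₜ[ℤ] t - algebraMap 𝒪 _ a) ∈ heckeLocalIdeal N S 𝒪 θ :=
    Ideal.mem_map_of_mem _ hx
  rw [map_sub, latticeBaseChange_algebraMap] at hm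
  rw [IsScalarTower.algebraMap_apply 𝒪 (heckeBaseAlgebra N S 𝒪) (heckeLocal N S 𝒪 θ),
    show heckeLocal.π N S 𝒪 θ t = algebraMap (heckeBaseAlgebra N S 𝒪) (heckeLocal N S 𝒪 θ)
      (latticeBaseChange N S 𝒪 ((1 : 𝒪) ⊗ₜ[ℤ] t)) from rfl, ← map_sub,
    IsLocalization.AtPrime.isUnit_to_map_iff (heckeLocal N S 𝒪 θ) (heckeLocalIdeal N S 𝒪 θ),
    Ideal.mem_primeCompl_iff]
  exact fun h => h hm

set_option synthInstance.maxHeartbeats 400000 in
theorem adjoin_range_π_eq : Algebra.adjoin 𝒪 (Set.range (heckeLocal.π N S 𝒪 θ)) = ⊤ := by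
  rw [eq_top_iff]
  rintro z -
  obtain ⟨b, rfl⟩ := heckeLocal_algebraMap_surjective N S 𝒪 θ z
  obtain ⟨x, rfl⟩ := latticeBaseChange_surjective N S 𝒪 b
  induction x using TensorProduct.induction_on with
  | zero => rw [map_zero, map_zero]; exact zero_mem _
  | add x y hx hy => rw [map_add, map_add]; exact add_mem hx hy
  | tmul a t =>
    have e : a ⊗ₜ[ℤ] t = algebraMap 𝒪 (𝒪 ⊗[ℤ] ↥(heckeAlgebra N 2 S)) a * ((1 : 𝒪) ⊗ₜ t) := by
      simp [Algebra.TensorProduct.algebraMap_apply]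
    rw [e, map_mul, map_mul, latticeBaseChange_algebraMap, ← IsScalarTower.algebraMap_apply]
    exact mul_mem (Subalgebra.algebraMap_mem _ a) (Algebra.subset_adjoin ⟨t, rfl⟩)

theorem residue_comp_surjective :
    Function.Surjective (residue (heckeLocal N S 𝒪 θ) ∘ algebraMap 𝒪 (heckeLocal N S 𝒪 θ)) := by
  intro z
  obtain ⟨z, rfl⟩ := residue_surjective z
  have hz : z ∈ Algebra.adjoin 𝒪 (Set.range (heckeLocal.π N S 𝒪 θ)) := by
    rw [adjoin_range_π_eq]; trivial
  induction hz using Algebra.adjoin_induction with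
  | mem x hx =>
    obtain ⟨t, rfl⟩ := hx
    obtain ⟨a, ha⟩ := residue_surjective (θ t)
    exact ⟨a, by rw [Function.comp_apply, residue_π_eq, ← ha, ResidueField.map_residue]⟩
  | algebraMap a => exact ⟨a, rfl⟩
  | add x y _ _ hx hy =>
    obtain ⟨a, ha⟩ := hx
    obtain ⟨b, hb⟩ := hy
    exact ⟨a + b, by simp only [Function.comp_apply, map_add] at ha hb ⊢; rw [ha, hb]⟩
  | mul x y _ _ hx hy =>
    obtain ⟨a, ha⟩ := hx
    obtain ⟨b, hb⟩ := hy
    exact ⟨a * b, by simp only [Function.comp_apply, map_mul] at ha hb ⊢; rw [ha, hb]⟩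

set_option synthInstance.maxHeartbeats 400000 in
theorem exists_point_heckeLocal (χ : heckeAlgebra N 2 S →+* 𝒪)
    (hχ : ∀ t, residue 𝒪 (χ t) = θ t) :
    ∃ ψ : heckeLocal N S 𝒪 θ →ₐ[𝒪] 𝒪, ∀ t, ψ (heckeLocal.π N S 𝒪 θ t) = χ t := by
  let e := AlgEquiv.ofBijective (latticeRestrictHom N S)
    (latticeRestrictHom_bijective N S (Fermat.Agent.S23.result N))
  let g : heckeBaseAlgebra N S 𝒪 →ₐ[𝒪] 𝒪 := Algebra.TensorProduct.lift (AlgHom.id 𝒪 𝒪)
    (χ.toIntAlgHom.comp e.symm.toAlgHom) fun _ _ => Commute.all _ _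
  have hg : ∀ x, residue 𝒪 (g (latticeBaseChange N S 𝒪 x)) = residualCharacter N S 𝒪 θ x := by
    intro x
    induction x using TensorProduct.induction_on with
    | zero => simp only [map_zero]
    | add x y hx hy => simp only [map_add, hx, hy]
    | tmul a t =>
      rw [residualCharacter_tmul, ← hχ, ← map_mul]
      congr 1
      show a * χ (e.symm (e t)) = a * χ t
      rw [AlgEquiv.symm_apply_apply]
  have hu : ∀ y : heckeLocalSubmonoid N S 𝒪 θ, IsUnit (g y) := by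
    rintro ⟨_, x, hx, rfl⟩
    refine notMem_maximalIdeal.mp fun h => Ideal.mem_primeCompl_iff.mp hx ?_
    rw [mem_heckeCharKernel_iff, ← hg]
    exact (residue_eq_zero_iff _).mpr h
  refine ⟨IsLocalization.liftAlgHom (M := heckeLocalSubmonoid N S 𝒪 θ) (S := heckeLocal N S 𝒪 θ) hu,
    fun t => ?_⟩
  show IsLocalization.lift hu (algebraMap (heckeBaseAlgebra N S 𝒪) (heckeLocal N S 𝒪 θ) _) = _
  rw [IsLocalization.lift_eq]
  show (1 : 𝒪) * χ (e.symm (e t)) = χ t
  rw [AlgEquiv.symm_apply_apply, one_mul]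

variable {p : ℕ} [Fact p.Prime]

set_option synthInstance.maxHeartbeats 400000 in
/-- A non-Eisenstein residual eigen-system has a Hecke-Galois datum over its localised Hecke algebra. -/
theorem nonempty_heckeGaloisRepDatum (hp2 : p ≠ 2) (S : Finset ℕ) (hpS : p ∈ S)
    (hp : (p : 𝒪) ∈ maximalIdeal 𝒪)
    (θ : heckeAlgebra N 2 (↑S : Set ℕ) →+* ResidueField 𝒪)
    (ρbar : ResidualGaloisRep (ResidueField 𝒪)) (habs : ρbar.IsAbsolutelyIrreducible)
    (hfrob : ∀ (ℓ : ℕ) (hℓ : ℓ.Prime) (hℓN : ¬ ℓ ∣ N) (hℓS : ℓ ∉ (↑S : Set ℕ)),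
      ∀ A : ValuationSubring (AlgebraicClosure ℚ), A.LiesOverPrime ℓ →
        ∀ σ : GQ, A.IsFrobeniusAt σ ℓ →
          LinearMap.charpoly (ρbar.ρ σ) = Polynomial.X ^ 2 -
            Polynomial.C (θ (heckeAlgebra.T hℓ hℓN hℓS)) * Polynomial.X +
              Polynomial.C ((ℓ : ResidueField 𝒪))) :
    ∃ H : HeckeGaloisRepDatum N (↑S : Set ℕ) 𝒪 θ (heckeLocal N (↑S : Set ℕ) 𝒪 θ),
      H.π = heckeLocal.π N (↑S : Set ℕ) 𝒪 θ ∧
      H.ρ.residual.IsEquiv (ρbar.baseChangeAlong (ResidueField.map (algebraMap 𝒪 _))) := by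
  let T := heckeLocal N (↑S : Set ℕ) 𝒪 θ
  let f := ResidueField.map (algebraMap 𝒪 T)
  obtain ⟨r₀, hr₀⟩ := exists_rhasMatrix ρbar
  have hnd : TraceNondeg r₀ := hr₀.traceNondeg habs
  have hlev : GaloisFactorsThroughFiniteLevel ((mapHom f).comp r₀) := by
    obtain ⟨L, hL, hL'⟩ := ρbar.factorsThroughFiniteLevel
    obtain ⟨b, hb⟩ := hr₀
    refine ⟨L, hL, fun σ hσ => ?_⟩
    rw [MonoidHom.comp_apply, ← hb σ, hL' σ hσ, LinearMap.toMatrix_one, map_one]
  letI : Algebra (ResidueField 𝒪) (ResidueField T) := f.toAlgebra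
  have hnd' : TraceNondeg ((mapHom f).comp r₀) := traceNondeg_map hnd
  have hpT : (p : T) ∈ maximalIdeal T := by
    rw [← map_natCast (algebraMap 𝒪 T)]
    exact map_nonunit _ _ hp
  obtain ⟨ρ, r, hr, hchar, htr, hirr⟩ := exists_galoisRep_of_heckeHom hp2 S hpS hpT
    (heckeLocal.π N (↑S : Set ℕ) 𝒪 θ) _ hlev hnd' (fun ℓ hℓ hℓN hℓS A hA σ hσ => by
      obtain ⟨b, hb⟩ := hr₀
      have h := hfrob ℓ hℓ hℓN hℓS A hA σ hσ
      rw [← LinearMap.charpoly_toMatrix _ b, hb, Matrix.charpoly_fin_two] at h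
      have ht := congrArg (fun P => Polynomial.coeff P 1) h
      have hd := congrArg (fun P => Polynomial.coeff P 0) h
      simp [Polynomial.coeff_X_pow, Polynomial.coeff_C] at ht hd
      refine ⟨?_, ?_⟩
      · rw [MonoidHom.comp_apply, mapHom_apply, residue_π_eq, ← ht]
        simp [Matrix.trace_fin_two, f]
        rfl
      · rw [MonoidHom.comp_apply, mapHom_apply, ← RingHom.mapMatrix_apply, ← RingHom.map_det, hd,
          map_natCast])
  refine ⟨{
    π := heckeLocal.π N (↑S : Set ℕ) 𝒪 θ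
    residue_π := residue_π_eq N _ 𝒪 θ
    adjoin_range_π := adjoin_range_π_eq N _ 𝒪 θ
    exists_point := exists_point_heckeLocal N _ 𝒪 θ
    residue_surjective := residue_comp_surjective N _ 𝒪 θ
    ρ := ρ
    charpoly_frob := hchar
    residual_absIrr := hirr }, rfl, ?_⟩
  obtain ⟨U, hU⟩ := exists_conj_of_trace_eq' hnd' (π := RingHom.id _)
    (fun a ha => isUnit_iff_ne_zero.mpr ha) (r := (mapHom f).comp r₀) (r' := (mapHom (residue T)).comp r)
    (fun g => Matrix.map_id _) (fun g => by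
      rw [← htr]
      simp [Matrix.trace_fin_two])
  obtain ⟨b, hb⟩ := hr.residual
  let e : ρ.residual.V ≃ₗ[ResidueField T] ρ.residual.V :=
    LinearEquiv.ofLinearMap (Matrix.toLin b b (U : Mat2 _)) (Matrix.toLin b b (↑U⁻¹ : Mat2 _))
      (by rw [← Matrix.toLin_mul, Units.mul_inv, Matrix.toLin_one])
      (by rw [← Matrix.toLin_mul, Units.inv_mul, Matrix.toLin_one])
  refine RHasMatrix.isEquiv (r := (mapHom f).comp r₀) ⟨b.map e, fun σ => ?_⟩ (hr₀.baseChangeAlong f)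
  have hm : LinearMap.toMatrix (b.map e) (b.map e) (ρ.residual.ρ σ) =
      LinearMap.toMatrix b b (e.symm.toLinearMap ∘ₗ ρ.residual.ρ σ ∘ₗ e.toLinearMap) := by
    ext i j
    simp [LinearMap.toMatrix_apply]
  have he : LinearMap.toMatrix b b e.toLinearMap = (U : Mat2 _) := LinearMap.toMatrix_toLin b b _
  have he' : LinearMap.toMatrix b b e.symm.toLinearMap = (↑U⁻¹ : Mat2 _) :=
    LinearMap.toMatrix_toLin b b _
  rw [hm, LinearMap.toMatrix_comp b b b, LinearMap.toMatrix_comp b b b, he, he', hb, hU σ, ← mul_assoc,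
    Units.inv_mul, one_mul]

end Fermat.Agent.Auto
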