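/-
Factorisation through the localised Hecke algebra of weight two, and its reducedness.
-/
import Fermat.Agent.Auto.Datum
import Mathlib.RingTheory.Etale.Field
import Mathlib.RingTheory.Unramified.Field

set_option autoImplicit false
set_option linter.unusedSectionVars false
set_option linter.style.haveILetI false

noncomputable section

namespace Fermat.Agent.Auto

open CuspForm IsLocalRing
open scoped TensorProduct IsMulCommutative

/-- A torsion-free reduced finite ring stays reduced over a domain of characteristic zero. -/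
theorem isReduced_tensor_field_int (H : Type) [CommRing H] [IsReduced H] [Module.Finite ℤ H] [Module.Free ℤ H]
    (K : Type) [Field K] [CharZero K] : IsReduced (K ⊗[ℤ] H) := by
  have hinc : Function.Injective (Algebra.TensorProduct.includeRight : H →ₐ[ℤ] ℚ ⊗[ℤ] H) :=
    Algebra.TensorProduct.includeRight_injective Int.cast_injective
  have hfrac : ∀ x : ℚ ⊗[ℤ] H, ∃ (n : ℕ) (h : H), n ≠ 0 ∧ n • x = (1 : ℚ) ⊗ₜ h := by
    intro x
    induction x using TensorProduct.induction_on with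
    | zero => exact ⟨1, 0, one_ne_zero, by rw [smul_zero, TensorProduct.tmul_zero]⟩
    | tmul q h =>
      refine ⟨q.den, q.num • h, q.den_nz, ?_⟩
      rw [TensorProduct.smul_tmul', TensorProduct.tmul_smul, TensorProduct.smul_tmul']
      congr 1
      rw [nsmul_eq_mul, zsmul_eq_mul, mul_one, mul_comm, Rat.mul_den_eq_num]
    | add x y hx hy =>
      obtain ⟨n, h, hn, e⟩ := hx
      obtain ⟨n', h', hn', e'⟩ := hy
      refine ⟨n * n', n' • h + n • h', mul_ne_zero hn hn', ?_⟩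
      rw [smul_add, mul_comm n n', mul_smul, e, mul_comm n' n, mul_smul, e', TensorProduct.tmul_add,
        TensorProduct.tmul_smul, TensorProduct.tmul_smul]
  haveI : IsReduced (ℚ ⊗[ℤ] H) := ⟨fun x hx => by
    obtain ⟨n, h, hn, e⟩ := hfrac x
    have h1 : IsNilpotent (Algebra.TensorProduct.includeRight (R := ℤ) (A := ℚ) h) := by
      rw [Algebra.TensorProduct.includeRight_apply, ← e, nsmul_eq_mul]
      exact Commute.isNilpotent_mul_left (Commute.all _ _) hx
    have h2 : h = 0 := ((IsNilpotent.map_iff hinc).mp h1).eq_zero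
    rw [h2, TensorProduct.tmul_zero] at e
    exact (smul_eq_zero.mp ((Nat.cast_smul_eq_nsmul ℚ n x).trans e)).resolve_left
      (Nat.cast_ne_zero.mpr hn)⟩
  haveI : IsArtinianRing (ℚ ⊗[ℤ] H) := IsArtinianRing.of_finite ℚ _
  haveI : Algebra.FormallyUnramified ℚ (ℚ ⊗[ℤ] H) := by
    letI (m : MaximalSpectrum (ℚ ⊗[ℤ] H)) : Field ((ℚ ⊗[ℤ] H) ⧸ m.asIdeal) :=
      Ideal.Quotient.field m.asIdeal
    haveI : Algebra.FormallyEtale ℚ (Π m : MaximalSpectrum (ℚ ⊗[ℤ] H), (ℚ ⊗[ℤ] H) ⧸ m.asIdeal) :=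
      (Algebra.FormallyEtale.pi_iff (fun m : MaximalSpectrum (ℚ ⊗[ℤ] H) => (ℚ ⊗[ℤ] H) ⧸ m.asIdeal)).mpr
        fun _ => Algebra.FormallyEtale.of_isSeparable ℚ _
    haveI : Algebra.FormallyEtale ℚ (ℚ ⊗[ℤ] H) :=
      .of_equiv ((IsArtinianRing.equivPi (ℚ ⊗[ℤ] H)).restrictScalars ℚ).symm
    infer_instance
  haveI := Algebra.FormallyUnramified.isReduced_of_field K (K ⊗[ℚ] (ℚ ⊗[ℤ] H))
  exact isReduced_of_injective (Algebra.TensorProduct.cancelBaseChange ℤ ℚ K K H).symm.toRingEquiv.toRingHom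
    (Algebra.TensorProduct.cancelBaseChange ℤ ℚ K K H).symm.injective

theorem isReduced_tensor_of_injective (H : Type) [CommRing H] [IsReduced H] [Module.Finite ℤ H] [Module.Free ℤ H]
    (O : Type) [CommRing O] (K : Type) [Field K] [CharZero K] (g : O →+* K) (hg : Function.Injective g) :
    IsReduced (O ⊗[ℤ] H) := by
  haveI := isReduced_tensor_field_int H K
  exact isReduced_of_injective (Algebra.TensorProduct.map g.toIntAlgHom (AlgHom.id ℤ H)).toRingHom
    (Module.Flat.rTensor_preserves_injective_linearMap g.toIntAlgHom.toLinearMap hg)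

theorem isReduced_tensor_int (H : Type) [CommRing H] [IsReduced H] [Module.Finite ℤ H] [Module.Free ℤ H]
    (O : Type) [CommRing O] [IsDomain O] [CharZero O] : IsReduced (O ⊗[ℤ] H) := by
  haveI : CharZero (FractionRing O) :=
    charZero_of_injective_algebraMap (IsFractionRing.injective O (FractionRing O))
  exact isReduced_tensor_of_injective H O (FractionRing O) (algebraMap O (FractionRing O))
    (IsFractionRing.injective O (FractionRing O))

variable (N : ℕ) [NeZero N] (S : Finset ℕ) (𝒪 : Type) [CommRing 𝒪] [IsDomain 𝒪] [IsDiscreteValuationRing 𝒪]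
  [IsAdicComplete (maximalIdeal 𝒪) 𝒪] (θ : heckeAlgebra N 2 (↑S : Set ℕ) →+* ResidueField 𝒪)

set_option synthInstance.maxHeartbeats 400000 in
theorem isReduced_heckeLocal [CharZero 𝒪] [IsReduced (heckeAlgebra N 2 (↑S : Set ℕ))] :
    IsReduced (heckeLocal N (↑S : Set ℕ) 𝒪 θ) := by
  let e := AlgEquiv.ofBijective (latticeRestrictHom N (↑S : Set ℕ))
    (latticeRestrictHom_bijective N _ (Fermat.Agent.S23.result N))
  haveI : IsReduced ↥(heckeLatticeAlgebra N (↑S : Set ℕ)) :=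
    isReduced_of_injective e.symm.toRingEquiv.toRingHom e.symm.injective
  haveI : IsReduced (heckeBaseAlgebra N (↑S : Set ℕ) 𝒪) := isReduced_tensor_int _ 𝒪
  exact isReduced_localizationPreserves (heckeLocalSubmonoid N (↑S : Set ℕ) 𝒪 θ)
    (heckeLocal N (↑S : Set ℕ) 𝒪 θ) inferInstance

set_option synthInstance.maxHeartbeats 400000 in
set_option maxHeartbeats 800000 in
/-- An action of the Hecke algebra congruent to `θ` up to topological nilpotence factors through the
localised Hecke algebra. -/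
theorem exists_factor_heckeLocal (hS : ∀ q : ℕ, q.Prime → q ∣ N → q ∈ S)
    {L : Type} [AddCommGroup L] [Module 𝒪 L] [Module.Finite 𝒪 L] [Module.Free 𝒪 L]
    (φ : heckeAlgebra N 2 (↑S : Set ℕ) →+* Module.End 𝒪 L) (a : ℕ → 𝒪)
    (ha : ∀ (ℓ : ℕ) (hℓ : ℓ.Prime) (hℓN : ¬ ℓ ∣ N) (hℓS : ℓ ∉ (↑S : Set ℕ)),
      residue 𝒪 (a ℓ) = θ (heckeAlgebra.T hℓ hℓN hℓS))
    (hnil : ∀ (ℓ : ℕ) (hℓ : ℓ.Prime) (hℓN : ¬ ℓ ∣ N) (hℓS : ℓ ∉ (↑S : Set ℕ)) (x : L),
      ∃ j : ℕ, ∀ j', j ≤ j' →
        ((φ (heckeAlgebra.T hℓ hℓN hℓS) - algebraMap 𝒪 (Module.End 𝒪 L) (a ℓ)) ^ j') x ∈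
          maximalIdeal 𝒪 • (⊤ : Submodule 𝒪 L)) :
    ∃ Φ : heckeLocal N (↑S : Set ℕ) 𝒪 θ →ₐ[𝒪] Module.End 𝒪 L,
      ∀ t, Φ (heckeLocal.π N (↑S : Set ℕ) 𝒪 θ t) = φ t := by
  let A : Subalgebra 𝒪 (Module.End 𝒪 L) := Algebra.adjoin 𝒪 (Set.range φ)
  haveI : IsMulCommutative A := Algebra.isMulCommutative_adjoin 𝒪 (by
    rintro _ ⟨s, rfl⟩ _ ⟨t, rfl⟩
    exact (Commute.all s t).map φ)
  let φA : heckeAlgebra N 2 (↑S : Set ℕ) →+* A :=
    φ.codRestrict A fun t => Algebra.subset_adjoin ⟨t, rfl⟩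
  haveI : IsNoetherian 𝒪 (Module.End 𝒪 L) := inferInstance
  haveI : Module.Finite 𝒪 A := Module.Finite.of_injective A.val.toLinearMap Subtype.val_injective
  haveI : Algebra.IsIntegral 𝒪 A := Algebra.IsIntegral.of_finite 𝒪 A
  obtain ⟨c₀, hc₀⟩ := Ideal.exists_pow_inf_eq_pow_smul (maximalIdeal 𝒪) (Subalgebra.toSubmodule A)
  -- residues at a maximal ideal
  have key : ∀ P : Ideal A, P.IsMaximal → ∀ (g : ResidueField 𝒪 →+* A ⧸ P),
      (∀ r : 𝒪, g (residue 𝒪 r) = Ideal.Quotient.mk P (algebraMap 𝒪 A r)) →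
      (∀ r ∈ maximalIdeal 𝒪, algebraMap 𝒪 A r ∈ P) →
      ∀ t, Ideal.Quotient.mk P (φA t) = g (θ t) := by
    intro P hP g hg hmP
    have hgen : ∀ (ℓ : ℕ) (hℓ : ℓ.Prime) (hℓN : ¬ ℓ ∣ N) (hℓS : ℓ ∉ (↑S : Set ℕ)),
        Ideal.Quotient.mk P (φA (heckeAlgebra.T hℓ hℓN hℓS)) = g (θ (heckeAlgebra.T hℓ hℓN hℓS)) := by
      intro ℓ hℓ hℓN hℓS
      set y : A := φA (heckeAlgebra.T hℓ hℓN hℓS) - algebraMap 𝒪 A (a ℓ) with hy
      obtain ⟨S', hS'⟩ := (Module.finite_def.mp (inferInstance : Module.Finite 𝒪 L))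
      choose j hj using hnil ℓ hℓ hℓN hℓS
      obtain ⟨ϖ, hϖ⟩ := (IsPrincipalIdealRing.principal (maximalIdeal 𝒪)).principal
      have hpow : ∀ x : L, ∀ j' ≥ S'.sup j, ((y : Module.End 𝒪 L) ^ j') x ∈
          maximalIdeal 𝒪 • (⊤ : Submodule 𝒪 L) := by
        intro x j' hj'
        have hx : x ∈ Submodule.span 𝒪 (↑S' : Set L) := by rw [hS']; trivial
        induction hx using Submodule.span_induction with
        | mem v hv => exact hj v j' ((Finset.le_sup (Finset.mem_coe.mp hv)).trans hj')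
        | zero => rw [map_zero]; exact zero_mem _
        | add u v _ _ hu hv => rw [map_add]; exact add_mem hu hv
        | smul r v _ hv => rw [map_smul]; exact Submodule.smul_mem _ r hv
      have hend : ((y : Module.End 𝒪 L) ^ S'.sup j) ^ (c₀ + 1) ∈
          maximalIdeal 𝒪 • (Subalgebra.toSubmodule A) := by
        have h1 : ∀ n : ℕ, ∀ x : L, (((y : Module.End 𝒪 L) ^ S'.sup j) ^ n) x ∈
            maximalIdeal 𝒪 ^ n • (⊤ : Submodule 𝒪 L) := by
          intro n
          induction n with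
          | zero => intro x; rw [pow_zero (maximalIdeal 𝒪), Ideal.one_eq_top, Submodule.top_smul]; trivial
          | succ n ih =>
            intro x
            rw [pow_succ' ((y : Module.End 𝒪 L) ^ S'.sup j) n, Module.End.mul_apply, pow_succ (maximalIdeal 𝒪) n,
              Submodule.mul_smul]
            refine Submodule.smul_induction_on (ih x) (fun r hr v _ => ?_) fun u v hu hv => ?_
            · rw [map_smul]
              refine Submodule.smul_induction_on (hpow v _ le_rfl) (fun s hs w _ => ?_) fun u v hu hv => ?_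
              · exact Submodule.smul_mem_smul hr (Submodule.smul_mem_smul hs trivial)
              · rw [smul_add]; exact add_mem hu hv
            · rw [map_add]; exact add_mem hu hv
        have h2 : ((y : Module.End 𝒪 L) ^ S'.sup j) ^ (c₀ + 1) ∈
            maximalIdeal 𝒪 ^ (c₀ + 1) • (⊤ : Submodule 𝒪 (Module.End 𝒪 L)) := by
          let b := Module.Free.chooseBasis 𝒪 L
          have hw : ∀ i, ∃ w : L, (ϖ ^ (c₀ + 1)) • w = (((y : Module.End 𝒪 L) ^ S'.sup j) ^ (c₀ + 1)) (b i) := by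
            intro i
            have := h1 (c₀ + 1) (b i)
            rw [hϖ, Ideal.submodule_span_eq, Ideal.span_singleton_pow, Submodule.ideal_span_singleton_smul] at this
            obtain ⟨w, -, hw⟩ := (Submodule.mem_smul_pointwise_iff_exists _ _ _).mp this
            exact ⟨w, hw⟩
          choose w hw using hw
          rw [show ((y : Module.End 𝒪 L) ^ S'.sup j) ^ (c₀ + 1) = (ϖ ^ (c₀ + 1)) • b.constr 𝒪 w from
            b.ext fun i => by rw [LinearMap.smul_apply, Module.Basis.constr_basis, hw]]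
          exact Submodule.smul_mem_smul (Ideal.pow_mem_pow (by rw [hϖ]; exact Submodule.mem_span_singleton_self ϖ) _) trivial
        have h3 := hc₀ (c₀ + 1) (Nat.le_add_right _ _)
        have h4 : ((y : Module.End 𝒪 L) ^ S'.sup j) ^ (c₀ + 1) ∈
            maximalIdeal 𝒪 ^ (c₀ + 1) • (⊤ : Submodule 𝒪 (Module.End 𝒪 L)) ⊓ Subalgebra.toSubmodule A :=
          ⟨h2, A.pow_mem (A.pow_mem y.2 _) _⟩
        rw [h3, Nat.add_sub_cancel_left, pow_one] at h4
        exact Submodule.smul_mono le_rfl inf_le_right h4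
      have hyP : y ∈ P := by
        have hmap : maximalIdeal 𝒪 • (Subalgebra.toSubmodule A) ≤
            Submodule.map A.val.toLinearMap (P.restrictScalars 𝒪) := by
          refine Submodule.smul_le.mpr fun r hr z hz => ⟨r • ⟨z, hz⟩, ?_, rfl⟩
          show r • (⟨z, hz⟩ : A) ∈ P
          rw [Algebra.smul_def]
          exact P.mul_mem_right _ (hmP r hr)
        obtain ⟨z, hz, e⟩ := hmap hend
        have : (y ^ S'.sup j) ^ (c₀ + 1) ∈ P := by
          rwa [show (y ^ S'.sup j) ^ (c₀ + 1) = z from Subtype.ext (by push_cast; exact e.symm)]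
        exact hP.isPrime.mem_of_pow_mem _ (hP.isPrime.mem_of_pow_mem _ this)
      rw [← ha ℓ hℓ hℓN hℓS, hg, Ideal.Quotient.mk_eq_mk_iff_sub_mem]
      exact hyP
    intro t
    obtain ⟨t, ht⟩ := t
    induction ht using Algebra.adjoin_induction with
    | mem x hx =>
      rcases hx with ⟨ℓ, hℓ, hℓN, hℓS, rfl⟩ | ⟨q, hqN, hq, hqS, rfl⟩
      · exact hgen ℓ hℓ hℓN hℓS
      · exact absurd (Finset.mem_coe.mpr (hS q hq hqN)) hqS
    | algebraMap r =>
      rw [show (⟨algebraMap ℤ _ r, _⟩ : heckeAlgebra N 2 (↑S : Set ℕ)) = (r : heckeAlgebra N 2 (↑S : Set ℕ)) from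
        Subtype.ext (by simp), map_intCast, map_intCast, map_intCast, map_intCast]
    | add x y hx hy ihx ihy =>
      rw [show (⟨x + y, _⟩ : heckeAlgebra N 2 (↑S : Set ℕ)) = ⟨x, hx⟩ + ⟨y, hy⟩ from rfl, map_add, map_add,
        map_add, map_add, ihx, ihy]
    | mul x y hx hy ihx ihy =>
      rw [show (⟨x * y, _⟩ : heckeAlgebra N 2 (↑S : Set ℕ)) = ⟨x, hx⟩ * ⟨y, hy⟩ from rfl, map_mul, map_mul,
        map_mul, map_mul, ihx, ihy]
  let e := AlgEquiv.ofBijective (latticeRestrictHom N (↑S : Set ℕ))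
    (latticeRestrictHom_bijective N _ (Fermat.Agent.S23.result N))
  let Ψ : heckeBaseAlgebra N (↑S : Set ℕ) 𝒪 →ₐ[𝒪] A := Algebra.TensorProduct.lift (Algebra.ofId 𝒪 A)
    (φA.toIntAlgHom.comp e.symm.toAlgHom) fun _ _ => Commute.all _ _
  have hΨ : ∀ (r : 𝒪) (t : heckeAlgebra N 2 (↑S : Set ℕ)),
      Ψ (latticeBaseChange N (↑S : Set ℕ) 𝒪 (r ⊗ₜ t)) = algebraMap 𝒪 A r * φA t := fun r t => by
    show algebraMap 𝒪 A r * φA (e.symm (e t)) = _
    rw [AlgEquiv.symm_apply_apply]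
  have hu : ∀ y : heckeLocalSubmonoid N (↑S : Set ℕ) 𝒪 θ, IsUnit (Ψ y) := by
    rintro ⟨_, x, hx, rfl⟩
    by_contra hnu
    obtain ⟨P, hP, hyP⟩ := exists_max_ideal_of_mem_nonunits hnu
    have hcomap : P.comap (algebraMap 𝒪 A) = maximalIdeal 𝒪 :=
      IsLocalRing.eq_maximalIdeal (Ideal.isMaximal_comap_of_isIntegral_of_isMaximal P)
    have hmP : ∀ r ∈ maximalIdeal 𝒪, algebraMap 𝒪 A r ∈ P := fun r hr => by
      rw [← hcomap] at hr; exact hr
    let g : ResidueField 𝒪 →+* A ⧸ P := Ideal.Quotient.lift (maximalIdeal 𝒪)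
      ((Ideal.Quotient.mk P).comp (algebraMap 𝒪 A)) fun r hr => Ideal.Quotient.eq_zero_iff_mem.mpr (hmP r hr)
    have hg : ∀ r, g (residue 𝒪 r) = Ideal.Quotient.mk P (algebraMap 𝒪 A r) := fun r => rfl
    have hx' : Ideal.Quotient.mk P (Ψ (latticeBaseChange N (↑S : Set ℕ) 𝒪 x)) =
        g (residualCharacter N (↑S : Set ℕ) 𝒪 θ x) := by
      clear hx hyP hnu
      induction x using TensorProduct.induction_on with
      | zero => simp only [map_zero]
      | add x y hx hy => simp only [map_add, hx, hy]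
      | tmul r t => rw [hΨ, residualCharacter_tmul, map_mul, map_mul, key P hP g hg hmP, hg]
    rw [Ideal.Quotient.eq_zero_iff_mem.mpr hyP] at hx'
    haveI := hP
    letI := Ideal.Quotient.field P
    exact Ideal.mem_primeCompl_iff.mp hx ((mem_heckeCharKernel_iff N _ 𝒪 θ x).mpr
      ((map_eq_zero_iff g g.injective).mp hx'.symm))
  refine ⟨A.val.comp (IsLocalization.liftAlgHom (M := heckeLocalSubmonoid N (↑S : Set ℕ) 𝒪 θ)
    (S := heckeLocal N (↑S : Set ℕ) 𝒪 θ) hu), fun t => ?_⟩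
  show ((IsLocalization.lift hu (algebraMap (heckeBaseAlgebra N (↑S : Set ℕ) 𝒪) _ _) : A) : Module.End 𝒪 L) = _
  rw [IsLocalization.lift_eq]
  show (((Ψ (latticeBaseChange N (↑S : Set ℕ) 𝒪 ((1 : 𝒪) ⊗ₜ t))) : A) : Module.End 𝒪 L) = φ t
  rw [hΨ, map_one, one_mul]
  rfl

end Fermat.Agent.Auto
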