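import Fermat.Agent.Auto.Free.Loc

/-!
The localised lattice is free over the group ring of the diamond operators.
-/

set_option autoImplicit false
set_option linter.unusedSectionVars false
set_option linter.style.haveILetI false

noncomputable section

namespace Fermat.Agent.Auto

open CongruenceSubgroup IsLocalRing
open scoped MatrixGroups

variable {p : ℕ} [Fact p.Prime] {O : Type} [CommRing O] [IsDomain O] [IsDiscreteValuationRing O]
  [IsAdicComplete (maximalIdeal O) O] [Finite (ResidueField O)] [CharZero O]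
  {M : ℕ} [NeZero M] {Δ : Type} [CommGroup Δ] [Fintype Δ] {c : (ZMod M)ˣ →* Δ}
  {S : Finset ℕ} {a : ℕ → O}

/-- A commuting family has a stable complement to a residual part. -/
theorem exists_isCompl_locPart {ι L : Type} [AddCommGroup L] [Module O L] [Module.Finite O L]
    (T : ι → Module.End O L) (hT : ∀ i j, Commute (T i) (T j)) (b : ι → O) :
    ∃ L' : Submodule O L, IsCompl (locPart T b) L' ∧
      ∀ f : Module.End O L, (∀ i, Commute f (T i)) → ∀ x ∈ L', f x ∈ L' :=
  ⟨LinearMap.ker (locProj b hT), isCompl_locPart b hT, fun f hf x hx => by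
    rw [LinearMap.mem_ker] at hx ⊢
    rw [← Module.End.mul_apply, ← (commute_locProj b hT hf).eq, Module.End.mul_apply, hx, map_zero]⟩

/-- The part vanishes if it has no eigenvector modulo the maximal ideal. -/
theorem locPart_eq_bot_iff {ι L : Type} [AddCommGroup L] [Module O L] [Module.Finite O L]
    (T : ι → Module.End O L) (hT : ∀ i j, Commute (T i) (T j)) (b : ι → O) :
    locPart T b = ⊥ ↔ ∀ x : L, (∀ i, T i x - b i • x ∈ maximalIdeal O • (⊤ : Submodule O L)) →
      x ∈ maximalIdeal O • (⊤ : Submodule O L) := by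
  rw [← mPow_one (O := O) (L := L)]
  refine ⟨fun h x hx => mem_mPow_one_of_eigen b hT h hx, fun h => ?_⟩
  by_contra hne
  obtain ⟨x, hx, hx'⟩ := exists_eigen_of_ne_bot b hT hne
  exact hx (h x hx')

theorem coe_latDelta (hc : Function.Surjective c) (u : Δ) (v : Lat M c O) :
    ((latDelta M c O hc u v : Lat M c O) : Additive (grp M c) →+ O) =
      (grpQuot hc).dia O u v.1 := by
  show (isReps_grp_diamond (c := c) (DS.diaMat_mem (Function.surjInv hc u))).transfer v.1 = _
  rw [transfer_diamond_eq (R := O) hc (DS.diaMat_mem (Function.surjInv hc u)), show c (elevenUnit (DS.diaMat_mem (Function.surjInv hc u))) = u from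
    (congrArg c (Units.ext (DS.diaMat_eleven _))).trans (Function.surjInv_eq hc u)]

/-- Freeness over the diamond operators, with rank that of the level `Γ₀(M)`. -/
theorem exists_latLoc_basis (hp5 : 5 ≤ p) (hp : (p : O) ∈ maximalIdeal O) (hΔ : IsPGroup p Δ)
    (hc : Function.Surjective c) (hpS : p ∈ S) (hMS : ∀ r : ℕ, r.Prime → r ∣ M → r ∈ S)
    (hne : NonEis S a) :
    ∃ (n : ℕ) (b : Fin n → Lat M c O), (∀ i, b i ∈ latLoc M c O S a) ∧
      n = Module.finrank O (latLoc M (1 : (ZMod M)ˣ →* Δ) O S a) ∧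
      ∀ x ∈ latLoc M c O S a, ∃! f : Fin n → Δ → O,
        x = ∑ i, ∑ u, f i u • latDelta M c O hc u (b i) := by
  classical
  haveI : Module.Finite O (homLoc M c O S a) := Module.IsNoetherian.finite O _
  haveI : Module.IsTorsionFree O (homLoc M c O S a) := inferInstance
  have hcrit : ∀ x : homLoc M c O S a,
      (∀ u, locDia S a hc u x - x ∈ maximalIdeal O • (⊤ : Submodule O (homLoc M c O S a))) →
      ∃ y, x - ∑ u, locDia S a hc u y ∈ maximalIdeal O • (⊤ : Submodule O (homLoc M c O S a)) :=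
    norm_criterion hp5 hp hΔ hMS hne hc
  have key := fun h => exists_groupSum_bijective (p := p) (M := ↥(homLoc M c O S a))
    (locDia S a hc) hΔ hp h
  obtain ⟨n, b, hb⟩ := key hcrit
  have key₂ := fun (n : ℕ) (b : Fin n → homLoc M c O S a) h =>
    exists_invariants_equiv (M := ↥(homLoc M c O S a)) (locDia S a hc) (b := b) h
  obtain ⟨V, hV, ⟨eV⟩⟩ := key₂ n b hb
  obtain ⟨j⟩ := exists_invariants_iso hp hMS hne hc V hV
  obtain ⟨e, he⟩ := exists_latLoc_equiv (c := c) hp5 hp hMS hne
  obtain ⟨e₁, -⟩ := exists_latLoc_equiv (c := (1 : (ZMod M)ˣ →* Δ)) hp5 hp hMS hne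
  have hn : n = Module.finrank O (latLoc M (1 : (ZMod M)ˣ →* Δ) O S a) := by
    rw [(e₁.trans (j.trans eV)).finrank_eq, Module.finrank_pi, Fintype.card_fin]
  refine ⟨n, fun i => (e.symm (b i)).1, fun i => (e.symm (b i)).2, hn, fun x hx => ?_⟩
  have hcoe : ∀ f : Fin n → Δ → O,
      ((∑ i, ∑ u, f i u • latDelta M c O hc u (e.symm (b i)).1 : Lat M c O) :
        Additive (grp M c) →+ O) = (groupSum (locDia S a hc) b f).1 := fun f => by
    rw [groupSum_apply]
    simp only [Submodule.coe_sum, Submodule.coe_smul, coe_latDelta, coe_locDia]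
    refine Finset.sum_congr rfl fun i _ => Finset.sum_congr rfl fun u _ => ?_
    rw [← he (e.symm (b i)), e.apply_symm_apply]
  obtain ⟨f, hf⟩ := hb.2 (e ⟨x, hx⟩)
  refine ⟨f, Subtype.ext ?_, fun g hg => hb.1 (Subtype.ext ?_)⟩
  · rw [hcoe, hf, he]
  · rw [← hcoe, ← hg, hf, he]

end Fermat.Agent.Auto
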