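/-
Auto A1: `SL(2,ℤ)` modulo `±1` is the free product of the cyclic groups generated by `S` and `S T`.
-/
import Mathlib.NumberTheory.Modular
import Mathlib.LinearAlgebra.Matrix.FixedDetMatrices

set_option autoImplicit false
set_option linter.unusedSimpArgs false

noncomputable section

namespace Fermat.Agent.Auto

open Matrix ModularGroup
open scoped MatrixGroups

/-- The element `S T` of order three modulo `±1`. -/
def uGen : SL(2, ℤ) := S * T

/-- The element `T S T`, lower unipotent. -/
def lGen : SL(2, ℤ) := T * S * T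

theorem val_S : (S : SL(2, ℤ)).1 = !![0, -1; 1, 0] := rfl
theorem val_T : (T : SL(2, ℤ)).1 = !![1, 1; 0, 1] := rfl
theorem val_uGen : uGen.1 = !![0, -1; 1, 1] := by
  simp [uGen, Matrix.SpecialLinearGroup.coe_mul, val_S, val_T]

theorem val_lGen : lGen.1 = !![1, 0; 1, 1] := by
  simp [lGen, Matrix.SpecialLinearGroup.coe_mul, val_S, val_T]

theorem S_mul_S : S * S = (-1 : SL(2, ℤ)) := by
  ext i j; fin_cases i <;> fin_cases j <;> simp [Matrix.SpecialLinearGroup.coe_mul, val_S]

theorem uGen_cube : uGen * (uGen * uGen) = (-1 : SL(2, ℤ)) := by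
  ext i j; fin_cases i <;> fin_cases j <;> simp [Matrix.SpecialLinearGroup.coe_mul, val_uGen]

theorem S_mul_T : S * T = uGen := rfl

theorem S_mul_lGen : S * lGen = uGen * uGen := by simp only [lGen, uGen, mul_assoc]

theorem S_mul_uGen : S * uGen = -T := by
  ext i j; fin_cases i <;> fin_cases j <;>
    simp [Matrix.SpecialLinearGroup.coe_mul, val_S, val_T, val_uGen]

theorem S_mul_uGen_sq : S * (uGen * uGen) = -lGen := by
  ext i j; fin_cases i <;> fin_cases j <;>
    simp [Matrix.SpecialLinearGroup.coe_mul, val_S, val_lGen, val_uGen]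

/-- The positive word of a list. -/
def wordSL : List Bool → SL(2, ℤ)
  | [] => 1
  | b :: l => (if b then T else lGen) * wordSL l

theorem wordSL_nonneg : ∀ l, (∀ i j, 0 ≤ (wordSL l).1 i j) ∧ 1 ≤ (wordSL l).1 0 0 ∧
    1 ≤ (wordSL l).1 1 1 ∧ (l ≠ [] → 1 ≤ (wordSL l).1 0 1 + (wordSL l).1 1 0)
  | [] => by
    refine ⟨fun i j => ?_, ?_, ?_, fun h => absurd rfl h⟩ <;> try fin_cases i <;> fin_cases j
    all_goals simp [wordSL]
  | b :: l => by
    obtain ⟨h, h0, h1, -⟩ := wordSL_nonneg l
    have a := h 0 0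
    have a01 := h 0 1
    have a10 := h 1 0
    cases b <;>
    · refine ⟨fun i j => ?_, ?_, ?_, fun _ => ?_⟩ <;> try fin_cases i <;> fin_cases j
      all_goals
        simp [wordSL, Matrix.SpecialLinearGroup.coe_mul, val_T, val_lGen, Matrix.mul_apply,
          Fin.sum_univ_two]
      all_goals omega

variable {H : Type*} [Group H] (s u : H)

/-- The image of a word in a group. -/
def wordH : List Bool → H
  | [] => 1
  | b :: l => (if b then s * u else s * (u * u)) * wordH l

/-- The pairs given by normal forms. -/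
def NForm (g : SL(2, ℤ)) (h : H) : Prop :=
  ∃ (z : SL(2, ℤ)) (i : Fin 3) (l : List Bool) (j : Fin 2), (z = 1 ∨ z = -1) ∧
    g = z * (uGen ^ (i : ℕ) * wordSL l * S ^ (j : ℕ)) ∧ h = u ^ (i : ℕ) * wordH s u l * s ^ (j : ℕ)

variable {s u}

theorem nForm_neg {g : SL(2, ℤ)} {h : H} (hg : NForm s u g h) : NForm s u (-g) h := by
  obtain ⟨z, i, l, j, hz, rfl, rfl⟩ := hg
  refine ⟨-z, i, l, j, ?_, (neg_mul _ _).symm, rfl⟩
  rcases hz with rfl | rfl
  · exact Or.inr rfl
  · exact Or.inl (neg_neg 1)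

theorem nForm_one : NForm s u 1 (1 : H) := ⟨1, 0, [], 0, Or.inl rfl, by simp [wordSL], by simp [wordH]⟩

theorem nForm_u (hu : u * (u * u) = 1) {g : SL(2, ℤ)} {h : H} (hg : NForm s u g h) :
    NForm s u (uGen * g) (u * h) := by
  obtain ⟨z, i, l, j, hz, rfl, rfl⟩ := hg
  have hcomm : uGen * z = z * uGen := by rcases hz with rfl | rfl <;> simp
  rw [← mul_assoc uGen z, hcomm, mul_assoc z]
  match i with
  | 0 => exact ⟨z, 1, l, j, hz, by simp [mul_assoc], by simp [mul_assoc]⟩
  | 1 => exact ⟨z, 2, l, j, hz, by simp [pow_two, mul_assoc], by simp [pow_two, mul_assoc]⟩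
  | 2 =>
    have h2 : NForm s u (z * (wordSL l * S ^ (j : ℕ))) (wordH s u l * s ^ (j : ℕ)) :=
      ⟨z, 0, l, j, hz, by simp, by simp⟩
    convert nForm_neg h2 using 1
    · show z * (uGen * (uGen ^ 2 * wordSL l * S ^ (j : ℕ))) = -(z * (wordSL l * S ^ (j : ℕ)))
      rw [pow_two, ← mul_assoc uGen (uGen * uGen * wordSL l), ← mul_assoc uGen (uGen * uGen),
        uGen_cube]
      simp [mul_assoc]
    · show u * (u ^ 2 * wordH s u l * s ^ (j : ℕ)) = wordH s u l * s ^ (j : ℕ)
      rw [pow_two, ← mul_assoc u (u * u * wordH s u l), ← mul_assoc u (u * u), hu, one_mul]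

theorem nForm_s (hs : s * s = 1) {g : SL(2, ℤ)} {h : H} (hg : NForm s u g h) :
    NForm s u (S * g) (s * h) := by
  obtain ⟨z, i, l, j, hz, rfl, rfl⟩ := hg
  have hcomm : S * z = z * S := by rcases hz with rfl | rfl <;> simp
  rw [← mul_assoc S z, hcomm, mul_assoc z]
  match i, l, j with
  | 1, l, j =>
    have h2 : NForm s u (z * (wordSL (true :: l) * S ^ (j : ℕ)))
        (wordH s u (true :: l) * s ^ (j : ℕ)) := ⟨z, 0, true :: l, j, hz, by simp, by simp⟩
    convert nForm_neg h2 using 1
    · simp [wordSL, ← mul_assoc, S_mul_uGen]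
    · simp [wordH, mul_assoc]
  | 2, l, j =>
    have h2 : NForm s u (z * (wordSL (false :: l) * S ^ (j : ℕ)))
        (wordH s u (false :: l) * s ^ (j : ℕ)) := ⟨z, 0, false :: l, j, hz, by simp, by simp⟩
    convert nForm_neg h2 using 1
    · show z * (S * (uGen ^ 2 * wordSL l * S ^ (j : ℕ))) = -(z * (lGen * wordSL l * S ^ (j : ℕ)))
      rw [pow_two, ← mul_assoc S, ← mul_assoc S (uGen * uGen), S_mul_uGen_sq]
      simp [mul_assoc]
    · simp [wordH, pow_two, mul_assoc]
  | 0, [], 0 => exact ⟨z, 0, [], 1, hz, by simp [wordSL], by simp [wordH]⟩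
  | 0, [], 1 =>
    have h2 : NForm s u (z * 1) (1 : H) := ⟨z, 0, [], 0, hz, by simp [wordSL], by simp [wordH]⟩
    convert nForm_neg h2 using 1
    · simp [wordSL, S_mul_S]
    · simp [wordH, hs]
  | 0, true :: l, j =>
    refine ⟨z, 1, l, j, hz, ?_, ?_⟩
    · simp [wordSL, uGen, mul_assoc]
    · simp [wordH, ← mul_assoc, hs]
  | 0, false :: l, j =>
    refine ⟨z, 2, l, j, hz, ?_, ?_⟩
    · simp [wordSL, pow_two, mul_assoc, lGen, uGen]
    · simp [wordH, pow_two, ← mul_assoc, hs]

variable (hs : s * s = 1) (hu : u * (u * u) = 1)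

include hs hu in
theorem exists_nForm (g : SL(2, ℤ)) : ∃ h : H, NForm s u g h := by
  have hmem : g ∈ Subgroup.closure ({S, T} : Set SL(2, ℤ)) := by
    rw [SpecialLinearGroup.SL2Z_generators]; trivial
  have key : ∀ (g : SL(2, ℤ)) (h : H), NForm s u g h → NForm s u (T * g) (s * (u * h)) := by
    intro g h hg
    have := nForm_neg (nForm_s hs (nForm_u hu hg))
    rwa [← mul_assoc S, S_mul_uGen, neg_mul, neg_neg] at this
  induction hmem using Subgroup.closure_induction_left with
  | one => exact ⟨1, nForm_one⟩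
  | mul_left x hx y _ ih =>
    obtain ⟨h, hh⟩ := ih
    rcases hx with rfl | rfl
    · exact ⟨_, nForm_s hs hh⟩
    · exact ⟨_, key _ _ hh⟩
  | inv_mul_cancel x hx y _ ih =>
    obtain ⟨h, hh⟩ := ih
    rcases hx with rfl | rfl
    · refine ⟨s * h, ?_⟩
      have := nForm_neg (nForm_s hs hh)
      rwa [show (S : SL(2, ℤ))⁻¹ = -S from inv_eq_of_mul_eq_one_right (by simp [S_mul_S]),
        neg_mul]
    · refine ⟨u * (u * (s * h)), ?_⟩
      have := nForm_neg (nForm_u hu (nForm_u hu (nForm_s hs hh)))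
      rwa [show (T : SL(2, ℤ))⁻¹ = -(uGen * (uGen * S)) from inv_eq_of_mul_eq_one_right (by
        ext i j; fin_cases i <;> fin_cases j <;>
          simp [Matrix.SpecialLinearGroup.coe_mul, val_S, val_T, val_uGen]), neg_mul, mul_assoc, mul_assoc]

theorem nForm_mul (hs : s * s = 1) (hu : u * (u * u) = 1) {g g' : SL(2, ℤ)} {h h' : H}
    (hg : NForm s u g h) (hg' : NForm s u g' h') : NForm s u (g * g') (h * h') := by
  have hpow : ∀ (i : ℕ) {g h}, NForm s u g h → NForm s u (uGen ^ i * g) (u ^ i * h) := by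
    intro i
    induction i with
    | zero => intro g h hg; simpa using hg
    | succ i ih =>
      intro g h hg
      rw [pow_succ', pow_succ', mul_assoc, mul_assoc]
      exact nForm_u hu (ih hg)
  have hspow : ∀ (i : ℕ) {g h}, NForm s u g h → NForm s u (S ^ i * g) (s ^ i * h) := by
    intro i
    induction i with
    | zero => intro g h hg; simpa using hg
    | succ i ih =>
      intro g h hg
      rw [pow_succ', pow_succ', mul_assoc, mul_assoc]
      exact nForm_s hs (ih hg)
  have hword : ∀ (l : List Bool) {g h}, NForm s u g h →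
      NForm s u (wordSL l * g) (wordH s u l * h) := by
    intro l
    induction l with
    | nil => intro g h hg; simpa [wordSL, wordH] using hg
    | cons b l ih =>
      intro g h hg
      cases b
      · have := nForm_neg (nForm_s hs (nForm_u hu (nForm_u hu (ih hg))))
        simpa [wordSL, wordH, ← mul_assoc, show S * uGen * uGen = -lGen from by
          rw [mul_assoc]; exact S_mul_uGen_sq] using this
      · have := nForm_neg (nForm_s hs (nForm_u hu (ih hg)))
        simpa [wordSL, wordH, ← mul_assoc, S_mul_uGen] using this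
  obtain ⟨z, i, l, j, hz, rfl, rfl⟩ := hg
  have := hpow (i : ℕ) (hword l (hspow (j : ℕ) hg'))
  rcases hz with rfl | rfl
  · simpa [mul_assoc] using this
  · simpa [mul_assoc] using nForm_neg this

/-- Only the trivial normal form represents `±1`. -/
theorem eq_one_of_nForm {g : SL(2, ℤ)} {h : H} (hg : NForm s u g h) (h1 : g = 1 ∨ g = -1) :
    h = 1 := by
  obtain ⟨z, i, l, j, hz, he, rfl⟩ := hg
  obtain ⟨ε, hε, hX⟩ : ∃ ε : ℤ, (ε = 1 ∨ ε = -1) ∧
      (uGen ^ (i : ℕ)).1 * (wordSL l).1 * (S ^ (j : ℕ)).1 = ε • (1 : Matrix (Fin 2) (Fin 2) ℤ) := by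
    have e' := congrArg Subtype.val he
    rcases h1 with rfl | rfl <;> rcases hz with rfl | rfl
    · exact ⟨1, Or.inl rfl, by simpa [Matrix.SpecialLinearGroup.coe_mul] using e'.symm⟩
    · exact ⟨-1, Or.inr rfl, by
        simpa [Matrix.SpecialLinearGroup.coe_mul, neg_eq_iff_eq_neg, eq_comm] using e'⟩
    · exact ⟨-1, Or.inr rfl, by simpa [Matrix.SpecialLinearGroup.coe_mul] using e'.symm⟩
    · exact ⟨1, Or.inl rfl, by simpa [Matrix.SpecialLinearGroup.coe_mul] using e'.symm⟩
  obtain ⟨hn, h00, h11, hne⟩ := wordSL_nonneg l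
  have e00 := congrFun (congrFun hX 0) 0
  have e01 := congrFun (congrFun hX 0) 1
  have e10 := congrFun (congrFun hX 1) 0
  have e11 := congrFun (congrFun hX 1) 1
  have n01 := hn 0 1
  have n10 := hn 1 0
  obtain ⟨a, b, c, d, hW⟩ : ∃ a b c d, (wordSL l).1 = !![a, b; c, d] :=
    ⟨_, _, _, _, Matrix.eta_fin_two _⟩
  simp only [hW, Matrix.of_apply, Matrix.cons_val', Matrix.cons_val_zero, Matrix.cons_val_one,
    Matrix.cons_val_fin_one] at h00 h11 hne n01 n10 e00 e01 e10 e11
  match i, j with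
  | 0, 0 =>
    simp at e00 e01 e10 e11
    have hl : l = [] := by
      by_contra hl
      have := hne hl
      omega
    simp [hl, wordH]
  | 0, 1 => simp [val_S, Matrix.mul_apply, Fin.sum_univ_two] at e00 e01 e10 e11; omega
  | 1, 0 => simp [val_uGen, Matrix.mul_apply, Fin.sum_univ_two] at e00 e01 e10 e11; omega
  | 2, 0 => simp [val_uGen, pow_two, Matrix.mul_apply, Fin.sum_univ_two] at e00 e01 e10 e11; omega
  | 1, 1 => simp [val_uGen, val_S, Matrix.mul_apply, Fin.sum_univ_two] at e00 e01 e10 e11; omega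
  | 2, 1 =>
    simp [val_uGen, val_S, pow_two, Matrix.mul_apply, Fin.sum_univ_two] at e00 e01 e10 e11; omega

include hs hu in
theorem nForm_unique {g : SL(2, ℤ)} {h h' : H} (hg : NForm s u g h) (hg' : NForm s u g h') :
    h = h' := by
  obtain ⟨k, hk⟩ := exists_nForm hs hu g⁻¹
  have e1 := eq_one_of_nForm (nForm_mul hs hu hg hk) (Or.inl (mul_inv_cancel g))
  have e2 := eq_one_of_nForm (nForm_mul hs hu hg' hk) (Or.inl (mul_inv_cancel g))
  exact mul_right_cancel (e1.trans e2.symm)

include hs hu in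
/-- The universal property of `SL(2,ℤ)` modulo `±1` as a free product. -/
theorem exists_hom_of_orders : ∃ f : SL(2, ℤ) →* H, f S = s ∧ f uGen = u ∧ f (-1) = 1 := by
  choose f hf using exists_nForm (s := s) (u := u) hs hu
  have hmul : ∀ g g', f (g * g') = f g * f g' := fun g g' =>
    nForm_unique hs hu (hf _) (nForm_mul hs hu (hf g) (hf g'))
  refine ⟨MonoidHom.mk' f hmul, ?_, ?_, eq_one_of_nForm (hf _) (Or.inr rfl)⟩
  · have h := nForm_s hs (nForm_one (s := s) (u := u))
    rw [mul_one, mul_one] at h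
    exact nForm_unique hs hu (hf _) h
  · have h := nForm_u hu (nForm_one (s := s) (u := u))
    rw [mul_one, mul_one] at h
    exact nForm_unique hs hu (hf _) h

/-- Homomorphisms are determined by their values at `S` and `S T`. -/
theorem hom_ext_gens {f f' : SL(2, ℤ) →* H} (h1 : f S = f' S) (h2 : f uGen = f' uGen) : f = f' := by
  have hT : T = S⁻¹ * uGen := by rw [uGen, inv_mul_cancel_left]
  have hle : Subgroup.closure ({S, T} : Set SL(2, ℤ)) ≤ f.eqLocus f' := by
    rw [Subgroup.closure_le]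
    rintro x (rfl | rfl)
    · exact h1
    · show f T = f' T
      rw [hT, map_mul, map_mul, map_inv, map_inv, h1, h2]
  exact MonoidHom.ext fun g => hle (by rw [SpecialLinearGroup.SL2Z_generators]; trivial)

end Fermat.Agent.Auto
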