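/-
Auto A1: for coefficients in which `2` and `3` are invertible, `Hom(G, ·)` is right exact on
subgroups `G ∋ -1` of `SL(2,ℤ)`: induce to monomial representations and lift the two generators.
-/
import Fermat.Agent.Auto.FreeProduct
import Mathlib.GroupTheory.GroupAction.Quotient

set_option autoImplicit false

noncomputable section

namespace Fermat.Agent.Auto

open Function
open scoped MatrixGroups

/-- The monomial group `A^X ⋊ Perm X`. -/
@[ext] structure Monom (X A : Type*) where
  perm : Equiv.Perm X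
  val : X → A

namespace Monom

variable {X A B : Type*} [AddCommGroup A] [AddCommGroup B]

instance : Mul (Monom X A) := ⟨fun p q => ⟨p.perm * q.perm, fun x => q.val x + p.val (q.perm x)⟩⟩
instance : One (Monom X A) := ⟨⟨1, 0⟩⟩
instance : Inv (Monom X A) := ⟨fun p => ⟨p.perm⁻¹, fun x => -p.val (p.perm⁻¹ x)⟩⟩

theorem perm_mul (p q : Monom X A) : (p * q).perm = p.perm * q.perm := rfl
theorem val_mul (p q : Monom X A) (x : X) : (p * q).val x = q.val x + p.val (q.perm x) := rfl

instance : Group (Monom X A) where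
  mul_assoc p q r := Monom.ext (mul_assoc _ _ _) (funext fun x => by
    simp only [val_mul, perm_mul, Equiv.Perm.mul_apply, add_assoc])
  one_mul p := Monom.ext (one_mul _) (funext fun x => by
    rw [val_mul]; exact add_zero _)
  mul_one p := Monom.ext (mul_one _) (funext fun x => by
    rw [val_mul]; exact zero_add _)
  inv_mul_cancel p := Monom.ext (inv_mul_cancel _) (funext fun x => by
    rw [val_mul]
    show p.val x + -p.val (p.perm⁻¹ (p.perm x)) = 0
    rw [show p.perm⁻¹ (p.perm x) = x from p.perm.symm_apply_apply x, add_neg_cancel])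

theorem perm_one : (1 : Monom X A).perm = 1 := rfl
theorem val_one (x : X) : (1 : Monom X A).val x = 0 := rfl

/-- The permutation part. -/
def permHom : Monom X A →* Equiv.Perm X where
  toFun := perm
  map_one' := rfl
  map_mul' _ _ := rfl

/-- Change of coefficients. -/
def map (π : A →+ B) : Monom X A →* Monom X B where
  toFun p := ⟨p.perm, fun x => π (p.val x)⟩
  map_one' := Monom.ext rfl (funext fun _ => map_zero π)
  map_mul' _ _ := Monom.ext rfl (funext fun _ => map_add π _ _)

/-- The translations. -/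
def diag : Multiplicative (X → A) →* Monom X A where
  toFun c := ⟨1, c.toAdd⟩
  map_one' := rfl
  map_mul' _ _ := Monom.ext (one_mul _).symm (funext fun _ => add_comm _ _)

/-- An element of finite order lifts to one of the same order. -/
theorem exists_lift_pow_eq_one {n : ℕ} (π : A →+ B) (hπ : Surjective π)
    (hA : Bijective fun a : A => n • a) (hB : Injective fun b : B => n • b)
    {m : Monom X B} (hm : m ^ n = 1) : ∃ m' : Monom X A, m' ^ n = 1 ∧ map π m' = m := by
  let g : Monom X A := ⟨m.perm, fun x => surjInv hπ (m.val x)⟩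
  have hg : map π g = m := Monom.ext rfl (funext fun x => surjInv_eq hπ _)
  have hperm : (g ^ n).perm = 1 :=
    (map_pow permHom g n).trans ((map_pow permHom m n).symm.trans (congrArg perm hm))
  choose c hc using fun x => hA.2 ((g ^ n).val x)
  have hgn : g ^ n = diag (.ofAdd (n • c)) :=
    Monom.ext hperm (funext fun x => (hc x).symm)
  have hcomm : Commute g (diag (.ofAdd c)) := by
    have h : g * g ^ n = g ^ n * g := (Commute.self_pow g n).eq
    refine Monom.ext (by simp [perm_mul, diag]) (funext fun x => ?_)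
    have hx := congrArg (fun p : Monom X A => p.val x) h
    simp only [val_mul, hperm, Equiv.Perm.coe_one, id_eq, ← hc] at hx
    have hcx : c x = c (g.perm x) :=
      hA.1 (add_right_cancel (hx.trans (add_comm _ _)))
    show c x + g.val x = g.val x + c (g.perm x)
    rw [← hcx, add_comm]
  refine ⟨g * (diag (.ofAdd c))⁻¹, ?_, ?_⟩
  · rw [hcomm.inv_right.mul_pow, hgn, inv_pow, ← map_pow, ← ofAdd_nsmul, mul_inv_cancel]
  · have h0 : map π (diag (.ofAdd c)) = 1 := by
      refine Monom.ext rfl (funext fun x => hB ?_)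
      show n • π (c x) = n • (0 : B)
      rw [smul_zero, ← map_nsmul, show n • c x = _ from hc x]
      have hx := congrArg (fun p : Monom X B => p.val x) ((map_pow (map π) g n).trans
        ((congrArg (· ^ n) hg).trans hm))
      exact hx
    rw [map_mul, map_inv, h0, inv_one, mul_one, hg]

end Monom

section Induce

variable {Γ : Type*} [Group Γ] (G : Subgroup Γ) {A : Type*} [AddCommGroup A]
  (χ : Additive G →+ A)

/-- The cocycle coordinate of induction. -/
def indPart (g : Γ) (x : Γ ⧸ G) : G :=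
  ⟨(g • x).out⁻¹ * (g * x.out), QuotientGroup.eq.mp (by
    conv_lhs => rw [QuotientGroup.out_eq']
    conv_lhs => rw [← QuotientGroup.out_eq' x]
    rfl)⟩

/-- The induced monomial representation. -/
def indHom : Γ →* Monom (Γ ⧸ G) A :=
  MonoidHom.mk' (fun g => ⟨MulAction.toPerm g, fun x => χ (.ofMul (indPart G g x))⟩) fun g h => by
    refine Monom.ext (Equiv.ext fun x => mul_smul g h x) (funext fun x => ?_)
    rw [Monom.val_mul]
    show χ _ = χ _ + χ _
    rw [add_comm, ← map_add, ← ofMul_mul]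
    congr 2
    refine Subtype.ext ?_
    show ((g * h) • x).out⁻¹ * (g * h * x.out) =
      (g • h • x).out⁻¹ * (g * (h • x).out) * ((h • x).out⁻¹ * (h * x.out))
    rw [mul_smul]
    group

theorem indPart_base (γ : G) : ∃ r : G, indPart G (γ : Γ) ((1 : Γ) : Γ ⧸ G) = r⁻¹ * γ * r := by
  have h : (γ : Γ) • ((1 : Γ) : Γ ⧸ G) = ((1 : Γ) : Γ ⧸ G) :=
    QuotientGroup.eq.mpr (by simp)
  obtain ⟨r, hr⟩ := QuotientGroup.mk_out_eq_mul G 1
  refine ⟨r, Subtype.ext ?_⟩
  show ((γ : Γ) • ((1 : Γ) : Γ ⧸ G)).out⁻¹ * _ = _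
  rw [h, hr]
  simp [mul_assoc]

theorem indHom_base (γ : G) :
    (indHom G χ (γ : Γ)).val ((1 : Γ) : Γ ⧸ G) = χ (.ofMul γ) := by
  obtain ⟨r, hr⟩ := indPart_base G γ
  show χ (.ofMul (indPart G (γ : Γ) _)) = _
  rw [hr, ofMul_mul, ofMul_mul, ofMul_inv, map_add, map_add, map_neg]
  abel

end Induce

variable {A B : Type*} [AddCommGroup A] [AddCommGroup B]

/-- Every homomorphism `G → B` lifts along a surjection `A → B`. -/
theorem exists_lift_hom (G : Subgroup SL(2, ℤ)) (hneg : (-1 : SL(2, ℤ)) ∈ G) (π : A →+ B)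
    (hπ : Surjective π) (h2 : Bijective fun a : A => 2 • a) (h3 : Bijective fun a : A => 3 • a)
    (h2B : Injective fun b : B => 2 • b) (h3B : Injective fun b : B => 3 • b)
    (χ : Additive G →+ B) : ∃ χ' : Additive G →+ A, π.comp χ' = χ := by
  set F := indHom G χ
  have hχ : χ (.ofMul (⟨-1, hneg⟩ : G)) = 0 := h2B <| by
    show 2 • _ = 2 • (0 : B)
    rw [← map_nsmul, ← ofMul_pow, show (⟨-1, hneg⟩ : G) ^ 2 = 1 from Subtype.ext (by simp)]
    simp
  have hF : F (-1) = 1 := by
    have hfix : ∀ x : SL(2, ℤ) ⧸ G, (-1 : SL(2, ℤ)) • x = x := fun x => by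
      induction x using QuotientGroup.induction_on with
      | H y => exact QuotientGroup.eq.mpr (by simpa using hneg)
    refine Monom.ext (Equiv.ext hfix) (funext fun x => ?_)
    show χ (.ofMul (indPart G (-1) x)) = 0
    convert hχ using 3
    refine Subtype.ext ?_
    show ((-1 : SL(2, ℤ)) • x).out⁻¹ * ((-1) * x.out) = -1
    rw [hfix]
    simp
  have hs : F ModularGroup.S ^ 2 = 1 := by rw [← map_pow, pow_two, S_mul_S, hF]
  have hu : F uGen ^ 3 = 1 := by rw [← map_pow, pow_three, uGen_cube, hF]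
  obtain ⟨s, hs1, hs2⟩ := Monom.exists_lift_pow_eq_one π hπ h2 h2B hs
  obtain ⟨u, hu1, hu2⟩ := Monom.exists_lift_pow_eq_one π hπ h3 h3B hu
  rw [pow_two] at hs1
  rw [pow_three] at hu1
  obtain ⟨f, fS, fu, -⟩ := exists_hom_of_orders hs1 hu1
  have hfF : (Monom.map π).comp f = F :=
    hom_ext_gens (by simp [fS, hs2]) (by simp [fu, hu2])
  set x₀ : SL(2, ℤ) ⧸ G := ((1 : SL(2, ℤ)) : SL(2, ℤ) ⧸ G)
  have hstab : ∀ γ : G, (f γ).perm x₀ = x₀ := fun γ => by
    have h : (f (γ : SL(2, ℤ))).perm = (F γ).perm := congrArg Monom.perm (DFunLike.congr_fun hfF _)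
    rw [h]
    exact QuotientGroup.eq.mpr (by simp)
  refine ⟨AddMonoidHom.mk' (fun γ => (f ((γ.toMul : G) : SL(2, ℤ))).val x₀) fun a b => ?_,
    AddMonoidHom.ext fun γ => ?_⟩
  · show (f ((a.toMul * b.toMul : G) : SL(2, ℤ))).val x₀ = _
    rw [Subgroup.coe_mul, map_mul, Monom.val_mul, hstab, add_comm]
  · exact (congrArg (fun m => m.val x₀) (DFunLike.congr_fun hfF _)).trans (indHom_base G χ γ.toMul)

end Fermat.Agent.Auto
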