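/-
Auto A1: the diamond action of `Δ = G'/G` on `Hom(G, A)` and the surjectivity of the norm onto
the restrictions from `G'` when `2` and `3` are invertible in `A`.
-/
import Fermat.Agent.Auto.H1Exact
import Mathlib.Algebra.BigOperators.GroupWithZero.Action
import Mathlib.Algebra.Module.LinearMap.End
import Mathlib.GroupTheory.Perm.Basic

set_option autoImplicit false

noncomputable section

namespace Fermat.Agent.Auto

open Function
open scoped MatrixGroups

section Dia

variable {Γ : Type*} [Group Γ]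

/-- The data of a quotient `G' → Δ` with kernel `G`. -/
structure LevQuot (G G' : Subgroup Γ) (Δ : Type*) [Group Δ] where
  toHom : G' →* Δ
  le : G ≤ G'
  surj : Surjective toHom
  ker_iff : ∀ γ : G', toHom γ = 1 ↔ (γ : Γ) ∈ G

variable {G G' : Subgroup Γ} {Δ : Type*} [Group Δ] (P : LevQuot G G' Δ)

namespace LevQuot

/-- A section. -/
def sec (δ : Δ) : G' := surjInv P.surj δ

theorem toHom_sec (δ : Δ) : P.toHom (P.sec δ) = δ := surjInv_eq P.surj δ

include P in
theorem conj_mem (h : G') (γ : G) : (h : Γ)⁻¹ * γ * h ∈ G := by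
  have := (P.ker_iff (h⁻¹ * ⟨γ, P.le γ.2⟩ * h)).mp (by
    rw [map_mul, map_mul, (P.ker_iff ⟨γ, P.le γ.2⟩).mpr γ.2, mul_one, map_inv, inv_mul_cancel])
  simpa using this

/-- Conjugation of `G` by an element of `G'`. -/
def conj (h : G') : G →* G :=
  MonoidHom.mk' (fun γ => ⟨(h : Γ)⁻¹ * γ * h, P.conj_mem h γ⟩) fun a b => Subtype.ext (by
    simp only [Subgroup.coe_mul]; group)

variable {A : Type*} [AddCommGroup A]

theorem apply_conj_eq (f : Additive G →+ A) {h h' : G'} (e : P.toHom h = P.toHom h') (γ : G) :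
    f (.ofMul (P.conj h γ)) = f (.ofMul (P.conj h' γ)) := by
  have hg : (h : Γ)⁻¹ * h' ∈ G := by
    have := (P.ker_iff (h⁻¹ * h')).mp (by rw [map_mul, map_inv, e, inv_mul_cancel])
    simpa using this
  have key : P.conj h' γ = (⟨_, hg⟩ : G)⁻¹ * P.conj h γ * ⟨_, hg⟩ := Subtype.ext (by
    simp only [conj, MonoidHom.mk'_apply, Subgroup.coe_mul, Subgroup.coe_inv]; group)
  rw [key, ofMul_mul, ofMul_mul, ofMul_inv, map_add, map_add, map_neg]
  abel

variable (R : Type*) [Ring R] [Module R A]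

/-- The diamond operators. -/
def dia : Δ →* Module.End R (Additive G →+ A) where
  toFun δ :=
    { toFun := fun f => f.comp (MonoidHom.toAdditive (P.conj (P.sec δ)))
      map_add' := fun _ _ => rfl
      map_smul' := fun _ _ => rfl }
  map_one' := LinearMap.ext fun f => AddMonoidHom.ext fun γ => by
    show f (.ofMul (P.conj (P.sec 1) γ.toMul)) = f γ
    rw [P.apply_conj_eq f (h' := 1) (by rw [toHom_sec, map_one])]
    congr 1
    exact Subtype.ext (by simp [conj])
  map_mul' δ δ' := LinearMap.ext fun f => AddMonoidHom.ext fun γ => by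
    show f (.ofMul (P.conj (P.sec (δ * δ')) γ.toMul)) =
      f (.ofMul (P.conj (P.sec δ') (P.conj (P.sec δ) γ.toMul)))
    rw [P.apply_conj_eq f (h' := P.sec δ * P.sec δ') (by rw [map_mul, toHom_sec, toHom_sec,
      toHom_sec])]
    congr 2
    exact Subtype.ext (by simp [conj, mul_assoc])

theorem dia_apply (δ : Δ) (f : Additive G →+ A) (γ : G) :
    P.dia R δ f (.ofMul γ) = f (.ofMul (P.conj (P.sec δ) γ)) := rfl

/-- Restriction. -/
def res : (Additive G' →+ A) →ₗ[R] (Additive G →+ A) where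
  toFun f := f.comp (MonoidHom.toAdditive (Subgroup.inclusion P.le))
  map_add' _ _ := rfl
  map_smul' _ _ := rfl

theorem res_apply (f : Additive G' →+ A) (γ : G) :
    P.res R f (.ofMul γ) = f (.ofMul (Subgroup.inclusion P.le γ)) := rfl

theorem dia_res (δ : Δ) (f : Additive G' →+ A) : P.dia R δ (P.res R f) = P.res R f :=
  AddMonoidHom.ext fun γ => by
    rw [show γ = Additive.ofMul γ.toMul from rfl, dia_apply, res_apply, res_apply]
    rw [show Subgroup.inclusion P.le (P.conj (P.sec δ) γ.toMul) =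
      (P.sec δ)⁻¹ * Subgroup.inclusion P.le γ.toMul * P.sec δ from Subtype.ext rfl,
      ofMul_mul, ofMul_mul, ofMul_inv, map_add, map_add, map_neg]
    abel

end LevQuot

end Dia

section Norm

variable {Δ : Type*} [Group Δ] [Fintype Δ] {G G' : Subgroup SL(2, ℤ)} (P : LevQuot G G' Δ)
  {A : Type*} [AddCommGroup A]

namespace LevQuot

/-- The points above `y`. -/
def pt (y : SL(2, ℤ) ⧸ G') (δ : Δ) : SL(2, ℤ) ⧸ G :=
  ((y.out * (P.sec δ : SL(2, ℤ)) : SL(2, ℤ)) : SL(2, ℤ) ⧸ G)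

omit [Fintype Δ] in
theorem mk_eq_pt_iff (y : SL(2, ℤ) ⧸ G') (h : G') (δ : Δ) :
    ((y.out * (h : SL(2, ℤ)) : SL(2, ℤ)) : SL(2, ℤ) ⧸ G) = P.pt y δ ↔ P.toHom h = δ := by
  rw [pt, QuotientGroup.eq, show (y.out * (h : SL(2, ℤ)))⁻¹ * (y.out * (P.sec δ : SL(2, ℤ))) =
    ((h⁻¹ * P.sec δ : G') : SL(2, ℤ)) by rw [Subgroup.coe_mul, Subgroup.coe_inv]; group,
    ← P.ker_iff, map_mul, map_inv, toHom_sec, inv_mul_eq_one]

omit [Fintype Δ] in
theorem smul_pt (g : SL(2, ℤ)) (y : SL(2, ℤ) ⧸ G') (δ : Δ) :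
    g • P.pt y δ = P.pt (g • y) (P.toHom (indPart G' g y) * δ) := by
  rw [← (P.mk_eq_pt_iff (g • y) (indPart G' g y * P.sec δ) _).mpr (by rw [map_mul, toHom_sec])]
  refine congrArg (QuotientGroup.mk (s := G)) ?_
  show g * (y.out * _) = (g • y).out * (((g • y).out⁻¹ * (g * y.out)) * _)
  group

omit [Fintype Δ] in
theorem exists_eq_pt (x : SL(2, ℤ) ⧸ G) : ∃ y δ, x = P.pt y δ := by
  induction x using QuotientGroup.induction_on with
  | H z =>
    obtain ⟨h, hh⟩ := QuotientGroup.mk_out_eq_mul G' z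
    refine ⟨(z : SL(2, ℤ) ⧸ G'), P.toHom h⁻¹, ?_⟩
    rw [← (P.mk_eq_pt_iff _ h⁻¹ _).mpr rfl, hh, Subgroup.coe_inv, mul_inv_cancel_right]

omit [Fintype Δ] in
theorem pt_inj {y y' : SL(2, ℤ) ⧸ G'} {δ δ' : Δ} (e : P.pt y δ = P.pt y' δ') :
    y = y' ∧ δ = δ' := by
  have h : y = y' := by
    have h1 := P.le (QuotientGroup.eq.mp e)
    have h2 : (((y.out * (P.sec δ : SL(2, ℤ))) : SL(2, ℤ)) : SL(2, ℤ) ⧸ G') =
        ((y'.out * (P.sec δ' : SL(2, ℤ)) : SL(2, ℤ)) : SL(2, ℤ) ⧸ G') := QuotientGroup.eq.mpr h1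
    rwa [QuotientGroup.mk_mul_of_mem _ (P.sec δ).2, QuotientGroup.mk_mul_of_mem _ (P.sec δ').2,
      QuotientGroup.out_eq', QuotientGroup.out_eq'] at h2
  subst h
  exact ⟨rfl, (P.toHom_sec δ).symm.trans ((P.mk_eq_pt_iff y _ δ').mp e)⟩

/-- The fibre sums of the values. -/
def push (m : Monom (SL(2, ℤ) ⧸ G) A) (y : SL(2, ℤ) ⧸ G') : A := ∑ δ, m.val (P.pt y δ)

end LevQuot

theorem Monom.val_pow {X : Type*} (m : Monom X A) (n : ℕ) (x : X) :
    (m ^ n).val x = ∑ t ∈ Finset.range n, m.val ((m.perm ^ t) x) := by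
  induction n generalizing x with
  | zero => simp [Monom.val_one]
  | succ n ih =>
    rw [pow_succ, Monom.val_mul, ih, Finset.sum_range_succ']
    simp only [pow_succ, Equiv.Perm.mul_apply, pow_zero, Equiv.Perm.coe_one, id_eq]
    rw [add_comm]

theorem Monom.perm_pow {X : Type*} (m : Monom X A) (n : ℕ) : (m ^ n).perm = m.perm ^ n :=
  map_pow Monom.permHom m n

/-- An element of order `n` over a given one, with prescribed fibre sums. -/
theorem LevQuot.exists_lift_push {n : ℕ} {g : SL(2, ℤ)}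
    (hact : ∀ x : SL(2, ℤ) ⧸ G, g ^ n • x = x) (hA : Bijective fun a : A => n • a)
    (F : Monom (SL(2, ℤ) ⧸ G') A) (hF : F ^ n = 1) (hperm : ∀ y, F.perm y = g • y) :
    ∃ m : Monom (SL(2, ℤ) ⧸ G) A,
      (∀ x, m.perm x = g • x) ∧ m ^ n = 1 ∧ ∀ y, P.push m y = F.val y := by
  classical
  choose yy dd hpt using P.exists_eq_pt
  set v₀ : SL(2, ℤ) ⧸ G → A := fun x => if dd x = 1 then F.val (yy x) else 0
  have hv : ∀ y, ∑ δ, v₀ (P.pt y δ) = F.val y := fun y => by
    rw [Finset.sum_eq_single (1 : Δ)]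
    · obtain ⟨e1, e2⟩ := P.pt_inj (hpt (P.pt y 1))
      show (if _ then _ else _) = _
      rw [if_pos e2.symm, ← e1]
    · intro δ _ hδ
      obtain ⟨-, e2⟩ := P.pt_inj (hpt (P.pt y δ))
      exact if_neg (e2 ▸ hδ)
    · exact fun h => absurd (Finset.mem_univ _) h
  set m₀ : Monom (SL(2, ℤ) ⧸ G) A := ⟨MulAction.toPerm g, v₀⟩
  have hm : ∀ t x, (m₀.perm ^ t) x = g ^ t • x := fun t x => by
    induction t with
    | zero => simp
    | succ t ih =>
      rw [pow_succ', Equiv.Perm.mul_apply, ih, pow_succ', mul_smul]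
      rfl
  choose c hc using fun x => hA.2 ((m₀ ^ n).val x)
  have hcx : ∀ x, c (g • x) = c x := fun x => by
    refine hA.1 ?_
    show n • c (g • x) = n • c x
    rw [show n • c (g • x) = _ from hc _, show n • c x = _ from hc _]
    have h := congrArg (fun p : Monom (SL(2, ℤ) ⧸ G) A => p.val x)
      (Commute.self_pow m₀ n).eq.symm
    simp only [Monom.val_mul] at h
    rw [show (m₀ ^ n).perm x = x by rw [Monom.perm_pow, hm, hact],
      show m₀.perm x = g • x from rfl, add_comm ((m₀ ^ n).val x)] at h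
    exact add_left_cancel h
  set m : Monom (SL(2, ℤ) ⧸ G) A := ⟨MulAction.toPerm g, fun x => v₀ x - c x⟩
  have hct : ∀ t x, c (g ^ t • x) = c x := fun t x => by
    induction t with
    | zero => simp
    | succ t ih => rw [pow_succ', mul_smul, hcx, ih]
  refine ⟨m, fun x => rfl, Monom.ext ?_ (funext fun x => ?_), fun y => ?_⟩
  · refine Equiv.ext fun x => ?_
    rw [Monom.perm_pow, show m.perm = m₀.perm from rfl, hm, hact]
    rfl
  · rw [Monom.val_pow, Monom.val_one]
    simp only [show m.perm = m₀.perm from rfl, hm]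
    rw [show (∑ t ∈ Finset.range n, m.val (g ^ t • x)) =
      ∑ t ∈ Finset.range n, (v₀ (g ^ t • x) - c x) from
        Finset.sum_congr rfl fun t _ => by rw [← hct t x]]
    rw [Finset.sum_sub_distrib, Finset.sum_const, Finset.card_range,
      show n • c x = _ from hc x, Monom.val_pow]
    simp only [hm]
    exact sub_self _
  · show ∑ δ, (v₀ (P.pt y δ) - c (P.pt y δ)) = _
    rw [Finset.sum_sub_distrib, hv, sub_eq_self]
    refine hA.1 ?_
    show n • _ = n • (0 : A)
    rw [Finset.smul_sum, smul_zero, Finset.sum_congr rfl fun δ _ =>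
      (show n • c (P.pt y δ) = _ from hc _).trans (Monom.val_pow m₀ n _), Finset.sum_comm]
    simp only [hm, P.smul_pt]
    refine (Finset.sum_congr rfl fun t _ =>
      (Equiv.sum_comp (Equiv.mulLeft (P.toHom (indPart G' (g ^ t) y)))
        (fun δ => v₀ (P.pt (g ^ t • y) δ))).trans (hv _)).trans ?_
    have hFt : ∀ t, (F.perm ^ t) y = g ^ t • y := fun t => by
      induction t with
      | zero => simp
      | succ t ih => rw [pow_succ', Equiv.Perm.mul_apply, ih, pow_succ', mul_smul, hperm]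
    have h1 := Monom.val_pow F n y
    simp only [hF, Monom.val_one, hFt] at h1
    exact h1.symm

variable (R : Type*) [Ring R] [Module R A]

/-- Restrictions from `G'` are norms. -/
theorem LevQuot.exists_norm_eq (hneg : (-1 : SL(2, ℤ)) ∈ G)
    (h2 : Bijective fun a : A => 2 • a) (h3 : Bijective fun a : A => 3 • a)
    (φ : Additive G' →+ A) : ∃ χ : Additive G →+ A, ∑ δ, P.dia R δ χ = P.res R φ := by
  classical
  set F := indHom G' φ
  have hnegX : ∀ x : SL(2, ℤ) ⧸ G, (-1 : SL(2, ℤ)) • x = x := fun x => by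
    induction x using QuotientGroup.induction_on with
    | H y => exact QuotientGroup.eq.mpr (by simpa using hneg)
  have hnegY : ∀ x : SL(2, ℤ) ⧸ G', (-1 : SL(2, ℤ)) • x = x := fun x => by
    induction x using QuotientGroup.induction_on with
    | H y => exact QuotientGroup.eq.mpr (by simpa using P.le hneg)
  have hF : F (-1) = 1 := by
    refine Monom.ext (Equiv.ext hnegY) (funext fun x => h2.1 ?_)
    show 2 • φ (.ofMul (indPart G' (-1) x)) = 2 • (0 : A)
    rw [← map_nsmul, ← ofMul_pow, smul_zero,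
      show indPart G' (-1) x ^ 2 = 1 from Subtype.ext (by
        show (((-1 : SL(2, ℤ)) • x).out⁻¹ * ((-1) * x.out)) ^ 2 = 1
        rw [hnegY]; simp)]
    simp
  have hS : (ModularGroup.S : SL(2, ℤ)) ^ 2 = -1 := by rw [pow_two, S_mul_S]
  have hU : uGen ^ 3 = (-1 : SL(2, ℤ)) := by rw [pow_three, uGen_cube]
  obtain ⟨s, sperm, hs1, hs2⟩ := P.exists_lift_push (g := ModularGroup.S) (n := 2)
    (fun x => by rw [hS, hnegX]) h2 (F ModularGroup.S) (by rw [← map_pow, hS, hF]) fun y => rfl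
  obtain ⟨u, uperm, hu1, hu2⟩ := P.exists_lift_push (g := uGen) (n := 3)
    (fun x => by rw [hU, hnegX]) h3 (F uGen) (by rw [← map_pow, hU, hF]) fun y => rfl
  rw [pow_two] at hs1
  rw [pow_three] at hu1
  obtain ⟨f, fS, fu, -⟩ := exists_hom_of_orders hs1 hu1
  have hperm : Monom.permHom.comp f = MulAction.toPermHom SL(2, ℤ) (SL(2, ℤ) ⧸ G) :=
    hom_ext_gens (Equiv.ext fun x => by
      rw [MonoidHom.comp_apply, fS]; exact sperm x) (Equiv.ext fun x => by
      rw [MonoidHom.comp_apply, fu]; exact uperm x)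
  have hp : ∀ g x, (f g).perm x = g • x := fun g x => Equiv.congr_fun (DFunLike.congr_fun hperm g) x
  -- the fibre sums form a homomorphism
  let F₁ : SL(2, ℤ) →* Monom (SL(2, ℤ) ⧸ G') A :=
    MonoidHom.mk' (fun g => ⟨MulAction.toPerm g, P.push (f g)⟩) fun g h => by
      refine Monom.ext (Equiv.ext fun y => mul_smul g h y) (funext fun y => ?_)
      show P.push (f (g * h)) y = P.push (f h) y + P.push (f g) (h • y)
      simp only [LevQuot.push, map_mul, Monom.val_mul, Finset.sum_add_distrib, hp, P.smul_pt]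
      exact congrArg (_ + ·) (Equiv.sum_comp (Equiv.mulLeft (P.toHom (indPart G' h y)))
        fun δ => (f g).val (P.pt (h • y) δ))
  have hF₁ : F₁ = F := hom_ext_gens
    (Monom.ext rfl (funext fun y => by show P.push (f _) y = _; rw [fS, hs2]))
    (Monom.ext rfl (funext fun y => by show P.push (f _) y = _; rw [fu, hu2]))
  set x₀ : SL(2, ℤ) ⧸ G := ((1 : SL(2, ℤ)) : SL(2, ℤ) ⧸ G)
  have hstab : ∀ γ : G, (f γ).perm x₀ = x₀ := fun γ => by
    rw [hp]
    exact QuotientGroup.eq.mpr (by simp)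
  refine ⟨AddMonoidHom.mk' (fun γ => (f ((γ.toMul : G) : SL(2, ℤ))).val x₀) fun a b => ?_, ?_⟩
  · show (f ((a.toMul * b.toMul : G) : SL(2, ℤ))).val x₀ = _
    rw [Subgroup.coe_mul, map_mul, Monom.val_mul, hstab, add_comm]
  refine AddMonoidHom.ext fun γ => ?_
  obtain ⟨γ, rfl⟩ := Additive.ofMul.surjective γ
  rw [AddMonoidHom.finsetSum_apply]
  simp only [LevQuot.dia_apply]
  have hbase := indHom_base G' φ (Subgroup.inclusion P.le γ)
  rw [P.res_apply, ← hbase, ← show F₁ = indHom G' φ from hF₁]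
  show _ = ∑ δ, (f (γ : SL(2, ℤ))).val (P.pt _ δ)
  obtain ⟨r, hr⟩ := QuotientGroup.mk_out_eq_mul G' (1 : SL(2, ℤ))
  rw [one_mul] at hr
  rw [← Equiv.sum_comp (Equiv.mulLeft (P.toHom r))]
  refine Finset.sum_congr rfl fun δ _ => ?_
  have hx : P.pt ((1 : SL(2, ℤ)) : SL(2, ℤ) ⧸ G') δ =
      ((P.sec (P.toHom r * δ) : SL(2, ℤ)) : SL(2, ℤ) ⧸ G) := by
    refine QuotientGroup.eq.mpr ?_
    rw [hr, show ((r : SL(2, ℤ)) * (P.sec δ : SL(2, ℤ)))⁻¹ * (P.sec (P.toHom r * δ) : SL(2, ℤ)) =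
      (((r * P.sec δ)⁻¹ * P.sec (P.toHom r * δ) : G') : SL(2, ℤ)) by simp, ← P.ker_iff, map_mul,
      map_inv, map_mul, P.toHom_sec, P.toHom_sec, inv_mul_cancel]
  rw [hx]
  set h : SL(2, ℤ) := ((P.sec (P.toHom r * δ) : G') : SL(2, ℤ))
  set γ' : G := P.conj (P.sec (P.toHom r * δ)) γ
  have e : (γ : SL(2, ℤ)) * h = h * (γ' : SL(2, ℤ)) := by
    show _ = h * (h⁻¹ * _ * h); group
  have e' := congrArg (fun g => (f g).val x₀) e
  simp only [map_mul, Monom.val_mul, hp] at e'
  rw [show h • x₀ = (h : SL(2, ℤ) ⧸ G) from congrArg (QuotientGroup.mk (s := G)) (mul_one h),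
    show (γ' : SL(2, ℤ)) • x₀ = x₀ from QuotientGroup.eq.mpr (by simp),
    add_comm ((f (γ' : SL(2, ℤ))).val x₀)] at e'
  exact (add_left_cancel e').symm

end Norm

end Fermat.Agent.Auto
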