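import Mathlib

/-!
The part of a module over a complete local ring belonging to a residual system of eigenvalues of a
family of commuting operators.
-/

set_option autoImplicit false

noncomputable section

namespace Fermat.Agent.Auto

open IsLocalRing

variable {O : Type} [CommRing O] [IsLocalRing O] {ι : Type} {L : Type} [AddCommGroup L] [Module O L]

/-- Vectors on which every `T i - a i` is topologically nilpotent. -/
def locPart (T : ι → Module.End O L) (a : ι → O) : Submodule O L where
  carrier := {x | ∀ (i : ι) (k : ℕ), ∃ j : ℕ, ∀ j', j ≤ j' →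
    ((T i - algebraMap O (Module.End O L) (a i)) ^ j') x ∈ (maximalIdeal O ^ k) • (⊤ : Submodule O L)}
  zero_mem' i k := ⟨0, fun j' _ => by rw [map_zero]; exact zero_mem _⟩
  add_mem' {x y} hx hy i k := by
    obtain ⟨j, hj⟩ := hx i k
    obtain ⟨j₂, hj₂⟩ := hy i k
    exact ⟨max j j₂, fun j' h => by
      rw [map_add]
      exact add_mem (hj j' (le_trans (le_max_left _ _) h)) (hj₂ j' (le_trans (le_max_right _ _) h))⟩
  smul_mem' c x hx i k := by
    obtain ⟨j, hj⟩ := hx i k
    exact ⟨j, fun j' h => by rw [map_smul]; exact Submodule.smul_mem _ c (hj j' h)⟩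

theorem mem_locPart {T : ι → Module.End O L} {a : ι → O} {x : L} :
    x ∈ locPart T a ↔ ∀ (i : ι) (k : ℕ), ∃ j : ℕ, ∀ j', j ≤ j' →
      ((T i - algebraMap O (Module.End O L) (a i)) ^ j') x ∈
        (maximalIdeal O ^ k) • (⊤ : Submodule O L) :=
  Iff.rfl

/-- A map commuting with the operators preserves the part. -/
theorem map_mem_locPart {L' : Type} [AddCommGroup L'] [Module O L'] {T : ι → Module.End O L}
    {T' : ι → Module.End O L'} {a : ι → O} (f : L →ₗ[O] L')
    (hf : ∀ i x, f (T i x) = T' i (f x)) {x : L} (hx : x ∈ locPart T a) :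
    f x ∈ locPart T' a := fun i k => by
  obtain ⟨j, hj⟩ := hx i k
  refine ⟨j, fun j' h => ?_⟩
  have key : ∀ (n : ℕ) y, f (((T i - algebraMap O (Module.End O L) (a i)) ^ n) y) =
      ((T' i - algebraMap O (Module.End O L') (a i)) ^ n) (f y) := fun n => by
    induction n with
    | zero => intro y; rfl
    | succ n ih =>
      intro y
      rw [pow_succ, pow_succ, Module.End.mul_apply, Module.End.mul_apply, ih]
      simp [hf]
  rw [← key]
  have h1 : ((T i - algebraMap O (Module.End O L) (a i)) ^ j') x ∈
      ((maximalIdeal O ^ k) • (⊤ : Submodule O L')).comap f :=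
    Submodule.smul_le.mpr (fun r hr y _ => by
      show f (r • y) ∈ (maximalIdeal O ^ k) • (⊤ : Submodule O L')
      rw [map_smul]; exact Submodule.smul_mem_smul hr trivial) (hj j' h)
  exact h1

theorem map_locPart_le {T : ι → Module.End O L} {a : ι → O} (f : Module.End O L)
    (hf : ∀ i, Commute f (T i)) {x : L} (hx : x ∈ locPart T a) : f x ∈ locPart T a :=
  map_mem_locPart f (fun i y => LinearMap.congr_fun (hf i).eq y) hx

end Fermat.Agent.Auto
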