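import Fermat.Agent.Auto.Group
import Fermat.Agent.Auto.Loc
import Fermat.Agent.GalRep.Universal

/-!
The lattice of parabolic homomorphisms of `grp M c` with coefficients in a ring, and its operators.
-/

set_option autoImplicit false
set_option linter.unusedSectionVars false

noncomputable section

namespace Fermat.Agent.Auto

open CongruenceSubgroup
open Fermat.Agent.GalRep (GoodPrime)
open Fermat.Agent.GalRep.Level (ParG IsDiamond)
open Fermat.Agent.DS (IsReps diaMat diaMat_mem isDiamond_diaMat_prime)
open scoped MatrixGroups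

variable (M : ℕ) [NeZero M] {Δ : Type} [CommGroup Δ] (c : (ZMod M)ˣ →* Δ) (O : Type) [CommRing O]

/-- The lattice. -/
abbrev Lat : Type := ↥(ModularCurve.Period.parabolicHoms O (grp M c) O)

variable {M c O}

/-- The lattice element as a parabolic homomorphism. -/
def toParG (v : Lat M c O) : ParG (grp M c) O := ⟨(v : Additive (grp M c) →+ O), v.2⟩

/-- The operator given by representatives of a double coset. -/
def transferEnd {ι : Type} [Fintype ι] {β : ι → GalRep.IMat} (h : IsReps (grp M c) β) :
    Module.End O (Lat M c O) where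
  toFun v := ⟨h.transfer (v : Additive (grp M c) →+ O), h.transfer_mem (toParG v)⟩
  map_add' _ _ := Subtype.ext (map_add h.transfer _ _)
  map_smul' r v := Subtype.ext (h.transfer_comp (AddMonoidHom.mulLeft r)
    (v : Additive (grp M c) →+ O))

theorem coe_transferEnd {ι : Type} [Fintype ι] {β : ι → GalRep.IMat} (h : IsReps (grp M c) β)
    (v : Lat M c O) :
    ((transferEnd h v : Lat M c O) : Additive (grp M c) →+ O) =
      h.transfer (v : Additive (grp M c) →+ O) := rfl

variable (M c O) in
/-- `T_ℓ` for `ℓ` prime to the level. -/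
def latT (ℓ : GoodPrime M) : Module.End O (Lat M c O) :=
  haveI hℓ := ℓ.1.2
  transferEnd (isReps_grp (c := c) hℓ ℓ.2
    (isDiamond_diaMat_prime (hℓ.coprime_iff_not_dvd.2 ℓ.2)))

variable (M c O) in
/-- The diamond operator of a unit modulo the level. -/
def latDia (d : (ZMod M)ˣ) : Module.End O (Lat M c O) :=
  transferEnd (isReps_grp_diamond (c := c) (diaMat_mem d))

variable (M c O) in
/-- The operator of an element of the quotient group. -/
def latDelta (hc : Function.Surjective c) (x : Δ) : Module.End O (Lat M c O) :=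
  latDia M c O (Function.surjInv hc x)

/-- The good primes outside a set. -/
abbrev PrimeOff (M : ℕ) (S : Finset ℕ) : Type := GalRep.GoodPrimeOff M (↑S : Set ℕ)

variable (M c O) in
/-- The part of the lattice with residual eigenvalues `a`. -/
def latLoc [IsLocalRing O] (S : Finset ℕ) (a : ℕ → O) : Submodule O (Lat M c O) :=
  locPart (fun i : PrimeOff M S => latT M c O i.1) fun i => a ((i.1 : Nat.Primes) : ℕ)

/-- The residual system is not Eisenstein: in every progression `1` modulo `L` some prime outside
`S` has `a ℓ` not congruent to `ℓ + 1`. -/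
def NonEis [IsLocalRing O] (S : Finset ℕ) (a : ℕ → O) : Prop :=
  ∀ L : ℕ, 0 < L → ∃ ℓ : ℕ, ℓ.Prime ∧ ℓ ∉ S ∧ ℓ ≡ 1 [MOD L] ∧ IsUnit (a ℓ - ((ℓ : O) + 1))

variable (M c O) in
/-- The twisted operator `T_ℓ ⟨ℓ⟩^(-1/2)`, for a group `Δ` of odd order. -/
def twT (ℓ : GoodPrime M) : Module.End O (Lat M c O) :=
  haveI hℓ := ℓ.1.2
  latT M c O ℓ *
    latDia M c O (ZMod.unitOfCoprime _ (hℓ.coprime_iff_not_dvd.2 ℓ.2) ^ ((Nat.card Δ - 1) / 2))

/-- A good prime of a multiple of the level as a good prime of the level. -/
def downPrime {N : ℕ} (h : M ∣ N) (i : GoodPrime N) : GoodPrime M :=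
  ⟨i.1, fun h' => i.2 (h'.trans h)⟩

end Fermat.Agent.Auto
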