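/-
Commutation of the operators on the lattice of a level.
-/
import Fermat.Agent.Auto.Lat

set_option autoImplicit false
set_option linter.unusedSectionVars false
set_option maxHeartbeats 400000

noncomputable section

namespace Fermat.Agent.Auto

open CongruenceSubgroup
open Fermat.Agent.GalRep (IMat GoodPrime heckeRep exists_eq_mul_heckeRep heckeRep_unique)
open Fermat.Agent.GalRep.Level (ParG IsDiamond heckeRepG det_heckeRepG)
open Fermat.Agent.DS (IsReps diaMat diaMat_mem diaMat_eleven eleven_mul exists_twist isReps_hecke0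
  coef_eleven isDiamond_diaMat_prime)
open scoped MatrixGroups

variable {M ℓ m : ℕ} {R R' : SL(2, ℤ)}

/-- An integral matrix of determinant divisible by `ℓ` is right divisible by a representative. -/
theorem exists_eq_mul_heckeRepG (hℓ : ℓ.Prime) (hℓM : ¬ ℓ ∣ M) (hR : IsDiamond M ℓ R) (X : IMat)
    (hX : (ℓ : ℤ) ∣ X.det) : ∃ (i : Option (Fin ℓ)) (Y : IMat), X = Y * heckeRepG M ℓ R i := by
  obtain ⟨π, u, -, -, -, hu⟩ := exists_twist hℓ hℓM hR
  obtain ⟨i, Y, hY⟩ := exists_eq_mul_heckeRep hℓ X hX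
  obtain ⟨i, rfl⟩ := π.optionCongr.surjective i
  refine ⟨i, Y * ((u i)⁻¹ : SL(2, ℤ)), ?_⟩
  rw [hu i, ← mul_assoc, mul_assoc Y, ← Matrix.SpecialLinearGroup.coe_mul, inv_mul_cancel,
    Matrix.SpecialLinearGroup.coe_one, mul_one, hY]

/-- The representative in such a factorisation is unique. -/
theorem heckeRepG_unique (hℓ : ℓ.Prime) (hℓM : ¬ ℓ ∣ M) (hR : IsDiamond M ℓ R) {X Y : IMat}
    (hX : ¬ (ℓ : ℤ) ∣ X.det) {i j : Option (Fin ℓ)}
    (h : X * heckeRepG M ℓ R i = Y * heckeRepG M ℓ R j) : i = j := by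
  obtain ⟨π, u, -, -, -, hu⟩ := exists_twist hℓ hℓM hR
  rw [hu i, hu j, ← mul_assoc, ← mul_assoc] at h
  refine π.optionCongr.injective (heckeRep_unique hℓ ?_ h)
  rwa [Matrix.det_mul, Matrix.SpecialLinearGroup.det_coe, mul_one]

/-- The representatives are congruent to `diag(1, ℓ)` modulo the level. -/
theorem map_heckeRepG (hR : IsDiamond M ℓ R) (i : Option (Fin ℓ)) :
    (heckeRepG M ℓ R i).map (Int.castRingHom (ZMod M)) = !![1, 0; 0, (ℓ : ZMod M)] := by
  obtain ⟨h1, h2, h3, h4⟩ := hR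
  cases i with
  | none =>
    ext r c
    fin_cases r <;> fin_cases c <;> simp [heckeRepG, Matrix.mul_apply, Fin.sum_univ_two, h2, h3, h4]
    rw [mul_comm]; exact h1
  | some b =>
    ext r c
    fin_cases r <;> fin_cases c <;> simp [heckeRepG]

theorem mem_gamma_of_mul_eq (g : SL(2, ℤ)) (P Q : IMat) (d : ZMod M) (hd : IsUnit d)
    (hP : P.map (Int.castRingHom (ZMod M)) = !![1, 0; 0, d])
    (hQ : Q.map (Int.castRingHom (ZMod M)) = !![1, 0; 0, d])
    (h : Q = (g : IMat) * P) : g ∈ Gamma M := by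
  have h1 := congrArg (fun X : IMat => X.map (Int.castRingHom (ZMod M))) h
  simp only [Matrix.map_mul, hP, hQ] at h1
  have h00 := congrFun (congrFun h1 0) 0
  have h01 := congrFun (congrFun h1 0) 1
  have h10 := congrFun (congrFun h1 1) 0
  have h11 := congrFun (congrFun h1 1) 1
  simp [Matrix.mul_apply, Fin.sum_univ_two] at h00 h01 h10 h11
  refine Gamma_mem.mpr ⟨h00.symm, (hd.mul_left_eq_zero).mp h01.symm, h10.symm, ?_⟩
  exact hd.mul_right_cancel (h11.symm.trans (one_mul d).symm)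

variable {Δ : Type} [CommGroup Δ] {c : (ZMod M)ˣ →* Δ} {A : Type} [AddCommGroup A]

set_option maxHeartbeats 1000000 in
/-- Transfers at two primes commute. -/
theorem transfer_comm_grp (hℓ : ℓ.Prime) (hℓM : ¬ ℓ ∣ M) (hR : IsDiamond M ℓ R) (hm : m.Prime)
    (hmM : ¬ m ∣ M) (hR' : IsDiamond M m R') (hne : ℓ ≠ m) (χ : Additive (grp M c) →+ A) :
    (isReps_grp (c := c) hℓ hℓM hR).transfer ((isReps_grp (c := c) hm hmM hR').transfer χ) =
      (isReps_grp (c := c) hm hmM hR').transfer ((isReps_grp (c := c) hℓ hℓM hR).transfer χ) := by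
  classical
  set h := isReps_grp (c := c) hℓ hℓM hR
  set h' := isReps_grp (c := c) hm hmM hR'
  let B := heckeRepG M ℓ R
  let B' := heckeRepG M m R'
  let gm : grp M c → IMat := fun g => ((g : SL(2, ℤ)) : IMat)
  have gm_mul : ∀ g g', gm (g * g') = gm g * gm g' := fun g g' => Matrix.SpecialLinearGroup.coe_mul _ _
  have gm_det : ∀ g, (gm g).det = 1 := fun g => Matrix.SpecialLinearGroup.det_coe _
  have gm_inj : Function.Injective gm := fun a b e => Subtype.ext (Subtype.ext e)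
  have hcop : ¬ (ℓ : ℤ) ∣ (m : ℤ) := fun e =>
    hne ((Nat.prime_dvd_prime_iff_eq hℓ hm).mp (Int.natCast_dvd_natCast.mp e))
  have hcop' : ¬ (m : ℤ) ∣ (ℓ : ℤ) := fun e =>
    hne ((Nat.prime_dvd_prime_iff_eq hm hℓ).mp (Int.natCast_dvd_natCast.mp e)).symm
  let P : Option (Fin ℓ) × Option (Fin m) → IMat := fun x => B' x.2 * B x.1
  let Q : Option (Fin ℓ) × Option (Fin m) → IMat := fun x => B x.1 * B' x.2
  have hd : IsUnit ((ℓ : ZMod M) * (m : ZMod M)) :=
    ((ZMod.isUnit_iff_coprime ℓ M).2 (hℓ.coprime_iff_not_dvd.2 hℓM)).mul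
      ((ZMod.isUnit_iff_coprime m M).2 (hm.coprime_iff_not_dvd.2 hmM))
  have hPQ : ∀ x, ∃ y, ∃ g : grp M c, Q x = gm g * P y := by
    intro x
    obtain ⟨i, Y, hY⟩ := exists_eq_mul_heckeRepG hℓ hℓM hR (Q x)
      ⟨m, by simp only [Q, B, B', Matrix.det_mul, det_heckeRepG]⟩
    have hYdet : Y.det = m := by
      have := congrArg Matrix.det hY
      simp only [Q, B, B', Matrix.det_mul, det_heckeRepG] at this
      exact mul_right_cancel₀ (Int.natCast_ne_zero.mpr hℓ.ne_zero) (by rw [← this, mul_comm])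
    obtain ⟨j, Z, hZ⟩ := exists_eq_mul_heckeRepG hm hmM hR' Y ⟨1, by rw [hYdet, mul_one]⟩
    have hZdet : Z.det = 1 := by
      have := congrArg Matrix.det hZ
      rw [Matrix.det_mul, det_heckeRepG, hYdet] at this
      exact mul_right_cancel₀ (Int.natCast_ne_zero.mpr hm.ne_zero) (this.symm.trans (one_mul _).symm)
    have e : Q x = (((⟨Z, hZdet⟩ : SL(2, ℤ))) : IMat) * P (i, j) := by
      show Q x = Z * (B' j * B i)
      rw [hY, hZ, mul_assoc]
    have hdiag : ∀ a b : ZMod M, (!![1, 0; 0, a] * !![1, 0; 0, b] : Matrix (Fin 2) (Fin 2) (ZMod M)) =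
        !![1, 0; 0, a * b] := fun a b => by
      ext r c; fin_cases r <;> fin_cases c <;> simp [Matrix.mul_apply, Fin.sum_univ_two]
    refine ⟨(i, j), ⟨⟨Z, hZdet⟩, gamma_le_grp (mem_gamma_of_mul_eq _ _ _ _ hd ?_ ?_ e)⟩, e⟩
    · simp only [P, B, B', Matrix.map_mul, map_heckeRepG hR, map_heckeRepG hR']
      rw [hdiag, mul_comm]
    · simp only [Q, B, B', Matrix.map_mul, map_heckeRepG hR, map_heckeRepG hR']
      rw [hdiag]
  choose β η hβ using hPQ
  have hPinj : ∀ (g g' : grp M c) x y, gm g * P x = gm g' * P y → x = y ∧ g = g' := by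
    intro g g' x y e
    simp only [P, ← mul_assoc] at e
    have h1 : x.1 = y.1 := heckeRepG_unique hℓ hℓM hR (by
      rw [Matrix.det_mul, gm_det, det_heckeRepG, one_mul]; exact hcop) e
    rw [h1] at e
    have e' := h.mul_cancel e
    have h2 : x.2 = y.2 := heckeRepG_unique hm hmM hR' (by
      rw [gm_det]; exact_mod_cast hm.not_dvd_one) e'
    rw [h2] at e'
    exact ⟨Prod.ext h1 h2, gm_inj (h'.mul_cancel e')⟩
  have hQinj : ∀ (g g' : grp M c) x y, gm g * Q x = gm g' * Q y → x = y ∧ g = g' := by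
    intro g g' x y e
    simp only [Q, ← mul_assoc] at e
    have h1 : x.2 = y.2 := heckeRepG_unique hm hmM hR' (by
      rw [Matrix.det_mul, gm_det, det_heckeRepG, one_mul]; exact hcop') e
    rw [h1] at e
    have e' := h'.mul_cancel e
    have h2 : x.1 = y.1 := heckeRepG_unique hℓ hℓM hR (by
      rw [gm_det]; exact_mod_cast hℓ.not_dvd_one) e'
    rw [h2] at e'
    exact ⟨Prod.ext h2 h1, gm_inj (h.mul_cancel e')⟩
  have hβinj : Function.Injective β := fun x y hxy => by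
    refine (hQinj (η x)⁻¹ (η y)⁻¹ x y ?_).1
    rw [hβ x, hβ y, hxy, ← mul_assoc (gm _) (gm _), ← mul_assoc (gm _) (gm _),
      ← gm_mul, ← gm_mul, inv_mul_cancel, inv_mul_cancel]
  let βe := Equiv.ofBijective β (Finite.injective_iff_bijective.mp hβinj)
  refine AddMonoidHom.ext fun z => ?_
  obtain ⟨γ, rfl⟩ := Additive.ofMul.surjective z
  let πP : Option (Fin ℓ) × Option (Fin m) → Option (Fin ℓ) × Option (Fin m) := fun x =>
    (h.idx γ x.1, h'.idx (h.coef γ x.1) x.2)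
  let cP : Option (Fin ℓ) × Option (Fin m) → grp M c := fun x => h'.coef (h.coef γ x.1) x.2
  let πQ : Option (Fin ℓ) × Option (Fin m) → Option (Fin ℓ) × Option (Fin m) := fun x =>
    (h.idx (h'.coef γ x.2) x.1, h'.idx γ x.2)
  let cQ : Option (Fin ℓ) × Option (Fin m) → grp M c := fun x => h.coef (h'.coef γ x.2) x.1
  have hP : ∀ x, P x * gm γ = gm (cP x) * P (πP x) := fun x => by
    simp only [P, B, B', gm, cP, πP]
    rw [mul_assoc, h.spec γ x.1, ← mul_assoc, h'.spec (h.coef γ x.1) x.2, mul_assoc]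
  have hQ : ∀ x, Q x * gm γ = gm (cQ x) * Q (πQ x) := fun x => by
    simp only [Q, B, B', gm, cQ, πQ]
    rw [mul_assoc, h'.spec γ x.2, ← mul_assoc, h.spec (h'.coef γ x.2) x.1, mul_assoc]
  have hrel : ∀ x, β (πQ x) = πP (β x) ∧ cQ x * η (πQ x) = η x * cP (β x) := fun x => by
    have h1 : gm (cQ x * η (πQ x)) * P (β (πQ x)) = gm (η x * cP (β x)) * P (πP (β x)) := by
      rw [gm_mul, gm_mul, mul_assoc, mul_assoc, ← hβ, ← hQ, ← hP, hβ, mul_assoc]
    exact hPinj _ _ _ _ h1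
  have hπQ : Function.Bijective πQ := by
    refine Finite.injective_iff_bijective.mp fun x y hxy => ?_
    have hx2 : x.2 = y.2 := (h'.perm γ).injective (congrArg Prod.snd hxy)
    refine Prod.ext ((h.perm (h'.coef γ y.2)).injective ?_) hx2
    have := congrArg Prod.fst hxy
    simp only [πQ, hx2] at this
    exact this
  let cc : grp M c → A := fun g => χ (Additive.ofMul g)
  have hcc : ∀ g g', cc (g * g') = cc g + cc g' := fun g g' => map_add χ _ _
  have hlhs : h.transfer (h'.transfer χ) (Additive.ofMul γ) = ∑ x, cc (cP x) := by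
    rw [Fintype.sum_prod_type, IsReps.transfer_apply]
    exact Finset.sum_congr rfl fun i _ => IsReps.transfer_apply h' χ _
  have hrhs : h'.transfer (h.transfer χ) (Additive.ofMul γ) = ∑ x, cc (cQ x) := by
    rw [Fintype.sum_prod_type_right, IsReps.transfer_apply]
    exact Finset.sum_congr rfl fun i _ => IsReps.transfer_apply h χ _
  rw [hlhs, hrhs]
  have hsum : ∑ x, (cc (cQ x) + cc (η (πQ x))) = ∑ x, (cc (η x) + cc (cP (β x))) :=
    Finset.sum_congr rfl fun x _ => by rw [← hcc, ← hcc, (hrel x).2]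
  rw [Finset.sum_add_distrib, Finset.sum_add_distrib, hπQ.sum_comp (fun x => cc (η x)), add_comm,
    add_right_inj] at hsum
  rw [hsum]
  exact (βe.sum_comp (fun x => cc (cP x))).symm

/-! ### Diamonds -/

/-- Conjugation by an element of `Γ₀(M)`. -/
def conjGrp {δ : SL(2, ℤ)} (hδ : δ ∈ Gamma0 M) (γ : grp M c) : grp M c :=
  ⟨δ * γ * δ⁻¹, conj_mem_grp hδ γ.2⟩

theorem transfer_grp_diamond {δ : SL(2, ℤ)} (hδ : δ ∈ Gamma0 M) (χ : Additive (grp M c) →+ A)
    (γ : grp M c) :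
    (isReps_grp_diamond (c := c) hδ).transfer χ (Additive.ofMul γ) =
      χ (Additive.ofMul (conjGrp hδ γ)) := by
  rw [IsReps.transfer_apply, Fintype.sum_unique,
    ((isReps_grp_diamond (c := c) hδ).unique (g := conjGrp hδ γ) (j := ()) (i := default) (γ := γ)
      (by rw [← Matrix.SpecialLinearGroup.coe_mul, ← Matrix.SpecialLinearGroup.coe_mul]
          simp [conjGrp, mul_assoc])).2]

/-- Conjugation of a class depends only on the lower right entry. -/
theorem conjGrp_congr {δ δ' : SL(2, ℤ)} (hδ : δ ∈ Gamma0 M) (hδ' : δ' ∈ Gamma0 M)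
    (h : ((δ 1 1 : ℤ) : ZMod M) = (δ' 1 1 : ℤ)) (χ : Additive (grp M c) →+ A) (γ : grp M c) :
    χ (Additive.ofMul (conjGrp hδ γ)) = χ (Additive.ofMul (conjGrp hδ' γ)) := by
  have hg : δ * δ'⁻¹ ∈ grp M c := by
    refine mem_grp_of_eleven (mul_mem hδ (inv_mem hδ')) (one_mem _) ?_
    rw [eleven_mul hδ, h, ← eleven_mul hδ']
    simp
  have e : conjGrp hδ γ = ⟨δ * δ'⁻¹, hg⟩ * conjGrp hδ' γ * (⟨δ * δ'⁻¹, hg⟩ : grp M c)⁻¹ := by
    refine Subtype.ext ?_
    simp only [conjGrp, Subgroup.coe_mul, Subgroup.coe_inv]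
    group
  rw [e, ofMul_mul, ofMul_mul, ofMul_inv, map_add, map_add, map_neg]
  abel

variable [NeZero M] {O : Type} [CommRing O]

theorem latDia_apply (d : (ZMod M)ˣ) (v : Lat M c O) (γ : grp M c) :
    ((latDia M c O d v : Lat M c O) : Additive (grp M c) →+ O) (Additive.ofMul γ) =
      (v : Additive (grp M c) →+ O) (Additive.ofMul (conjGrp (diaMat_mem d) γ)) :=
  transfer_grp_diamond (diaMat_mem d) _ γ

theorem lat_ext_apply {v w : Lat M c O}
    (h : ∀ γ : grp M c, (v : Additive (grp M c) →+ O) (Additive.ofMul γ) =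
      (w : Additive (grp M c) →+ O) (Additive.ofMul γ)) : v = w :=
  Subtype.ext (AddMonoidHom.ext fun x => h (Additive.toMul x))

theorem latDia_mul' (d e : (ZMod M)ˣ) :
    latDia M c O (d * e) = latDia M c O d * latDia M c O e := by
  refine LinearMap.ext fun v => lat_ext_apply fun γ => ?_
  rw [Module.End.mul_apply, latDia_apply, latDia_apply, latDia_apply]
  rw [conjGrp_congr (diaMat_mem (d * e)) (mul_mem (diaMat_mem e) (diaMat_mem d)) (by
    rw [diaMat_eleven, eleven_mul (diaMat_mem e), diaMat_eleven, diaMat_eleven, Units.val_mul, mul_comm])]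
  congr 2
  refine Subtype.ext ?_
  simp only [conjGrp]
  group

theorem latDia_eq_one' {d : (ZMod M)ˣ} (hd : c d = 1) : latDia M c O d = 1 := by
  refine LinearMap.ext fun v => lat_ext_apply fun γ => ?_
  have hg : diaMat d ∈ grp M c := ⟨diaMat_mem d, fun u hu => by
    rw [show u = d from Units.ext (hu.trans (diaMat_eleven d)), hd]⟩
  rw [latDia_apply, Module.End.one_apply,
    show conjGrp (diaMat_mem d) γ = ⟨diaMat d, hg⟩ * γ * (⟨diaMat d, hg⟩ : grp M c)⁻¹ from rfl,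
    ofMul_mul, ofMul_mul, ofMul_inv, map_add, map_add, map_neg]
  abel

theorem latT_commute' (ℓ ℓ' : GoodPrime M) : Commute (latT M c O ℓ) (latT M c O ℓ') := by
  by_cases hne : (ℓ : ℕ) = (ℓ' : ℕ)
  · rw [show ℓ = ℓ' from Subtype.ext (Subtype.ext hne)]
  refine LinearMap.ext fun v => Subtype.ext ?_
  exact transfer_comm_grp ℓ.1.2 ℓ.2 (isDiamond_diaMat_prime (ℓ.1.2.coprime_iff_not_dvd.2 ℓ.2)) ℓ'.1.2 ℓ'.2
    (isDiamond_diaMat_prime (ℓ'.1.2.coprime_iff_not_dvd.2 ℓ'.2)) hne _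

set_option maxHeartbeats 1000000 in
theorem transfer_diamond_comm (hℓ : ℓ.Prime) (hℓM : ¬ ℓ ∣ M) (hR : IsDiamond M ℓ R)
    {δ : SL(2, ℤ)} (hδ : δ ∈ Gamma0 M) (χ : Additive (grp M c) →+ A) :
    (isReps_grp (c := c) hℓ hℓM hR).transfer ((isReps_grp_diamond (c := c) hδ).transfer χ) =
      (isReps_grp_diamond (c := c) hδ).transfer ((isReps_grp (c := c) hℓ hℓM hR).transfer χ) := by
  classical
  set h := isReps_grp (c := c) hℓ hℓM hR
  set h0 := isReps_hecke0 hℓ hℓM hR
  set π := h0.perm ⟨δ, hδ⟩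
  refine AddMonoidHom.ext fun z => ?_
  obtain ⟨γ, rfl⟩ := Additive.ofMul.surjective z
  let u : Option (Fin ℓ) → grp M c := fun i => ⟨(h0.coef ⟨δ, hδ⟩ i : SL(2, ℤ)) * δ⁻¹, by
    refine mem_grp_of_eleven (mul_mem (h0.coef ⟨δ, hδ⟩ i).2 (inv_mem hδ)) (one_mem _) ?_
    rw [eleven_mul (h0.coef ⟨δ, hδ⟩ i).2, coef_eleven hℓ hℓM hR, ← eleven_mul hδ]
    simp⟩
  let j : Option (Fin ℓ) → Option (Fin ℓ) := fun i => π.symm (h.idx γ (π i))
  have key : ∀ i, h.coef (conjGrp hδ γ) i =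
      u i * conjGrp hδ (h.coef γ (π i)) * (u (j i))⁻¹ := by
    intro i
    refine (h.unique (j := j i) ?_).2
    have e0 : ∀ k, ((h0.coef ⟨δ, hδ⟩ k : SL(2, ℤ)) : IMat) * heckeRepG M ℓ R (π k) =
        heckeRepG M ℓ R k * (δ : IMat) := fun k => (h0.spec ⟨δ, hδ⟩ k).symm
    have e1 := e0 (j i)
    rw [show π (j i) = h.idx γ (π i) from π.apply_symm_apply _] at e1
    simp only [conjGrp, u, Subgroup.coe_mul, Subgroup.coe_inv, mul_inv_rev, inv_inv]
    simp only [Matrix.SpecialLinearGroup.coe_mul, ← mul_assoc]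
    rw [← e0 i, mul_assoc _ (heckeRepG M ℓ R (π i)), h.spec γ (π i)]
    have e2 : heckeRepG M ℓ R (h.idx γ (π i)) * ((δ⁻¹ : SL(2, ℤ)) : IMat) =
        (((h0.coef ⟨δ, hδ⟩ (j i) : SL(2, ℤ))⁻¹ : SL(2, ℤ)) : IMat) * heckeRepG M ℓ R (j i) := by
      have e3 := congrArg (fun X : IMat => (((h0.coef ⟨δ, hδ⟩ (j i) : SL(2, ℤ))⁻¹ : SL(2, ℤ)) : IMat) *
        X * ((δ⁻¹ : SL(2, ℤ)) : IMat)) e1
      simp only [← mul_assoc, ← Matrix.SpecialLinearGroup.coe_mul, inv_mul_cancel,
        Matrix.SpecialLinearGroup.coe_one, one_mul] at e3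
      rw [mul_assoc _ (δ : IMat), ← Matrix.SpecialLinearGroup.coe_mul, mul_inv_cancel,
        Matrix.SpecialLinearGroup.coe_one, mul_one] at e3
      exact e3
    have hcancel : ∀ X : IMat, X * ((δ⁻¹ : SL(2, ℤ)) : IMat) * (δ : IMat) = X := fun X => by
      rw [mul_assoc, ← Matrix.SpecialLinearGroup.coe_mul, inv_mul_cancel,
        Matrix.SpecialLinearGroup.coe_one, mul_one]
    simp only [hcancel]
    rw [mul_assoc _ _ (((δ⁻¹ : SL(2, ℤ))) : IMat), mul_assoc _ (heckeRepG M ℓ R _) _, e2]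
    simp only [mul_assoc]
  have hj : Function.Bijective j :=
    π.symm.bijective.comp ((h.perm γ).bijective.comp π.bijective)
  rw [transfer_grp_diamond hδ (h.transfer χ) γ, h.transfer_apply, h.transfer_apply]
  simp only [key, ofMul_mul, ofMul_inv, map_add, map_neg,
    Finset.sum_add_distrib, Finset.sum_neg_distrib]
  rw [hj.sum_comp (fun i => χ (Additive.ofMul (u i))),
    Equiv.sum_comp π (fun i => χ (Additive.ofMul (conjGrp hδ (h.coef γ i))))]
  abel_nf
  exact Finset.sum_congr rfl fun i _ => transfer_grp_diamond hδ χ _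

theorem latT_latDia' (ℓ : GoodPrime M) (d : (ZMod M)ˣ) :
    Commute (latT M c O ℓ) (latDia M c O d) :=
  LinearMap.ext fun _ => Subtype.ext (transfer_diamond_comm ℓ.1.2 ℓ.2
    (isDiamond_diaMat_prime (ℓ.1.2.coprime_iff_not_dvd.2 ℓ.2)) (diaMat_mem d) _)

end Fermat.Agent.Auto
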