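import Fermat.Agent.Auto.Lat
import Fermat.Agent.Auto.LatOps
import Fermat.Agent.DS.FrobConj
import Fermat.Agent.GalRep.Glue
import Fermat.Agent.GalRep.Level.Congr
import Fermat.Agent.GalRep.Model.Reduction

/-!
The Galois action on the lattice of `grp M c` and its twist with trivial determinant character.
-/

set_option autoImplicit false
set_option linter.unusedSectionVars false

noncomputable section

namespace Fermat.Agent.Auto

open CongruenceSubgroup IsLocalRing
open Fermat.Agent.Galois (GQ)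
open Fermat.Agent.GalRep (GoodPrime)
open Fermat.Agent.GalRep.Level (ParG galG cycM)
open Fermat.Agent.DS (parMap)
open scoped MatrixGroups

variable {M : ℕ} [NeZero M] {Δ : Type} [CommGroup Δ] {c : (ZMod M)ˣ →* Δ}
  {p : ℕ} [Fact p.Prime] {O : Type} [CommRing O] [IsDomain O] [IsDiscreteValuationRing O]
  [Algebra ℤ_[p] O] [Module.Finite ℤ_[p] O] [CharZero O]

theorem exists_generators_grp : ∃ s : Finset (grp M c), Subgroup.closure (s : Set (grp M c)) = ⊤ := by
  haveI : Group.FG SL(2, ℤ) :=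
    Group.fg_iff.mpr ⟨_, SpecialLinearGroup.SL2Z_generators, Set.toFinite _⟩
  haveI : (grp M c).FiniteIndex := finiteIndex_grp
  haveI : Group.FG (grp M c) := Subgroup.fg_of_index_ne_zero (grp M c)
  exact Group.fg_def.mp inferInstance

instance finite_lat : Module.Finite O (Lat M c O) := by
  obtain ⟨s, hs⟩ := exists_generators_grp (M := M) (c := c)
  let ev : Lat M c O →ₗ[O] (s → O) :=
    { toFun := fun χ g => (χ : Additive (grp M c) →+ O) (Additive.ofMul (g : grp M c))
      map_add' := fun _ _ => rfl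
      map_smul' := fun _ _ => rfl }
  refine Module.Finite.of_injective ev ((injective_iff_map_eq_zero ev).mpr fun χ hχ => ?_)
  refine lat_ext_apply fun γ => ?_
  have hγ : γ ∈ Subgroup.closure (s : Set (grp M c)) := hs ▸ Subgroup.mem_top γ
  induction hγ using Subgroup.closure_induction with
  | mem g hg => exact congrFun hχ ⟨g, hg⟩
  | one => rw [ofMul_one, map_zero]; rfl
  | mul a b _ _ ha hb => rw [ofMul_mul, map_add, map_add, ha, hb]
  | inv a _ ha => rw [ofMul_inv, map_neg, map_neg, ha]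

instance free_lat : Module.Free O (Lat M c O) :=
  haveI : Module.IsTorsionFree O (Lat M c O) :=
    Function.Injective.moduleIsTorsionFree
      (fun χ : Lat M c O => fun x => (χ : Additive (grp M c) →+ O) x)
      (fun _ _ h => Subtype.ext (DFunLike.coe_injective h)) (fun _ _ => rfl)
  Module.free_of_finite_type_torsion_free'

/-! ### Coefficients -/

theorem algebraMap_padic_injective : Function.Injective (algebraMap ℤ_[p] O) := by
  rw [injective_iff_map_eq_zero]
  intro x hx
  by_contra h0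
  rw [PadicInt.unitCoeff_spec h0, map_mul, map_pow, map_natCast] at hx
  exact mul_ne_zero ((PadicInt.unitCoeff h0).isUnit.map (algebraMap ℤ_[p] O)).ne_zero
    (pow_ne_zero _ (Nat.cast_ne_zero.mpr (Fact.out : p.Prime).ne_zero)) hx

theorem free_padic : Module.Free ℤ_[p] O :=
  haveI := Module.isTorsionFree_iff_algebraMap_injective.mpr (algebraMap_padic_injective (p := p) (O := O))
  Module.free_of_finite_type_torsion_free'

theorem map_smul_padic {k : ℕ} [NeZero (p ^ k)] (f : O →+ ZMod (p ^ k)) (z : ℤ_[p]) (y : O) :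
    f (z • y) = PadicInt.toZModPow k z * f y := by
  obtain ⟨z', hz⟩ : ∃ z', z - ((PadicInt.toZModPow k z).val : ℤ_[p]) = (p : ℤ_[p]) ^ k * z' := by
    rw [← dvd_def, ← Ideal.mem_span_singleton, ← PadicInt.ker_toZModPow, RingHom.mem_ker, map_sub,
      map_natCast, ZMod.natCast_zmod_val, sub_self]
  have e1 : ((PadicInt.toZModPow k z).val : ℤ_[p]) • y = (PadicInt.toZModPow k z).val • y :=
    Nat.cast_smul_eq_nsmul _ _ _
  have e2 : ((p : ℤ_[p]) ^ k * z') • y = (p ^ k) • (z' • y) := by
    rw [mul_smul, ← Nat.cast_pow, Nat.cast_smul_eq_nsmul]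
  rw [← sub_add_cancel z ((PadicInt.toZModPow k z).val : ℤ_[p]), hz, add_smul, e1, e2, map_add,
    map_nsmul, map_nsmul, nsmul_eq_mul, ZMod.natCast_self, zero_mul, zero_add, nsmul_eq_mul,
    ZMod.natCast_zmod_val, map_add, map_mul, map_pow, map_natCast, map_natCast,
    ← Nat.cast_pow, ZMod.natCast_self, zero_mul, zero_add, ZMod.natCast_zmod_val]

/-- An element killed by all maps to `ℤ/p^k` is divisible by `p^k`. -/
theorem dvd_of_forall_eq_zero (k : ℕ) (y : O) (h : ∀ f : O →+ ZMod (p ^ k), f y = 0) :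
    ∃ z : O, y = (p : O) ^ k * z := by
  haveI := free_padic (p := p) (O := O)
  let b := Module.Free.chooseBasis ℤ_[p] O
  have hd : ∀ i, ∃ z, b.repr y i = (p : ℤ_[p]) ^ k * z := fun i => by
    rw [← dvd_def, ← Ideal.mem_span_singleton, ← PadicInt.ker_toZModPow, RingHom.mem_ker]
    exact h ((PadicInt.toZModPow k).toAddMonoidHom.comp (b.coord i).toAddMonoidHom)
  choose z hz using hd
  refine ⟨∑ i, z i • b i, ?_⟩
  conv_lhs => rw [← b.sum_repr y]
  rw [Finset.mul_sum]
  refine Finset.sum_congr rfl fun i _ => ?_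
  rw [hz, mul_smul, Algebra.smul_def ((p : ℤ_[p]) ^ k), map_pow, map_natCast]

/-- Classes with equal images under all maps of coefficients are equal. -/
theorem eq_of_forall_parMap {v w : Lat M c O}
    (h : ∀ (k : ℕ) [NeZero (p ^ k)] (f : O →+ ZMod (p ^ k)),
      parMap (grp M c) f (toParG v) = parMap (grp M c) f (toParG w)) : v = w := by
  haveI := free_padic (p := p) (O := O)
  let b := Module.Free.chooseBasis ℤ_[p] O
  refine lat_ext_apply fun γ => b.ext_elem fun i => PadicInt.ext_of_toZModPow.mp fun k => ?_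
  haveI : NeZero (p ^ k) := ⟨pow_ne_zero _ (Fact.out : p.Prime).ne_zero⟩
  exact DFunLike.congr_fun (congrArg Subtype.val
    (h k ((PadicInt.toZModPow k).toAddMonoidHom.comp (b.coord i).toAddMonoidHom))) (Additive.ofMul γ)

theorem parMap_smul (r : O) (v : Lat M c O) {k : ℕ} (f : O →+ ZMod (p ^ k)) :
    parMap (grp M c) f (toParG (r • v)) =
      parMap (grp M c) (f.comp (AddMonoidHom.mulLeft r)) (toParG v) :=
  rfl

theorem parMap_add (v w : Lat M c O) {A : Type} [AddCommGroup A] (f : O →+ A) :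
    parMap (grp M c) f (toParG (v + w)) =
      parMap (grp M c) f (toParG v) + parMap (grp M c) f (toParG w) :=
  (congrArg _ (Subtype.ext rfl)).trans (map_add (parMap (grp M c) f) (toParG v) (toParG w))

theorem exists_padicG_limit (σ : GQ) (u : ParG (grp M c) ℤ_[p]) :
    ∃ w : ParG (grp M c) ℤ_[p], ∀ (k : ℕ) [NeZero (p ^ k)],
      parMap (grp M c) (PadicInt.toZModPow k).toAddMonoidHom w =
        galG (isLevel_grp (c := c)) (p ^ k) σ
          (parMap (grp M c) (PadicInt.toZModPow k).toAddMonoidHom u) := by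
  have hne : ∀ k, NeZero (p ^ k) := fun k => ⟨pow_ne_zero _ (Fact.out : p.Prime).ne_zero⟩
  let χ : ∀ k, ParG (grp M c) (ZMod (p ^ k)) := fun k =>
    haveI := hne k
    galG (isLevel_grp (c := c)) (p ^ k) σ (parMap (grp M c) (PadicInt.toZModPow k).toAddMonoidHom u)
  have hχ : ∀ m n (hmn : m ≤ n) x, ZMod.castHom (pow_dvd_pow p hmn) (ZMod (p ^ m))
      ((χ n : Additive (grp M c) →+ ZMod (p ^ n)) x) = (χ m : Additive (grp M c) →+ ZMod (p ^ m)) x := by
    intro m n hmn x
    haveI := hne m
    haveI := hne n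
    refine (DFunLike.congr_fun (GalRep.Level.galG_cast (pow_dvd_pow p hmn) (isLevel_grp (c := c)) σ
      (parMap (grp M c) (PadicInt.toZModPow n).toAddMonoidHom u)
      (parMap (grp M c) (PadicInt.toZModPow m).toAddMonoidHom u) ?_) x).symm
    refine AddMonoidHom.ext fun y => ?_
    exact (RingHom.congr_fun (PadicInt.zmod_cast_comp_toZModPow m n hmn) _).symm
  choose y hy using fun x => GalRep.exists_padic_of_compatible
    (fun k => (χ k : Additive (grp M c) →+ ZMod (p ^ k)) x) (fun m n hmn => hχ m n hmn x)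
  refine ⟨⟨AddMonoidHom.mk' y fun a b => PadicInt.ext_of_toZModPow.mp fun k => by
      rw [map_add, hy, hy, hy, map_add], fun γ hγ => PadicInt.ext_of_toZModPow.mp fun k => ?_⟩,
    fun k _ => Subtype.ext (AddMonoidHom.ext fun x => hy x k)⟩
  show PadicInt.toZModPow k (y (Additive.ofMul γ)) = _
  rw [hy, map_zero]
  exact (χ k).2 γ hγ

set_option maxHeartbeats 800000 in
theorem exists_galLat_apply (σ : GQ) (v : Lat M c O) : ∃ w : Lat M c O,
    ∀ (k : ℕ) [NeZero (p ^ k)] (f : O →+ ZMod (p ^ k)),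
      parMap (grp M c) f (toParG w) =
        galG (isLevel_grp (c := c)) (p ^ k) σ (parMap (grp M c) f (toParG v)) := by
  haveI := free_padic (p := p) (O := O)
  let b := Module.Free.chooseBasis ℤ_[p] O
  choose u hu using fun i =>
    exists_padicG_limit (p := p) σ (parMap (grp M c) (b.coord i).toAddMonoidHom (toParG v))
  have hmem : ∀ γ : grp M c, (((γ : SL(2, ℤ)) : Matrix (Fin 2) (Fin 2) ℤ)).trace ^ 2 = 4 →
      ∑ i, (u i : Additive (grp M c) →+ ℤ_[p]) (Additive.ofMul γ) • b i = 0 := fun γ hγ =>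
    Finset.sum_eq_zero fun i _ => by rw [(u i).2 γ hγ, zero_smul]
  refine ⟨⟨AddMonoidHom.mk' (fun x => ∑ i, (u i : Additive (grp M c) →+ ℤ_[p]) x • b i)
    (fun x y => by simp only [map_add, add_smul, Finset.sum_add_distrib]), hmem⟩, fun k _ f => ?_⟩
  have hv : parMap (grp M c) f (toParG v) = ∑ i, (f (b i)).val •
      parMap (grp M c) (PadicInt.toZModPow k).toAddMonoidHom
        (parMap (grp M c) (b.coord i).toAddMonoidHom (toParG v)) := by
    refine Subtype.ext (AddMonoidHom.ext fun x => ?_)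
    rw [AddSubmonoidClass.coe_finsetSum, AddMonoidHom.finsetSum_apply]
    show f ((v : Additive (grp M c) →+ O) x) = ∑ i, (f (b i)).val •
      PadicInt.toZModPow k (b.coord i ((v : Additive (grp M c) →+ O) x))
    conv_lhs => rw [← b.sum_repr ((v : Additive (grp M c) →+ O) x), map_sum]
    refine Finset.sum_congr rfl fun i _ => ?_
    rw [map_smul_padic, nsmul_eq_mul, ZMod.natCast_zmod_val, mul_comm]
    rfl
  rw [hv, map_sum]
  simp only [map_nsmul, ← hu]
  refine Subtype.ext (AddMonoidHom.ext fun x => ?_)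
  rw [AddSubmonoidClass.coe_finsetSum, AddMonoidHom.finsetSum_apply]
  show f (∑ i, (u i : Additive (grp M c) →+ ℤ_[p]) x • b i) = ∑ i, (f (b i)).val •
    PadicInt.toZModPow k ((u i : Additive (grp M c) →+ ℤ_[p]) x)
  rw [map_sum]
  refine Finset.sum_congr rfl fun i _ => ?_
  rw [map_smul_padic, nsmul_eq_mul, ZMod.natCast_zmod_val, mul_comm]

/-- The action reducing, along every map of coefficients, to the action on classes. -/
theorem exists_galLat : ∃ ρ : GQ →* Module.End O (Lat M c O),
    ∀ (k : ℕ) [NeZero (p ^ k)] (σ : GQ) (f : O →+ ZMod (p ^ k)) (v : Lat M c O),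
      parMap (grp M c) f (toParG (ρ σ v)) =
        galG (isLevel_grp (c := c)) (p ^ k) σ (parMap (grp M c) f (toParG v)) := by
  choose w hw using fun (σ : GQ) (v : Lat M c O) => exists_galLat_apply (p := p) σ v
  have hadd : ∀ σ u v, w σ (u + v) = w σ u + w σ v := fun σ u v =>
    eq_of_forall_parMap (p := p) fun k _ f => by rw [parMap_add, hw, hw, hw, parMap_add, map_add]
  have hsmul : ∀ σ (r : O) v, w σ (r • v) = r • w σ v := fun σ r v =>
    eq_of_forall_parMap (p := p) fun k _ f => by rw [parMap_smul, hw, hw, parMap_smul]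
  refine ⟨{ toFun := fun σ => { toFun := w σ, map_add' := hadd σ, map_smul' := hsmul σ }
            map_one' := LinearMap.ext fun v => eq_of_forall_parMap (p := p) fun k _ f => ?_
            map_mul' := fun σ τ => LinearMap.ext fun v => eq_of_forall_parMap (p := p) fun k _ f => ?_ },
    fun k _ σ f v => hw σ v k f⟩
  · refine (hw 1 v k f).trans ?_
    rw [map_one]; rfl
  · refine (hw (σ * τ) v k f).trans ?_
    refine Eq.trans ?_ (hw σ (w τ v) k f).symm
    rw [hw τ v k f, map_mul]; rfl

variable (M c p O) in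
/-- The Galois action on the lattice. -/
def galLat : GQ →* Module.End O (Lat M c O) := (exists_galLat (p := p)).choose

theorem galLat_spec (k : ℕ) [NeZero (p ^ k)] (σ : GQ) (f : O →+ ZMod (p ^ k)) (v : Lat M c O) :
    parMap (grp M c) f (toParG (galLat M c p O σ v)) =
      galG (isLevel_grp (c := c)) (p ^ k) σ (parMap (grp M c) f (toParG v)) :=
  (exists_galLat (p := p)).choose_spec k σ f v

theorem parMap_transferEnd {ι : Type} [Fintype ι] {β : ι → GalRep.IMat}
    (h : DS.IsReps (grp M c) β) (v : Lat M c O) {A : Type} [AddCommGroup A] (f : O →+ A) :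
    parMap (grp M c) f (toParG (transferEnd h v)) = h.parTransfer (parMap (grp M c) f (toParG v)) :=
  Subtype.ext (h.transfer_comp f (v : Additive (grp M c) →+ O)).symm

theorem parMap_latDia (d : (ZMod M)ˣ) (v : Lat M c O) {A : Type} [AddCommGroup A] (f : O →+ A) :
    parMap (grp M c) f (toParG (latDia M c O d v)) =
      (isReps_grp_diamond (c := c) (DS.diaMat_mem d)).parTransfer (parMap (grp M c) f (toParG v)) :=
  parMap_transferEnd _ v f

theorem parMap_latT (ℓ : GoodPrime M) (v : Lat M c O) {A : Type} [AddCommGroup A] (f : O →+ A) :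
    parMap (grp M c) f (toParG (latT M c O ℓ v)) =
      (isReps_grp (c := c) ℓ.1.2 ℓ.2
        (DS.isDiamond_diaMat_prime (ℓ.1.2.coprime_iff_not_dvd.2 ℓ.2))).parTransfer
        (parMap (grp M c) f (toParG v)) :=
  parMap_transferEnd _ v f

theorem galLat_latT (σ : GQ) (ℓ : GoodPrime M) :
    Commute (galLat M c p O σ) (latT M c O ℓ) := by
  refine LinearMap.ext fun v => eq_of_forall_parMap (p := p) fun k _ f => ?_
  haveI : NeZero (ℓ : ℕ) := ⟨ℓ.1.2.ne_zero⟩
  rw [Module.End.mul_apply, Module.End.mul_apply, galLat_spec, parMap_latT, parMap_latT, galLat_spec]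
  have hR := DS.isDiamond_diaMat_prime (M := M) (ℓ.1.2.coprime_iff_not_dvd.2 ℓ.2)
  exact Subtype.ext ((isReps_grp (c := c) ℓ.1.2 ℓ.2 hR).eq_transfer
    (GalRep.Level.galG_hecke (isLevel_grp (c := c)) (isLevel_grp (c := c)) hR σ
      ((isReps_grp (c := c) ℓ.1.2 ℓ.2 hR).isTransfer _)))

theorem galLat_latDia (σ : GQ) (d : (ZMod M)ˣ) :
    Commute (galLat M c p O σ) (latDia M c O d) := by
  refine LinearMap.ext fun v => eq_of_forall_parMap (p := p) fun k _ f => ?_
  rw [Module.End.mul_apply, Module.End.mul_apply, galLat_spec, parMap_latDia, parMap_latDia, galLat_spec]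
  exact Subtype.ext ((isReps_grp_diamond (c := c) (DS.diaMat_mem d)).eq_transfer
    (GalRep.Level.galG_pull (isLevel_grp (c := c)) (isLevel_grp (c := c)) σ
      (GalRep.Level.conjEq_diamond (DS.isDiamond_diaMat d) _)
      ((isReps_grp_diamond (c := c) (DS.diaMat_mem d)).isTransfer _)))

theorem latDia_mul (d e : (ZMod M)ˣ) :
    latDia M c O (d * e) = latDia M c O d * latDia M c O e :=
  latDia_mul' d e

theorem latDia_eq_one {d : (ZMod M)ˣ} (hd : c d = 1) : latDia M c O d = 1 :=
  latDia_eq_one' hd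

theorem latT_commute (ℓ ℓ' : GoodPrime M) : Commute (latT M c O ℓ) (latT M c O ℓ') :=
  latT_commute' ℓ ℓ'

theorem latT_latDia (ℓ : GoodPrime M) (d : (ZMod M)ˣ) :
    Commute (latT M c O ℓ) (latDia M c O d) :=
  latT_latDia' ℓ d

theorem nsmul_eq_zero_latG {D : ℕ} (hD : 0 < D) {u : Lat M c O}
    (h : ∀ (k : ℕ) [NeZero (p ^ k)] (f : O →+ ZMod (p ^ k)),
      D • parMap (grp M c) f (toParG u) = 0) : u = 0 := by
  have h1 : D • u = 0 := eq_of_forall_parMap (p := p) fun k _ f => by
    rw [show toParG (0 : Lat M c O) = 0 from rfl, map_zero,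
      show toParG (D • u) = D • toParG u from Subtype.ext rfl, map_nsmul, h k f]
  rw [← Nat.cast_smul_eq_nsmul O] at h1
  exact (smul_eq_zero.mp h1).resolve_left (Nat.cast_ne_zero.mpr hD.ne')

theorem kummerReductionG_grp : GalRep.Level.KummerReductionG M (grp M c) :=
  GalRep.Model.kummerReductionG M (grp M c) gamma_le_grp

theorem not_dvd_pow_of_ne {r : ℕ} (hr : r.Prime) (hrp : r ≠ p) (k : ℕ) : ¬ r ∣ p ^ k := fun h =>
  hrp ((Nat.prime_dvd_prime_iff_eq hr Fact.out).mp (hr.dvd_of_dvd_pow h))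

/-- The congruence relation. -/
theorem galLat_frobenius (ℓ : GoodPrime M) (hℓp : (ℓ : ℕ) ≠ p)
    (A : ValuationSubring (AlgebraicClosure ℚ)) (hA : A.LiesOverPrime (ℓ : ℕ)) (σ : GQ)
    (hσ : A.IsFrobeniusAt σ (ℓ : ℕ)) :
    galLat M c p O σ * galLat M c p O σ - latT M c O ℓ * galLat M c p O σ +
      ((ℓ : ℕ) : Module.End O (Lat M c O)) *
        latDia M c O (ZMod.unitOfCoprime _ (ℓ.1.2.coprime_iff_not_dvd.2 ℓ.2)) = 0 := by
  haveI : NeZero (ℓ : ℕ) := ⟨ℓ.1.2.ne_zero⟩
  obtain ⟨D, hD, h⟩ := GalRep.Level.galG_frobenius (isLevel_grp (c := c)) kummerReductionG_grp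
    ℓ.1.2 ℓ.2
  refine LinearMap.ext fun v => nsmul_eq_zero_latG (p := p) hD fun k _ f => ?_
  have hR := DS.isDiamond_diaMat_prime (M := M) (ℓ.1.2.coprime_iff_not_dvd.2 ℓ.2)
  have key := h (p ^ k) (not_dvd_pow_of_ne ℓ.1.2 hℓp k) A hA σ hσ _ hR
    (parMap (grp M c) f (toParG v))
    ((isReps_grp (c := c) ℓ.1.2 ℓ.2 hR).parTransfer
      (galG (isLevel_grp (c := c)) (p ^ k) σ (parMap (grp M c) f (toParG v))))
    ((isReps_grp_diamond (c := c) (DS.diaMat_mem _)).parTransfer (parMap (grp M c) f (toParG v)))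
    (DS.IsReps.isTransfer _ _) (DS.IsReps.isTransfer _ _)
  rw [← key]
  congr 1
  simp only [LinearMap.add_apply, LinearMap.sub_apply, Module.End.mul_apply, Module.End.natCast_apply]
  rw [parMap_add, sub_eq_add_neg, parMap_add, galLat_spec, galLat_spec]
  rw [show toParG (-(latT M c O ℓ (galLat M c p O σ v))) =
      -toParG (latT M c O ℓ (galLat M c p O σ v)) from Subtype.ext rfl, map_neg, parMap_latT,
    galLat_spec, ← sub_eq_add_neg, show ∀ (n : ℕ) (x : Lat M c O),
      toParG (n • x) = n • toParG x from fun n x => Subtype.ext rfl, map_nsmul, parMap_latDia]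

variable (M c p O) in
/-- The twisted action. -/
def galTw : GQ →* Module.End O (Lat M c O) where
  toFun σ := galLat M c p O σ * latDia M c O (cycM M σ ^ ((Nat.card Δ - 1) / 2))
  map_one' := by
    rw [map_one, one_mul, map_one, one_pow]
    exact latDia_eq_one (map_one c)
  map_mul' σ τ := by
    rw [map_mul, map_mul, mul_pow, latDia_mul, mul_assoc, ← mul_assoc (galLat M c p O τ),
      (galLat_latDia τ _).eq]
    simp only [mul_assoc]

theorem twist_identity {R : Type*} [Ring R] {G E U : R} (hEG : E * G = G * E)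
    (hUE : U * (E * E) = 1) (T : R) {n : R} :
    G * E * (G * E) - T * E * (G * E) + n = (G * G - T * G + n * U) * (E * E) := by
  rw [add_mul, sub_mul, mul_assoc n U (E * E), hUE, mul_one]
  simp only [mul_assoc]
  rw [← mul_assoc E G E, hEG, mul_assoc G E E]

/-- The congruence relation, with trivial determinant character. -/
theorem galTw_frobenius (hΔ : Odd (Nat.card Δ)) (ℓ : GoodPrime M) (hℓp : (ℓ : ℕ) ≠ p)
    (A : ValuationSubring (AlgebraicClosure ℚ)) (hA : A.LiesOverPrime (ℓ : ℕ)) (σ : GQ)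
    (hσ : A.IsFrobeniusAt σ (ℓ : ℕ)) :
    galTw M c p O σ * galTw M c p O σ - twT M c O ℓ * galTw M c p O σ +
      ((ℓ : ℕ) : Module.End O (Lat M c O)) = 0 := by
  set u := ZMod.unitOfCoprime _ (ℓ.1.2.coprime_iff_not_dvd.2 ℓ.2) with hu
  have hcyc : cycM M σ = u := Units.ext (by
    rw [DS.cycM_frobenius ℓ.1.2 hA ℓ.2 hσ, hu, ZMod.coe_unitOfCoprime])
  set e : ℕ := (Nat.card Δ - 1) / 2
  set G := galLat M c p O σ
  set E := latDia M c O (u ^ e)
  have hG : galTw M c p O σ = G * E := by
    show G * latDia M c O (cycM M σ ^ e) = G * E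
    rw [hcyc]
  have hT : twT M c O ℓ = latT M c O ℓ * E := rfl
  have hEG : E * G = G * E := (galLat_latDia σ _).eq.symm
  have hUE : latDia M c O u * (E * E) = 1 := by
    rw [← latDia_mul, ← latDia_mul]
    refine latDia_eq_one ?_
    obtain ⟨t, ht⟩ := hΔ
    have he : e = t := by simp only [e, ht]; omega
    rw [← pow_add, ← pow_succ', map_pow, show e + e + 1 = Nat.card Δ by omega, pow_card_eq_one']
  have h0 := galLat_frobenius (O := O) ℓ hℓp A hA σ hσ (c := c) (p := p)
  calc galTw M c p O σ * galTw M c p O σ - twT M c O ℓ * galTw M c p O σ +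
        ((ℓ : ℕ) : Module.End O (Lat M c O))
      = (G * G - latT M c O ℓ * G + ((ℓ : ℕ) : Module.End O (Lat M c O)) * latDia M c O u) *
          (E * E) := by
        rw [hG, hT]
        exact twist_identity (R := Module.End O (Lat M c O)) hEG hUE _
    _ = 0 := by rw [h0, zero_mul]

theorem galLat_unramified {r : ℕ} (hr : r.Prime) (hrM : ¬ r ∣ M) (hrp : r ≠ p)
    (A : ValuationSubring (AlgebraicClosure ℚ)) (hA : A.LiesOverPrime r) {σ : GQ}
    (hσ : σ ∈ A.inertiaSubgroupIn ℚ) : galLat M c p O σ = 1 := by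
  obtain ⟨D, hD, h⟩ := GalRep.Level.galG_inertia (isLevel_grp (c := c)) kummerReductionG_grp hr hrM
  refine LinearMap.ext fun v => sub_eq_zero.mp (nsmul_eq_zero_latG (p := p) hD fun k _ f => ?_)
  rw [Module.End.one_apply, sub_eq_add_neg, parMap_add,
    show toParG (-v) = -toParG v from Subtype.ext rfl, map_neg, galLat_spec, ← sub_eq_add_neg]
  exact h (p ^ k) (not_dvd_pow_of_ne hr hrp k) A hA σ hσ _

theorem galLat_continuous (k : ℕ) :
    ∃ F : IntermediateField ℚ (AlgebraicClosure ℚ), FiniteDimensional ℚ F ∧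
      ∀ σ : GQ, (∀ x ∈ F, σ x = x) → ∀ v : Lat M c O,
        galLat M c p O σ v - v ∈ (maximalIdeal O ^ k) • (⊤ : Submodule O (Lat M c O)) := by
  haveI : NeZero (p ^ k) := ⟨pow_ne_zero _ (Fact.out : p.Prime).ne_zero⟩
  obtain ⟨F, hF, hfix⟩ := GalRep.Level.galG_continuous (isLevel_grp (c := c)) (n := p ^ k)
  refine ⟨F, hF, fun σ hσ v => ?_⟩
  set u := galLat M c p O σ v - v
  have h0 : ∀ f : O →+ ZMod (p ^ k), parMap (grp M c) f (toParG u) = 0 := fun f => by
    rw [show toParG u = toParG (galLat M c p O σ v) - toParG v from Subtype.ext rfl, map_sub,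
      galLat_spec, hfix σ hσ, Module.End.one_apply, sub_self]
  have hd : ∀ x, ∃ z : O, (u : Additive (grp M c) →+ O) x = (p : O) ^ k * z := fun x =>
    dvd_of_forall_eq_zero (p := p) k _ fun f => DFunLike.congr_fun (congrArg Subtype.val (h0 f)) x
  choose z hz using hd
  have hp : (p : O) ^ k ≠ 0 := pow_ne_zero _ (Nat.cast_ne_zero.mpr (Fact.out : p.Prime).ne_zero)
  let w : Lat M c O := ⟨AddMonoidHom.mk' z fun a b => mul_left_cancel₀ hp
      (by rw [mul_add, ← hz, ← hz, ← hz, map_add]),
    fun γ hγ => mul_left_cancel₀ hp (by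
      show (p : O) ^ k * z (Additive.ofMul γ) = _
      rw [← hz, u.2 γ hγ, mul_zero])⟩
  rw [show u = (p : O) ^ k • w from Subtype.ext (AddMonoidHom.ext fun x => hz x)]
  refine Submodule.smul_mem_smul (Ideal.pow_mem_pow ?_ k) Submodule.mem_top
  haveI : Algebra.IsIntegral ℤ_[p] O := Algebra.IsIntegral.of_finite ℤ_[p] O
  haveI : FaithfulSMul ℤ_[p] O := (faithfulSMul_iff_algebraMap_injective _ _).mpr algebraMap_padic_injective
  rw [mem_maximalIdeal, mem_nonunits_iff, ← map_natCast (algebraMap ℤ_[p] O)]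
  exact fun h => PadicInt.p_nonunit (p := p) ((isUnit_map_iff (algebraMap ℤ_[p] O) _).mp h)

end Fermat.Agent.Auto
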