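import Fermat.Agent.Auto.Qnew
import Fermat.Agent.Auto.Descent.Invariant

/-!
The relation at a new prime for the norms to a level where that prime does not divide the
conductor.
-/

set_option autoImplicit false
set_option linter.unusedSectionVars false

noncomputable section

namespace Fermat.Agent.Auto

open CongruenceSubgroup IsLocalRing
open Fermat.Agent.Galois (GQ)
open scoped MatrixGroups

variable {p : ℕ} [Fact p.Prime] {O : Type} [CommRing O] [IsDomain O] [IsDiscreteValuationRing O]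
  [IsAdicComplete (maximalIdeal O) O] [Finite (ResidueField O)]
  [Algebra ℤ_[p] O] [Module.Finite ℤ_[p] O] [CharZero O]
  {M : ℕ} [NeZero M] {S : Finset ℕ} {a : ℕ → O}

variable {Δ Δ' : Type} [CommGroup Δ] [Fintype Δ] [CommGroup Δ'] [Fintype Δ'] [DecidableEq Δ']
  {c : (ZMod M)ˣ →* Δ}

/-- The relation of `qnew_relation` for norms from a level with nebentypus at `q`. -/
theorem qnew_norm (hp5 : 5 ≤ p) (hp : (p : O) ∈ maximalIdeal O) (hΔ : IsPGroup p Δ)
    (hc : Function.Surjective c) (π : Δ →* Δ') (hπ : Function.Surjective π) {D : ℕ} (hD : D ∣ M)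
    (hsq : Squarefree D)
    (hcD : ∀ u : (ZMod M)ˣ, ((u : ZMod M).val : ZMod D) = 1 → π (c u) = 1)
    (hpS : p ∈ S) (hMS : ∀ l : ℕ, l.Prime → l ∣ M → l ∈ S) (hne : NonEis S a)
    (ρbar : ResidualGaloisRep (ResidueField O)) (habs : ρbar.IsAbsolutelyIrreducible)
    (hfrob : ∀ l : ℕ, l.Prime → l ∉ S → ∀ A : ValuationSubring (AlgebraicClosure ℚ),
      A.LiesOverPrime l → ∀ σ : GQ, A.IsFrobeniusAt σ l →
        LinearMap.charpoly (ρbar.ρ σ) = Polynomial.X ^ 2 -
          Polynomial.C (residue O (a l)) * Polynomial.X + Polynomial.C ((l : ResidueField O)))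
    {q : ℕ} (hq : q.Prime) (hqp : q ≠ p) (hqM : q ∣ M) (hq2 : ¬ q ^ 2 ∣ M) (hqD : ¬ q ∣ D)
    (hq1 : q ≡ 1 [MOD p])
    [NeZero (M / q)] (hbot : latLoc (M / q) (1 : (ZMod (M / q))ˣ →* Unit) O S a = ⊥)
    (A : ValuationSubring (AlgebraicClosure ℚ)) (hA : A.LiesOverPrime q) (σ : GQ)
    (hσ : A.IsFrobeniusAt σ q) {x : Lat M c O} (hx : x ∈ latLoc M c O S a) :
    relOp q (galTw M c p O σ)
      (∑ u ∈ Finset.univ.filter (fun u => π u = 1), latDelta M c O hc u x) = 0 := by
  obtain ⟨y, hy, hN⟩ := exists_latRes_eq_norm hp5 hp hMS hne hc π hx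
  rw [← hN]
  have hcard : ∃ r, (Nat.card Δ - 1) / 2 = (Nat.card Δ' - 1) / 2 + Nat.card Δ' * r := by
    obtain ⟨k, hk⟩ := hΔ.exists_card_eq
    have hodd : Odd (Nat.card Δ) := by
      rw [hk]
      exact ((Fact.out : p.Prime).odd_of_ne_two (by omega)).pow
    obtain ⟨m, hm⟩ := Subgroup.card_dvd_of_surjective π hπ
    obtain ⟨h1, ⟨r, hr⟩⟩ := Nat.odd_mul.mp (hm ▸ hodd)
    obtain ⟨s, hs⟩ := h1
    refine ⟨r, ?_⟩
    rw [hm, hs, hr]
    rw [show (2 * s + 1) * (2 * r + 1) - 1 = 2 * (s + (2 * s + 1) * r) by ring_nf; omega]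
    omega
  obtain ⟨r, hr⟩ := hcard
  have hF : ∀ v, galTw M c p O σ (latRes (grp_le_comp π) v) =
      latRes (grp_le_comp π) (galTw M (π.comp c) p O σ v) := fun v => by
    show galLat M c p O σ (latDia M c O _ (latRes (grp_le_comp π) v)) =
      latRes (grp_le_comp π) (galLat M (π.comp c) p O σ (latDia M (π.comp c) O _ v))
    rw [← latRes_latDia, ← latRes_galLat, hr, pow_add, latDia_mul,
      latDia_eq_one (c := π.comp c) (d := _ ^ (Nat.card Δ' * r)), mul_one]
    rw [map_pow, pow_mul, pow_card_eq_one', one_pow]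
  have hrel : ∀ v, relOp q (galTw M c p O σ) (latRes (grp_le_comp π) v) =
      latRes (grp_le_comp π) (relOp q (galTw M (π.comp c) p O σ) v) := fun v => by
    simp only [relOp, sq, LinearMap.sub_apply, Module.End.mul_apply, LinearMap.add_apply,
      Module.End.natCast_apply, map_sub, map_add, map_nsmul, hF]
  rw [hrel, qnew_relation hp5 hp (hΔ.of_surjective π hπ) (hπ.comp hc) hD hsq hcD hpS hMS hne ρbar habs
    hfrob hq hqp
    hqM hq2 hqD hq1 hbot A hA σ hσ hy, map_zero]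

end Fermat.Agent.Auto
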