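import Fermat.Agent.DS.Ops
import Fermat.Agent.GalRep.Level.Galois
import Fermat.Agent.GalRep.Level.SL2

/-!
The congruence subgroups cut out of `Γ₀(M)` by a character of the lower right entry, their Hecke
operators and their diamond operators.
-/

set_option autoImplicit false
set_option linter.unusedSectionVars false

noncomputable section

namespace Fermat.Agent.Auto

open CongruenceSubgroup
open Fermat.Agent.GalRep (IMat)
open Fermat.Agent.GalRep.Level (ParG IsLevel IsDiamond heckeRepG ConjEq conjEq_iff)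
open Fermat.Agent.DS (IsReps eleven_mul diaMat diaMat_mem diaMat_eleven)
open scoped MatrixGroups

variable {M : ℕ} {Δ : Type} [CommGroup Δ]

/-- The unit given by the lower right entry of an element of `Γ₀(M)`. -/
def elevenUnit {γ : SL(2, ℤ)} (hγ : γ ∈ Gamma0 M) : (ZMod M)ˣ where
  val := (γ 1 1 : ℤ)
  inv := ((γ⁻¹ : SL(2, ℤ)) 1 1 : ℤ)
  val_inv := by rw [← eleven_mul hγ]; simp
  inv_val := by rw [← eleven_mul (inv_mem hγ)]; simp

@[simp] theorem coe_elevenUnit {γ : SL(2, ℤ)} (hγ : γ ∈ Gamma0 M) :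
    ((elevenUnit hγ : (ZMod M)ˣ) : ZMod M) = ((γ 1 1 : ℤ) : ZMod M) := rfl

theorem elevenUnit_mul {γ δ : SL(2, ℤ)} (hγ : γ ∈ Gamma0 M) (hδ : δ ∈ Gamma0 M) :
    elevenUnit (mul_mem hγ hδ) = elevenUnit hγ * elevenUnit hδ :=
  Units.ext (by rw [coe_elevenUnit, eleven_mul hγ]; rfl)

variable (M) in
/-- `γ ∈ Γ₀(M)` with lower right entry killed by `c`. -/
def grp (c : (ZMod M)ˣ →* Δ) : Subgroup SL(2, ℤ) where
  carrier := {γ | γ ∈ Gamma0 M ∧ ∀ u : (ZMod M)ˣ, (u : ZMod M) = (γ 1 1 : ℤ) → c u = 1}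
  one_mem' := ⟨one_mem _, fun u hu => by
    rw [show u = 1 from Units.ext (by rw [hu]; simp), map_one]⟩
  mul_mem' := by
    rintro a b ⟨ha, ha'⟩ ⟨hb, hb'⟩
    refine ⟨mul_mem ha hb, fun u hu => ?_⟩
    rw [show u = elevenUnit ha * elevenUnit hb from Units.ext (by
      rw [hu, ← elevenUnit_mul ha hb]; rfl), map_mul, ha' _ rfl, hb' _ rfl, one_mul]
  inv_mem' := by
    rintro a ⟨ha, ha'⟩
    refine ⟨inv_mem ha, fun u hu => ?_⟩
    rw [show u = (elevenUnit ha)⁻¹ from Units.ext hu, map_inv, ha' _ rfl, inv_one]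

variable {c : (ZMod M)ˣ →* Δ}

theorem mem_grp {γ : SL(2, ℤ)} :
    γ ∈ grp M c ↔ γ ∈ Gamma0 M ∧ ∀ u : (ZMod M)ˣ, (u : ZMod M) = (γ 1 1 : ℤ) → c u = 1 :=
  Iff.rfl

theorem grp_le_gamma0 : grp M c ≤ Gamma0 M := fun _ h => h.1

theorem mem_grp_of_eleven {g γ : SL(2, ℤ)} (hg : g ∈ Gamma0 M) (hγ : γ ∈ grp M c)
    (h : ((g 1 1 : ℤ) : ZMod M) = (γ 1 1 : ℤ)) : g ∈ grp M c :=
  ⟨hg, fun u hu => hγ.2 u (hu.trans h)⟩

theorem gamma1_le_grp : Gamma1 M ≤ grp M c := fun γ hγ =>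
  ⟨DS.gamma1_le_gamma0 M hγ, fun u hu => by
    rw [show u = 1 from Units.ext (by rw [hu, ((Gamma1_mem M γ).1 hγ).2.1]; rfl), map_one]⟩

theorem gamma_le_grp : Gamma M ≤ grp M c := fun γ hγ => by
  obtain ⟨h00, -, h10, h11⟩ := Gamma_mem.mp hγ
  exact gamma1_le_grp ((Gamma1_mem M γ).2 ⟨h00, h11, h10⟩)

theorem isLevel_grp : IsLevel M (grp M c) where
  gamma_le := gamma_le_grp
  conj_mem a g g' h hg := by
    obtain ⟨-, -, h10, h11⟩ := conjEq_iff.mp h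
    refine mem_grp_of_eleven (Gamma0_mem.mpr ?_) hg h11
    rw [h10, Gamma0_mem.mp hg.1, mul_zero]

theorem finiteIndex_grp [NeZero M] : (grp M c).FiniteIndex :=
  Subgroup.finiteIndex_of_le (gamma_le_grp (c := c))

variable {ℓ : ℕ} {R : SL(2, ℤ)}

theorem isReps_grp (hℓ : ℓ.Prime) (hℓM : ¬ ℓ ∣ M) (hR : IsDiamond M ℓ R) :
    IsReps (grp M c) (heckeRepG M ℓ R) := by
  refine ⟨fun i => ?_, fun γ i => ?_, fun i j g hij => DS.heckeRepG_sep hℓ hℓM hR g hij⟩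
  · rw [GalRep.Level.det_heckeRepG]; exact_mod_cast hℓ.ne_zero
  · obtain ⟨j, g, h0, h1, h⟩ := DS.exists_step_hecke hℓ hℓM hR (grp_le_gamma0 γ.2) i
    exact ⟨j, ⟨g, mem_grp_of_eleven h0 γ.2 h1⟩, h⟩

theorem conj_mem_grp {δ γ : SL(2, ℤ)} (hδ : δ ∈ Gamma0 M) (hγ : γ ∈ grp M c) :
    δ * γ * δ⁻¹ ∈ grp M c := by
  refine mem_grp_of_eleven (mul_mem (mul_mem hδ hγ.1) (inv_mem hδ)) hγ ?_
  have h1 : (((δ * δ⁻¹) 1 1 : ℤ) : ZMod M) = 1 := by simp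
  rw [eleven_mul hδ] at h1
  rw [eleven_mul (mul_mem hδ hγ.1), eleven_mul hδ, mul_right_comm, h1, one_mul]

theorem isReps_grp_diamond {δ : SL(2, ℤ)} (hδ : δ ∈ Gamma0 M) :
    IsReps (grp M c) (fun _ : Unit => (δ : IMat)) where
  det_ne_zero _ := by rw [Matrix.SpecialLinearGroup.det_coe]; exact one_ne_zero
  step γ _ := ⟨(), ⟨δ * γ * δ⁻¹, conj_mem_grp hδ γ.2⟩, by
    rw [← Matrix.SpecialLinearGroup.coe_mul, ← Matrix.SpecialLinearGroup.coe_mul]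
    simp [mul_assoc]⟩
  sep i j _ _ := rfl

end Fermat.Agent.Auto
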