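import Fermat.Agent.Auto.Inertia.Assemble
import Fermat.Agent.Auto.Inertia.Fixed
import Fermat.Agent.NewVec.Conclude

/-!
Inertia at a prime exactly dividing the level, with nebentypus.
-/

set_option autoImplicit false
set_option linter.style.haveILetI false
set_option linter.unusedSectionVars false

noncomputable section

namespace Fermat.Agent.Auto

open CongruenceSubgroup IsLocalRing
open Fermat.Agent.Galois (GQ)
open Fermat.Agent.GalRep (cyc cyc_inertia)
open Fermat.Agent.GalRep.Level (cycM)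
open scoped MatrixGroups

/-- The identity `d² (s - 1) (s - D) = (s d) (s d + s' d' - d - d')`. -/
theorem quadratic_identity {R : Type*} [Ring R] {s s' d d' D : R} (hsd : Commute s d)
    (hS : s * d * (s' * d') = 1) (hdd : d * d' = 1) (hdD : d * d * D = 1) :
    d * d * ((s - 1) * (s - D)) = s * d * (s * d + s' * d' - d - d') := by
  have hc : Commute (d * d) s := (hsd.symm.mul_left hsd.symm)
  have e1 : d * d * (s * s) = s * d * (s * d) := by
    simp only [mul_assoc]
    rw [← mul_assoc d s d, hsd.symm.eq, mul_assoc s d d, ← mul_assoc d s s, hsd.symm.eq,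
      mul_assoc s d s, hsd.symm.eq, ← mul_assoc d s (s * d), hsd.symm.eq, mul_assoc s d (s * d),
      ← mul_assoc d s d, hsd.symm.eq, mul_assoc s d d]
  have e2 : d * d * (s * D) = s := by rw [← mul_assoc, hc.eq, mul_assoc, hdD, mul_one]
  have e3 : d * d * s = s * (d * d) := hc.eq
  rw [sub_mul, mul_sub, one_mul, mul_sub, mul_sub, mul_sub, e1, e2, e3, hdD, mul_sub, mul_sub,
    mul_add, hS, mul_assoc s d d', hdd, mul_one, mul_assoc s d d]
  abel

theorem quadratic_identity_end {R L : Type*} [CommRing R] [AddCommGroup L] [Module R L]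
    (s s' d d' D : Module.End R L) (hsd : Commute s d)
    (hS : s * d * (s' * d') = 1) (hdd : d * d' = 1) (hdD : d * d * D = 1) :
    d * d * ((s - 1) * (s - D)) = s * d * (s * d + s' * d' - d - d') :=
  quadratic_identity hsd hS hdd hdD

theorem sub_sub_mem_subalgebra {R L : Type*} [CommRing R] [AddCommGroup L] [Module R L]
    (E : Subalgebra R (Module.End R L)) {x y z : Module.End R L} (hx : x ∈ E) (hy : y ∈ E)
    (hz : z ∈ E) : x - y - z ∈ E :=
  sub_mem (sub_mem hx hy) hz

variable {M : ℕ} [NeZero M] {Δ : Type} [CommGroup Δ] [Finite Δ] {c : (ZMod M)ˣ →* Δ}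
  {p : ℕ} [Fact p.Prime] {O : Type} [CommRing O] [IsDomain O] [IsDiscreteValuationRing O]
  [IsAdicComplete (maximalIdeal O) O] [Finite (ResidueField O)]
  [Algebra ℤ_[p] O] [Module.Finite ℤ_[p] O] [CharZero O]
  {S : Finset ℕ} {a : ℕ → O}

theorem latDia_pow (d : (ZMod M)ˣ) : ∀ n : ℕ, latDia M c O (d ^ n) = latDia M c O d ^ n
  | 0 => by rw [pow_zero, pow_zero]; exact latDia_one
  | n + 1 => by rw [pow_succ, pow_succ, latDia_mul, latDia_pow d n]

theorem twAlg_mem_latLoc {e : Module.End O (Lat M c O)} (he : e ∈ twAlg M c O) :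
    ∀ x ∈ latLoc M c O S a, e x ∈ latLoc M c O S a := by
  induction he using Algebra.adjoin_induction with
  | mem z hz =>
    rcases hz with ⟨ℓ, rfl⟩ | ⟨d, rfl⟩
    · exact fun x hx => latT_mem_latLoc ℓ (latDia_mem_latLoc _ hx)
    · exact fun x hx => latDia_mem_latLoc d hx
  | algebraMap r => exact fun x hx => Submodule.smul_mem _ r hx
  | add y z _ _ hy hz => exact fun x hx => add_mem (hy x hx) (hz x hx)
  | mul y z _ _ hy hz => exact fun x hx => hy _ (hz x hx)

theorem isUnit_natCast_succ {r : ℕ} (hp5 : 5 ≤ p) (hr1 : r ≡ 1 [MOD p]) :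
    IsUnit ((r + 1 : ℕ) : O) := by
  have hp : p.Prime := Fact.out
  refine notMem_maximalIdeal.mp fun hmem => ?_
  have hcop : Nat.Coprime p (r + 1) := by
    refine hp.coprime_iff_not_dvd.mpr fun hd => ?_
    have h2 : (r + 1) % p = 2 % p := hr1.add_right 1
    have := Nat.le_of_dvd two_pos
      (Nat.dvd_of_mod_eq_zero (h2.symm.trans (Nat.mod_eq_zero_of_dvd hd)))
    omega
  obtain ⟨i, j, hij⟩ := Nat.isCoprime_iff_coprime.mpr hcop
  have h1 := congrArg (Int.cast : ℤ → O) hij
  push_cast at h1 hmem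
  exact (maximalIdeal.isMaximal O).ne_top ((Ideal.eq_top_iff_one _).mpr (h1 ▸
    add_mem (Ideal.mul_mem_left _ _ (natCast_p_mem p O)) (Ideal.mul_mem_left _ _ hmem)))

variable (M c p O) in
/-- The diamond part of the twisted action. -/
def twDia : GQ →* Module.End O (Lat M c O) where
  toFun g := latDia M c O (cycM M g ^ ((Nat.card Δ - 1) / 2))
  map_one' := by rw [map_one, one_pow]; exact latDia_one
  map_mul' g g' := by rw [map_mul, mul_pow, latDia_mul]

theorem twDia_apply (g : GQ) :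
    twDia M c O g = latDia M c O (cycM M g ^ ((Nat.card Δ - 1) / 2)) := rfl

theorem galTw_eq (g : GQ) : galTw M c p O g = galLat M c p O g * twDia M c O g := rfl

variable (M c p O) in
/-- The operator `t(σ) - d - d⁻¹`. -/
def inerOp (σ : GQ) : Module.End O (Lat M c O) :=
  twTr M c p O σ - twDia M c O σ - twDia M c O σ⁻¹

theorem inerOp_mem (hodd : Odd (Nat.card Δ)) (σ : GQ) : inerOp M c p O σ ∈ twAlg M c O :=
  sub_sub_mem_subalgebra (twAlg M c O) (x := twTr M c p O σ) (y := twDia M c O σ) (z := twDia M c O σ⁻¹)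
    (twTr_mem hodd σ) (latDia_mem _) (latDia_mem _)

/-- `(s - 1) (s - D)` is `t - d - d⁻¹` up to invertible factors. -/
theorem quadratic_eq_inerOp (hodd : Odd (Nat.card Δ)) {σ : GQ} (hcyc : cyc p σ = 1) :
    twDia M c O σ * twDia M c O σ *
        ((galLat M c p O σ - 1) * (galLat M c p O σ - latDia M c O (cycM M σ))) =
      galTw M c p O σ * inerOp M c p O σ := by
  have hdd : twDia M c O σ * twDia M c O σ⁻¹ = 1 := by rw [← map_mul, mul_inv_cancel, map_one]
  have hdD : twDia M c O σ * twDia M c O σ * latDia M c O (cycM M σ) = 1 := by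
    rw [twDia_apply, ← latDia_mul, ← latDia_mul]
    refine latDia_eq_one ?_
    obtain ⟨j, hj⟩ := hodd
    rw [← pow_add, ← pow_succ, map_pow,
      show (Nat.card Δ - 1) / 2 + (Nat.card Δ - 1) / 2 + 1 = Nat.card Δ by omega]
    exact pow_card_eq_one'
  have ht : twTr M c p O σ = galLat M c p O σ * twDia M c O σ +
      galLat M c p O σ⁻¹ * twDia M c O σ⁻¹ := by
    rw [twTr, hcyc, Units.val_one, map_one, map_one, one_mul, galTw_eq, galTw_eq]
  rw [inerOp, galTw_eq, ht]
  exact quadratic_identity_end (galLat M c p O σ) (galLat M c p O σ⁻¹) (twDia M c O σ) (twDia M c O σ⁻¹)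
    (latDia M c O (cycM M σ)) (galLat_latDia σ _) (galTw_mul_inv σ) hdd hdD

/-- The operator is invariant data for the quadratic relation. -/
theorem twTr_conj_inertia (hodd : Odd (Nat.card Δ)) (f : GQ) {g : GQ} (hg : cyc p g = 1) :
    galLat M c p O (f * g * f⁻¹) * twDia M c O (f * g * f⁻¹) +
        galLat M c p O (f * g * f⁻¹)⁻¹ * twDia M c O (f * g * f⁻¹)⁻¹ =
      galLat M c p O g * twDia M c O g + galLat M c p O g⁻¹ * twDia M c O g⁻¹ := by
  have h1 := twTr_conj (M := M) (c := c) (p := p) (O := O) hodd f g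
  rw [twTr, hg, Units.val_one, map_one, map_one, one_mul, one_mul] at h1
  exact h1

theorem twDia_pow_card (g : GQ) : twDia M c O g ^ Nat.card Δ = 1 := by
  rw [twDia_apply, ← latDia_pow]
  exact latDia_eq_one (by rw [map_pow]; exact pow_card_eq_one')

section Level

variable {r m : ℕ} [NeZero r] [NeZero m] [Fact (Nat.Coprime r m)] {c : (ZMod (r * m))ˣ →* Δ}

theorem twDia_pow_eq (hr : r.Prime) (hrm : ¬ r ∣ m) {A : ValuationSubring (AlgebraicClosure ℚ)}
    (hA : A.LiesOverPrime r) {g : GQ} (hg : g ∈ A.inertiaSubgroupIn ℚ) :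
    twDia (r * m) c O (g ^ r) = twDia (r * m) c O g := by
  haveI : Fact r.Prime := ⟨hr⟩
  rw [twDia_apply, twDia_apply, map_pow (cycM (r * m)), cycM_inertia_crtU hr hA hrm hg,
    ← map_pow (crtU m) _ r,
    show cycM r g ^ r = cycM r g from Units.ext (by rw [Units.val_pow_eq_pow_val, ZMod.pow_card])]

theorem inerOp_fixed (hr : r.Prime) (hrp : r ≠ p) (hrm : ¬ r ∣ m) (hodd : Odd (Nat.card Δ))
    (hne : NonEis S a) {A : ValuationSubring (AlgebraicClosure ℚ)} (hA : A.LiesOverPrime r) {σ : GQ}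
    (hσ : σ ∈ A.inertiaSubgroupIn ℚ) {y : Lat (r * m) c O} (hy : y ∈ latLoc (r * m) c O S a)
    (hfix : ∀ g ∈ A.inertiaSubgroupIn ℚ, cycM r g = 1 → galLat (r * m) c p O g y = y) :
    inerOp (r * m) c p O σ y = 0 := by
  have h0 : (galLat (r * m) c p O σ - 1)
      ((galLat (r * m) c p O σ - latDia (r * m) c O (cycM (r * m) σ)) y) = 0 :=
    apply_eq_zero_of_fixIner hr hA hrp hrm hne hy hfix hσ
  have h1 := LinearMap.congr_fun
    (quadratic_eq_inerOp (c := c) (O := O) hodd (cyc_inertia p hr hrp hA hσ)) y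
  rw [Module.End.mul_apply, Module.End.mul_apply, Module.End.mul_apply, h0, map_zero, map_zero] at h1
  have h2 : (galTw (r * m) c p O σ⁻¹ * galTw (r * m) c p O σ) (inerOp (r * m) c p O σ y) = 0 := by
    rw [Module.End.mul_apply, ← Module.End.mul_apply (galTw (r * m) c p O σ), ← h1, map_zero]
  rwa [← map_mul, inv_mul_cancel, map_one, Module.End.one_apply] at h2

set_option maxHeartbeats 1000000 in
theorem inerOp_apply_eq_zero (hp5 : 5 ≤ p) (hr : r.Prime) (hrp : r ≠ p) (hrm : ¬ r ∣ m)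
    (hr1 : r ≡ 1 [MOD p]) {t : ℕ} (hcard : Nat.card Δ = p ^ t) (hne : NonEis S a)
    (hred : ∀ z ∈ twAlg (r * m) c O, z * z = 0 → z = 0)
    {A : ValuationSubring (AlgebraicClosure ℚ)} (hA : A.LiesOverPrime r)
    (hres : ∀ σ ∈ A.inertiaSubgroupIn ℚ, ∀ x ∈ latLoc (r * m) c O S a, ∃ j : ℕ,
      ((galLat (r * m) c p O σ - 1) ^ j) x ∈ maximalIdeal O • (⊤ : Submodule O (Lat (r * m) c O)))
    {σ : GQ} (hσ : σ ∈ A.inertiaSubgroupIn ℚ) {x : Lat (r * m) c O}
    (hx : x ∈ latLoc (r * m) c O S a) : inerOp (r * m) c p O σ x = 0 := by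
  have hp : p.Prime := Fact.out
  have hodd : Odd (Nat.card Δ) := by rw [hcard]; exact (hp.odd_of_ne_two (by omega)).pow
  exact Core.apply_eq_zero (L := Lat (r * m) c O) (p := p) (r := r) (a := t) hp (natCast_p_mem p O)
    (fun z hz => by
      rw [← two_mul] at hz
      exact (mul_eq_zero.mp hz).resolve_left two_ne_zero)
    hr hrp hA (isUnit_natCast_succ hp5 hr1) (galLat (r * m) c p O) (twDia (r * m) c O)
    (fun g _ => galLat_latDia g _) (fun _ _ => latDia_commute_dia _ _)
    (fun g => by rw [← hcard]; exact twDia_pow_card g) (fun g hg => twDia_pow_eq hr hrm hA hg)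
    (fun f g hg => twTr_conj_inertia hodd f (cyc_inertia p hr hrp hA hg))
    (latLoc (r * m) c O S a) (fun g _ => galLat_mem_latLoc g) (fun g _ => latDia_mem_latLoc _)
    (fun k y => mem_smul_top_locPart) (fun k => galLat_continuous k) hres (twAlg (r * m) c O) hred
    (inerOp (r * m) c p O σ) (inerOp_mem hodd σ) (fun g => commute_galLat (inerOp_mem hodd σ) g)
    (twAlg_mem_latLoc (inerOp_mem hodd σ)) (fun y hy => inerOp_fixed hr hrp hrm hodd hne hA hσ hy) hx

end Level

set_option maxHeartbeats 1000000 in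
/-- On a part where inertia is residually unipotent, `(σ - 1) (σ - ⟨cyc σ⟩) = 0`. -/
theorem galLat_inertia (hp5 : 5 ≤ p) (hΔ : IsPGroup p Δ) (hc : Function.Surjective c)
    (hpS : p ∈ S) (hMS : ∀ r : ℕ, r.Prime → r ∣ M → r ∈ S) (hne : NonEis S a)
    {r : ℕ} (hr : r.Prime) (hrp : r ≠ p) (hrM : r ∣ M) (hr2 : ¬ r ^ 2 ∣ M)
    (hr1 : r ≡ 1 [MOD p])
    (hred : ∀ z ∈ Algebra.adjoin O (Set.range (twT M c O) ∪ Set.range (latDia M c O)),
      z * z = 0 → z = 0)
    (A : ValuationSubring (AlgebraicClosure ℚ)) (hA : A.LiesOverPrime r)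
    (hres : ∀ σ ∈ A.inertiaSubgroupIn ℚ, ∀ x ∈ latLoc M c O S a, ∃ j : ℕ,
      ((galLat M c p O σ - 1) ^ j) x ∈ maximalIdeal O • (⊤ : Submodule O (Lat M c O)))
    {σ : GQ} (hσ : σ ∈ A.inertiaSubgroupIn ℚ) {x : Lat M c O} (hx : x ∈ latLoc M c O S a) :
    (galLat M c p O σ - 1) ((galLat M c p O σ - latDia M c O (cycM M σ)) x) = 0 := by
  obtain ⟨m, rfl⟩ := hrM
  have hrm : ¬ r ∣ m := fun h => hr2 (by rw [sq]; exact Nat.mul_dvd_mul_left r h)
  haveI : NeZero r := ⟨hr.ne_zero⟩
  haveI : NeZero m := ⟨fun h => NeZero.ne (r * m) (by rw [h, mul_zero])⟩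
  haveI : Fact (Nat.Coprime r m) := ⟨hr.coprime_iff_not_dvd.mpr hrm⟩
  have hp : p.Prime := Fact.out
  obtain ⟨t, hcard⟩ := IsPGroup.iff_card.mp hΔ
  have hodd : Odd (Nat.card Δ) := by rw [hcard]; exact (hp.odd_of_ne_two (by omega)).pow
  have he := inerOp_apply_eq_zero hp5 hr hrp hrm hr1 hcard hne hred hA hres hσ hx
  have h1 := LinearMap.congr_fun
    (quadratic_eq_inerOp (M := r * m) (c := c) (O := O) hodd (cyc_inertia p hr hrp hA hσ)) x
  rw [Module.End.mul_apply, Module.End.mul_apply (galTw (r * m) c p O σ), he, map_zero] at h1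
  have h2 : (twDia (r * m) c O σ⁻¹ * twDia (r * m) c O σ⁻¹) ((twDia (r * m) c O σ * twDia (r * m) c O σ)
      (((galLat (r * m) c p O σ - 1) * (galLat (r * m) c p O σ - latDia (r * m) c O (cycM (r * m) σ))) x))
      = 0 := by
    rw [h1, map_zero]
  rw [← Module.End.mul_apply _ (twDia (r * m) c O σ * twDia (r * m) c O σ), ← map_mul, ← map_mul,
    ← map_mul, show σ⁻¹ * σ⁻¹ * (σ * σ) = 1 by group, map_one, Module.End.one_apply,
    Module.End.mul_apply] at h2
  exact h2

end Fermat.Agent.Auto
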