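import Fermat.Agent.Auto.New

/-!
Restriction to a smaller `Γ₀` keeps the residual part nonzero.
-/

set_option autoImplicit false
set_option linter.unusedSectionVars false

noncomputable section

namespace Fermat.Agent.Auto

open CongruenceSubgroup IsLocalRing
open scoped MatrixGroups

variable {O : Type} [CommRing O] [IsDomain O] [IsDiscreteValuationRing O]
  [IsAdicComplete (maximalIdeal O) O] [CharZero O] {S : Finset ℕ} {a : ℕ → O}

/-- A class at level `Γ₀(M)` restricts to one at level `Γ₀(M')`. -/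
theorem latLoc_ne_bot_of_dvd {M M' : ℕ} [NeZero M] [NeZero M'] (hd : M ∣ M')
    (hMS : ∀ l : ℕ, l.Prime → l ∣ M' → l ∈ S)
    (h : latLoc M (1 : (ZMod M)ˣ →* Unit) O S a ≠ ⊥) :
    latLoc M' (1 : (ZMod M')ˣ →* Unit) O S a ≠ ⊥ := by
  have hle : grp M' (1 : (ZMod M')ˣ →* Unit) ≤ grp M (1 : (ZMod M)ˣ →* Unit) := fun γ hγ => by
    refine mem_grp_one.mpr (Gamma0_mem.mpr ?_)
    have h1 := congrArg (ZMod.castHom hd (ZMod M)) (Gamma0_mem.mp hγ.1)
    rwa [map_intCast, map_zero] at h1
  obtain ⟨x, hx, hx0⟩ := (Submodule.ne_bot_iff _).mp h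
  refine (Submodule.ne_bot_iff _).mpr ⟨latRes hle x, ?_, fun he =>
    hx0 (latRes_injective hle (he.trans (map_zero _).symm))⟩
  refine map_mem_locPart (T := fun i : PrimeOff M' S => latT M 1 O (downPrime hd i.1))
    (latRes hle) (fun i v => latRes_latT hle hd i.1.1 (downPrime hd i.1).2 i.1.2 v) ?_
  exact fun i => hx ⟨downPrime hd i.1, i.2⟩

end Fermat.Agent.Auto
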