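import Fermat.Agent.Auto.Twist.Semisimple
import Mathlib.FieldTheory.IsAlgClosed.AlgebraicClosure

/-!
The twisted eigen-systems live at level `Γ₀(M D)`, `D` the conductor of the character.
-/

set_option autoImplicit false
set_option linter.unusedSectionVars false

noncomputable section

namespace Fermat.Agent.Auto

open CongruenceSubgroup
open Fermat.Agent.GalRep (GoodPrimeOff evFormsOff)
open scoped MatrixGroups IsMulCommutative

/-- An algebraically closed field over the coefficients. -/
abbrev coeffField (O : Type) [CommRing O] [IsDomain O] : Type := AlgebraicClosure (FractionRing O)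

instance coeffField_charZero (O : Type) [CommRing O] [IsDomain O] [CharZero O] :
    CharZero (coeffField O) :=
  charZero_of_injective_algebraMap (algebraMap (FractionRing O) (coeffField O)).injective

/-- The coefficient map. -/
def coeffMap (O : Type) [CommRing O] [IsDomain O] : O →+* coeffField O :=
  (algebraMap (FractionRing O) (coeffField O)).comp (algebraMap O (FractionRing O))

theorem coeffMap_injective (O : Type) [CommRing O] [IsDomain O] :
    Function.Injective (coeffMap O) :=
  (algebraMap (FractionRing O) (coeffField O)).injective.comp (IsFractionRing.injective O _)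

variable {M D : ℕ} [NeZero M] [NeZero (M * D)] {Δ : Type} [CommGroup Δ] [Finite Δ]
  {c : (ZMod M)ˣ →* Δ} {O : Type} [CommRing O] [IsDomain O] [CharZero O]

/-- A relation among the operators at level `M D` holds among the twisted operators. -/
theorem twT_relation (hD : D ∣ M) (hsq : Squarefree D)
    (hcD : ∀ u : (ZMod M)ˣ, ((u : ZMod M).val : ZMod D) = 1 → c u = 1)
    (hodd : Odd (Nat.card Δ)) (S : Finset ℕ) (hS : ∀ r : ℕ, r.Prime → r ∣ M → r ∈ S)
    (hcomm : ∀ i j, Commute (twT M c O i) (twT M c O j))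
    (P : MvPolynomial (GoodPrimeOff (M * D) (↑S : Set ℕ)) ℤ)
    (hP : evFormsOff (↑S : Set ℕ) P = 0) :
    GalRep.polyHom (fun i : GoodPrimeOff (M * D) (↑S : Set ℕ) =>
      twT M c O (downPrime (dvd_mul_right M D) i.1)) (fun i j => hcomm _ _) P = 0 := by
  obtain ⟨W, hW⟩ := Tw.lift_X_surjective P
  refine LinearMap.ext fun v => ?_
  apply Tw.mapLat_injective (coeffMap O) (coeffMap_injective O)
  rw [← hW, Tw.polyHom_eq_lift, LinearMap.zero_apply, map_zero]
  have h := (Tw.intertwine
    (fun i : GoodPrimeOff (M * D) (↑S : Set ℕ) =>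
      (twT M c O (downPrime (dvd_mul_right M D) i.1)).toAddMonoidHom.toIntLinearMap)
    (fun i : GoodPrimeOff (M * D) (↑S : Set ℕ) =>
      (twT M c (coeffField O) (downPrime (dvd_mul_right M D) i.1)).toAddMonoidHom.toIntLinearMap)
    (Tw.mapLat (coeffMap O)) (fun _ => True) (fun _ _ _ => trivial) (fun _ _ _ _ => trivial)
    (fun _ _ _ => trivial) (fun i x _ => Tw.mapLat_twT (coeffMap O) _ x) W v trivial).2
  rw [Tw.lift_intLinearMap, Tw.lift_intLinearMap,
    Tw.lift_twOp_eq_zero hD hsq hcD hodd hP hW] at h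
  exact h

/-- The twisted operators and the diamond operators generate an algebra without nilpotents. -/
theorem twAlg_sq_eq_zero (hD : D ∣ M) (hsq : Squarefree D)
    (hcD : ∀ u : (ZMod M)ˣ, ((u : ZMod M).val : ZMod D) = 1 → c u = 1)
    (hodd : Odd (Nat.card Δ)) {x : Module.End O (Lat M c O)}
    (hx : x ∈ Algebra.adjoin O (Set.range (twT M c O) ∪ Set.range (latDia M c O)))
    (h : x * x = 0) : x = 0 := by
  let j := coeffMap O
  obtain ⟨y, hy, hxy⟩ : ∃ y ∈ Algebra.adjoin (coeffField O) (Tw.gens M c (coeffField O)),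
      ∀ v, Tw.mapLat j (x v) = y (Tw.mapLat j v) := by
    clear h
    induction hx using Algebra.adjoin_induction with
    | mem z hz =>
      rcases hz with ⟨ℓ, rfl⟩ | ⟨d, rfl⟩
      · exact ⟨_, Algebra.subset_adjoin (Or.inl ⟨ℓ, rfl⟩), Tw.mapLat_twT j ℓ⟩
      · exact ⟨_, Algebra.subset_adjoin (Or.inr ⟨d, rfl⟩), Tw.mapLat_latDia j d⟩
    | algebraMap r =>
      exact ⟨_, Subalgebra.algebraMap_mem _ (j r), fun v => Tw.mapLat_smul j r v⟩
    | add a b _ _ ha hb =>
      obtain ⟨a', ha', ea⟩ := ha
      obtain ⟨b', hb', eb⟩ := hb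
      exact ⟨a' + b', add_mem ha' hb', fun v => by
        rw [LinearMap.add_apply, LinearMap.add_apply, map_add, ea, eb]⟩
    | mul a b _ _ ha hb =>
      obtain ⟨a', ha', ea⟩ := ha
      obtain ⟨b', hb', eb⟩ := hb
      exact ⟨a' * b', mul_mem ha' hb', fun v => by
        rw [Module.End.mul_apply, Module.End.mul_apply, ea, eb]⟩
  have hz : y * y = 0 := LinearMap.ext fun w => by
    obtain ⟨ι, _, φ, e, rfl⟩ := Tw.exists_decomp_lat w
    rw [LinearMap.zero_apply, map_sum]
    refine Finset.sum_eq_zero fun i _ => ?_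
    rw [map_smul, show Tw.mapLat (Int.castRingHom (coeffField O)) (φ i) =
      Tw.mapLat j (Tw.mapLat (Int.castRingHom O) (φ i)) from
      lat_ext_apply fun γ => (map_intCast j _).symm, Module.End.mul_apply, ← hxy, ← hxy,
      ← Module.End.mul_apply, h, LinearMap.zero_apply, map_zero, smul_zero]
  have hy0 : y = 0 := Module.End.eq_zero_of_isNilpotent_isSemisimple ⟨2, by rw [sq, hz]⟩
    (Tw.isSemisimple_of_mem hD hsq hcD hodd hy)
  refine LinearMap.ext fun v => Tw.mapLat_injective j (coeffMap_injective O) ?_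
  rw [hxy, hy0, LinearMap.zero_apply, LinearMap.zero_apply, map_zero]

end Fermat.Agent.Auto
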