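import Fermat.Agent.Auto.Galois
import Fermat.Agent.Auto.Free
import Fermat.Agent.Auto.Twist
import Fermat.Agent.Auto.New.Theta
import Fermat.Agent.Auto.New.Restrict

/-!
The ranks of the localised lattices at level `Γ₀(M)`, and their positivity at the level of a residual
eigen-system.
-/

set_option autoImplicit false
set_option linter.unusedSectionVars false

noncomputable section

namespace Fermat.Agent.Auto

open CongruenceSubgroup IsLocalRing
open Fermat.Agent.Galois (GQ)
open scoped MatrixGroups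

variable {p : ℕ} [Fact p.Prime] {O : Type} [CommRing O] [IsDomain O] [IsDiscreteValuationRing O]
  [IsAdicComplete (maximalIdeal O) O] [Finite (ResidueField O)]
  [Algebra ℤ_[p] O] [Module.Finite ℤ_[p] O] [CharZero O]
  {M : ℕ} [NeZero M] {S : Finset ℕ} {a : ℕ → O}

/-- For `F` a Frobenius at `r` with `F² - t F + r = 0`: the relation `t² = (r+1)²`. -/
def relOp {L : Type} [AddCommGroup L] [Module O L] (r : ℕ) (F : Module.End O L) : Module.End O L :=
  (F ^ 2 + (r : Module.End O L)) ^ 2 - (((r + 1) ^ 2 : ℕ) : Module.End O L) * F ^ 2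

/-- The group of the trivial character is `Γ₀(M)`. -/
theorem grp_one {Δ : Type} [CommGroup Δ] : grp M (1 : (ZMod M)ˣ →* Δ) = Gamma0 M :=
  le_antisymm grp_le_gamma0 fun _ h => mem_grp.mpr ⟨h, fun _ _ => rfl⟩

/-- The rank does not depend on the name of the trivial group. -/
theorem finrank_latLoc_one {Δ : Type} [CommGroup Δ] :
    Module.finrank O (latLoc M (1 : (ZMod M)ˣ →* Δ) O S a) =
      Module.finrank O (latLoc M (1 : (ZMod M)ˣ →* Unit) O S a) := by
  let g := latRes (O := O) (grp_trivial_le (M := M) (Δ := Unit) (Δ' := Δ))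
  let f := latRes (O := O) (grp_trivial_le (M := M) (Δ := Δ) (Δ' := Unit))
  let e : Lat M (1 : (ZMod M)ˣ →* Δ) O ≃ₗ[O] Lat M (1 : (ZMod M)ˣ →* Unit) O :=
    LinearEquiv.ofLinearMap g f (LinearMap.ext fun _ => rfl) (LinearMap.ext fun _ => rfl)
  have h : (latLoc M (1 : (ZMod M)ˣ →* Δ) O S a).map (e : _ →ₗ[O] _) =
      latLoc M (1 : (ZMod M)ˣ →* Unit) O S a := by
    refine le_antisymm ?_ fun x hx => ⟨f x, ?_, rfl⟩
    · rintro _ ⟨x, hx, rfl⟩
      exact map_mem_locPart g (fun i v => latRes_latT _ dvd_rfl i.1.1 i.1.2 i.1.2 v) hx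
    · exact map_mem_locPart f (fun i v => latRes_latT _ dvd_rfl i.1.1 i.1.2 i.1.2 v) hx
  rw [← h, LinearEquiv.finrank_map_eq]

/-- A residual eigen-system of the Hecke algebra gives a class. -/
theorem latLoc_ne_bot_of_theta (hp5 : 5 ≤ p) (hpS : p ∈ S)
    (hMS : ∀ l : ℕ, l.Prime → l ∣ M → l ∈ S)
    (θ : CuspForm.heckeAlgebra M 2 (↑S : Set ℕ) →+* ResidueField O)
    (ha : ∀ (l : ℕ) (hl : l.Prime) (hlM : ¬ l ∣ M) (hlS : l ∉ (↑S : Set ℕ)),
      θ (CuspForm.heckeAlgebra.T hl hlM hlS) = residue O (a l)) :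
    latLoc M (1 : (ZMod M)ˣ →* Unit) O S a ≠ ⊥ := by
  exact latLoc_ne_bot_aux θ ha

end Fermat.Agent.Auto
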