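import Fermat.Agent.Auto.Level.Assemble

/-!
The automorphic input of the patching exists.
-/

set_option autoImplicit false
set_option linter.unusedSectionVars false

noncomputable section

namespace Fermat.Agent.Auto

open IsLocalRing CongruenceSubgroup
open Fermat.Agent.Galois (GQ)

variable {p : ℕ} [Fact p.Prime] {O : Type} [CommRing O] [IsDomain O] [IsDiscreteValuationRing O]
  [IsAdicComplete (maximalIdeal O) O] [Finite (ResidueField O)]
  [Algebra ℤ_[p] O] [Module.Finite ℤ_[p] O] [CharZero O]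

/-- The rank is bounded in terms of the number of Taylor-Wiles primes only. -/
theorem exists_levelOut {ρbar : ResidualGaloisRep (ResidueField O)} {N : ℕ} [NeZero N]
    {S sig : Finset ℕ} {q : ℕ} {a : ℕ → O} (H : LevelSetting p O ρbar N S sig q a) (r : ℕ) :
    ∃ B : ℕ, ∀ (n : ℕ) (Q : Finset ℕ), Q.card = r →
      (∀ v ∈ Q, v.Prime ∧ v ∉ S ∧ v ≡ 1 [MOD p ^ (n + 1)] ∧ residue O (a v) ^ 2 ≠ 4) →
        ∃ X : LevelOut p O ρbar N S sig Q q n, X.rank ≤ B := by
  exact ⟨2 ^ r * Module.finrank O (Lat N (1 : (ZMod N)ˣ →* Unit) O), fun n Q hc hQ =>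
    hc ▸ exists_levelOut_at H hQ⟩

end Fermat.Agent.Auto
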