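import Fermat.Agent.Auto.Level.Char
import Fermat.Agent.GalRep.Level.SL2
import Fermat.Agent.GalRep.Cyclo
import Fermat.Prelude.Def_GaloisRep_Flat
import Fermat.Prelude.Def_GaloisRep_LocalConditions
import Fermat.Prelude.Def_CuspForm_HeckeAlgebra

/-!
What the automorphic side hands to the patching (definitions): for every set `Q` of Taylor-Wiles primes, a
representation over a coefficient ring acting on a module which is free over the group ring of the
diamond operators at `Q`, twisted by characters of order `p` at the primes of `sig`, on which the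
trace of Frobenius at `q` has square `(q + 1) ^ 2` modulo the maximal ideal.
-/

set_option autoImplicit false
set_option linter.unusedSectionVars false

noncomputable section

namespace Fermat.Agent.Auto

open IsLocalRing CongruenceSubgroup
open Fermat.Agent.Galois (GQ)
open Fermat.Agent.GalRep (cyc GoodPrime)
open Fermat.Agent.GalRep.Level (cycM)

variable (p : ℕ) [Fact p.Prime] (O : Type) [CommRing O] [IsDomain O] [IsDiscreteValuationRing O]
  [IsAdicComplete (maximalIdeal O) O] [Finite (ResidueField O)]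
  [Algebra ℤ_[p] O] [Module.Finite ℤ_[p] O] [CharZero O]

/-- The data at the level with Taylor-Wiles primes `Q`. -/
structure LevelOut (ρbar : ResidualGaloisRep (ResidueField O)) (N : ℕ) (S sig Q : Finset ℕ)
    (q n : ℕ) : Type 1 where
  T : Type
  [commRing : CommRing T]
  [isLocalRing : IsLocalRing T]
  [algebra : Algebra O T]
  [isLocalHom : IsLocalHom (algebraMap O T)]
  [isNoetherian : IsNoetherianRing T]
  [isComplete : IsAdicComplete (maximalIdeal T) T]
  [finite : Module.Finite O T]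
  [free : Module.Free O T]
  residue_surjective : Function.Surjective (residue T ∘ algebraMap O T)
  ρ : GaloisRepAdic T
  residual : ρ.residual.IsEquiv (ρbar.baseChangeAlong (ResidueField.map (algebraMap O T)))
  adjoin_trace : Algebra.adjoin O {t : T | ∃ l : ℕ, l.Prime ∧ l ∉ S ∧ l ∉ Q ∧
    ∃ A : ValuationSubring (AlgebraicClosure ℚ), A.LiesOverPrime l ∧
      ∃ σ : GQ, A.IsFrobeniusAt σ l ∧ t = ρ.trace σ} = ⊤
  det_eq : ∀ σ : GQ,
    LinearMap.det (ρ.ρ σ) = algebraMap O T (algebraMap ℤ_[p] O (cyc p σ : ℤ_[p]))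
  unramified : ∀ l : ℕ, l.Prime → l ∉ S → l ∉ Q → ρ.IsUnramifiedAt l
  flat : ρ.IsFlatAt p
  unipotent : ∀ l : ℕ, l.Prime → l ∣ N → l ∉ sig → ρ.IsUnipotentOnInertiaAt l
  V : Type
  [addCommGroup : AddCommGroup V]
  [module : Module O V]
  [moduleFinite : Module.Finite O V]
  [moduleFree : Module.Free O V]
  act : T →ₐ[O] Module.End O V
  dia : CharGrp p Q (fun _ => n + 1) →* Module.End O V
  dia_commute : ∀ x t, Commute (dia x) (act t)
  rank : ℕ
  rank_pos : 0 < rank
  basis : ∃ b : Fin rank → V, ∀ v : V, ∃! f : Fin rank → CharGrp p Q (fun _ => n + 1) → O,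
    v = ∑ i, ∑ x, f i x • dia x (b i)
  delta : (r : Q) → (ZMod (r : ℕ))ˣ →* CharGrp p Q (fun _ => n + 1)
  delta_off : ∀ (r r' : Q) (u : (ZMod (r : ℕ))ˣ), r' ≠ r → delta r u r' = 1
  delta_surjective : ∀ r : Q, Function.Surjective fun u => delta r u r
  inertia_tw : ∀ (r : Q) [NeZero (r : ℕ)] (A : ValuationSubring (AlgebraicClosure ℚ)),
    A.LiesOverPrime (r : ℕ) → ∀ σ ∈ A.inertiaSubgroupIn ℚ,
      act (ρ.trace σ) = dia (delta r (cycM (r : ℕ) σ)) + dia (delta r (cycM (r : ℕ) σ))⁻¹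
  xi : (l : sig) → (ZMod (l : ℕ))ˣ →* Oˣ
  xi_pow : ∀ (l : sig) u, xi l u ^ p = 1
  xi_ne : ∀ l : sig, xi l ≠ 1
  inertia_sig : ∀ (l : sig) [NeZero (l : ℕ)] (A : ValuationSubring (AlgebraicClosure ℚ)),
    A.LiesOverPrime (l : ℕ) → ∀ σ ∈ A.inertiaSubgroupIn ℚ,
      act (ρ.trace σ) = algebraMap O (Module.End O V)
        ((xi l (cycM (l : ℕ) σ) : O) + ((xi l (cycM (l : ℕ) σ))⁻¹ : Oˣ))
  qnew : ∀ (A : ValuationSubring (AlgebraicClosure ℚ)), A.LiesOverPrime q →
    ∀ σ : GQ, A.IsFrobeniusAt σ q → ∀ v : V,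
      act (ρ.trace σ ^ 2 - (((q + 1) ^ 2 : ℕ) : T)) v ∈ maximalIdeal O • (⊤ : Submodule O V)

attribute [instance] LevelOut.commRing LevelOut.isLocalRing LevelOut.algebra LevelOut.isLocalHom
  LevelOut.isNoetherian LevelOut.isComplete LevelOut.finite LevelOut.free LevelOut.addCommGroup
  LevelOut.module LevelOut.moduleFinite LevelOut.moduleFree

/-- The residual setting: a form of level `N` giving `ρbar`, the set `sig` of primes of `N` to be
twisted, and `q` among them which cannot be removed. -/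
structure LevelSetting (ρbar : ResidualGaloisRep (ResidueField O)) (N : ℕ) [NeZero N]
    (S sig : Finset ℕ) (q : ℕ) (a : ℕ → O) : Prop where
  five_le : 5 ≤ p
  squarefree : Squarefree N
  not_dvd : ¬ p ∣ N
  p_mem : p ∈ S
  level_mem : ∀ l : ℕ, l.Prime → l ∣ N → l ∈ S
  exists_zeta : ∃ ζ : O, IsPrimitiveRoot ζ p
  absIrr : ρbar.IsAbsolutelyIrreducible
  charpoly_frob : ∀ l : ℕ, l.Prime → l ∉ S → ∀ A : ValuationSubring (AlgebraicClosure ℚ),
    A.LiesOverPrime l → ∀ σ : GQ, A.IsFrobeniusAt σ l →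
      LinearMap.charpoly (ρbar.ρ σ) = Polynomial.X ^ 2 -
        Polynomial.C (residue O (a l)) * Polynomial.X + Polynomial.C ((l : ResidueField O))
  modular : ∃ θ : CuspForm.heckeAlgebra N 2 (↑S : Set ℕ) →+* ResidueField O,
    ∀ (l : ℕ) (hl : l.Prime) (hlN : ¬ l ∣ N) (hlS : l ∉ (↑S : Set ℕ)),
      θ (CuspForm.heckeAlgebra.T hl hlN hlS) = residue O (a l)
  sig_spec : ∀ l ∈ sig, l.Prime ∧ l ∣ N ∧ l ≡ 1 [MOD p] ∧
    ∀ A : ValuationSubring (AlgebraicClosure ℚ), A.LiesOverPrime l →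
      ∀ σ ∈ A.inertiaSubgroupIn ℚ, ρbar.ρ σ = 1
  q_mem : q ∈ sig
  not_lower : ∀ [NeZero (N / q)] (S' : Finset ℕ), S ⊆ S' →
    ∀ θ : CuspForm.heckeAlgebra (N / q) 2 (↑S' : Set ℕ) →+* ResidueField O,
      ∃ (l : ℕ) (hl : l.Prime) (hlN : ¬ l ∣ N / q) (hlS : l ∉ (↑S' : Set ℕ)),
        θ (CuspForm.heckeAlgebra.T hl hlN hlS) ≠ residue O (a l)

end Fermat.Agent.Auto
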