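import Fermat.Prelude.Def_CuspForm_HeckeAlgebra
import Fermat.Agent.Auto.Petersson.Product
import Mathlib.RingTheory.Nilpotent.Basic

/-!
The good Hecke operators act semisimply: the Petersson product.
-/

set_option autoImplicit false

noncomputable section

namespace Fermat.Agent.Auto

/-- The Hecke algebra away from the level has no nilpotents. -/
theorem heckeAlgebra_isReduced (N : ℕ) [NeZero N] (S : Set ℕ)
    (hS : ∀ r : ℕ, r.Prime → r ∣ N → r ∈ S) : IsReduced (CuspForm.heckeAlgebra N 2 S) := by
  refine (isReduced_iff_pow_one_lt 2 one_lt_two).mpr fun x hx => Subtype.ext ?_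
  refine LinearMap.ext fun f => Pet.eq_zero_of_pet_self _ ?_
  rw [Pet.pet_heckeAlgebra hS x.2, ← Module.End.mul_apply, ← sq, ← SubmonoidClass.coe_pow, hx]
  simp [Pet.pet, UpperHalfPlane.petersson]

end Fermat.Agent.Auto
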