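import Fermat.Agent.Auto.New
import Fermat.Agent.Auto.Qnew.Residual
import Fermat.Agent.Auto.Inertia.Loc

/-!
At a prime where nothing lives at the lower level the trace of Frobenius is forced; hence no new
eigen-systems where that trace is excluded.
-/

set_option autoImplicit false
set_option linter.unusedSectionVars false
set_option linter.style.haveILetI false
set_option synthInstance.maxHeartbeats 400000

noncomputable section

namespace Fermat.Agent.Auto

open CongruenceSubgroup IsLocalRing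
open Fermat.Agent.Galois (GQ)
open scoped MatrixGroups

variable {p : ℕ} [Fact p.Prime] {O : Type} [CommRing O] [IsDomain O] [IsDiscreteValuationRing O]
  [IsAdicComplete (maximalIdeal O) O] [Finite (ResidueField O)]
  [Algebra ℤ_[p] O] [Module.Finite ℤ_[p] O] [CharZero O]
  {M : ℕ} [NeZero M] {S : Finset ℕ} {a : ℕ → O}

/-- The rank at most doubles from level `m` to level `q m`. -/
theorem finrank_latLoc_qm_le {q m : ℕ} [Fact q.Prime] [NeZero q] [NeZero m] [NeZero (q * m)]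
    (hqm : q.Coprime m) (hqp : q ≠ p) (hp5 : 5 ≤ p) (hpS : p ∈ S)
    (hMS : ∀ l : ℕ, l.Prime → l ∣ q * m → l ∈ S)
    (ρbar : ResidualGaloisRep (ResidueField O)) (habs : ρbar.IsAbsolutelyIrreducible)
    (hfrob : ∀ l : ℕ, l.Prime → l ∉ S → ∀ A : ValuationSubring (AlgebraicClosure ℚ),
      A.LiesOverPrime l → ∀ σ : GQ, A.IsFrobeniusAt σ l →
        LinearMap.charpoly (ρbar.ρ σ) = Polynomial.X ^ 2 -
          Polynomial.C (residue O (a l)) * Polynomial.X + Polynomial.C ((l : ResidueField O)))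
    (hno : ∀ A : ValuationSubring (AlgebraicClosure ℚ), A.LiesOverPrime q → ∀ σ : GQ,
      A.IsFrobeniusAt σ q → ∀ x : Lat (q * m) (1 : (ZMod (q * m))ˣ →* Unit) O,
        x ∈ latLoc (q * m) (1 : (ZMod (q * m))ˣ →* Unit) O S a →
        relOp q (galLat (q * m) 1 p O σ) x ∈ maximalIdeal O • (⊤ : Submodule O _) →
        x ∈ maximalIdeal O • (⊤ : Submodule O _)) :
    Module.finrank O (latLoc (q * m) (1 : (ZMod (q * m))ˣ →* Unit) O S a) ≤
      2 * Module.finrank O (latLoc m (1 : (ZMod m)ˣ →* Unit) O S a) := by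
  haveI : NeZero (q * m * 1) := ⟨by rw [mul_one]; exact NeZero.ne _⟩
  haveI : NeZero (m * 1) := ⟨by rw [mul_one]; exact NeZero.ne _⟩
  have hp : (p : O) ∈ maximalIdeal O := natCast_p_mem p O
  have hc : ∀ u, (1 : (ZMod m)ˣ →* Unit) (ZMod.unitsMap (dvd_mul_left m q) u) =
      (1 : (ZMod (q * m))ˣ →* Unit) u := fun _ => rfl
  set T₁ := (Qn.carrier_one hqm hc).traceMap (R := O)
  set T₂ := (Qn.carrier_bM hqm hc).traceMap (R := O)
  set V := latLoc (q * m) (1 : (ZMod (q * m))ˣ →* Unit) O S a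
  set W := latLoc m (1 : (ZMod m)ˣ →* Unit) O S a
  let f : V →ₗ[O] W × W :=
    (T₁.restrict fun x hx => (Qn.carrier_one hqm hc).traceMap_mem_latLoc hMS hx).prod
      (T₂.restrict fun x hx => (Qn.carrier_bM hqm hc).traceMap_mem_latLoc hMS hx)
  obtain ⟨A, hA⟩ := Galois.exists_liesOverPrime (Fact.out : q.Prime)
  obtain ⟨σ, hσ⟩ := Galois.exists_isFrobeniusAt (Fact.out : q.Prime) hA
  obtain ⟨ϖ, hϖ⟩ := IsDiscreteValuationRing.exists_irreducible O
  haveI : Module.IsTorsionFree O (Lat (q * m) (1 : (ZMod (q * m))ˣ →* Unit) O) := inferInstance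
  haveI : IsHausdorff (maximalIdeal O) (Lat (q * m) (1 : (ZMod (q * m))ˣ →* Unit) O) :=
    IsHausdorff.of_le_jacobson _ _ (IsLocalRing.maximalIdeal_le_jacobson _)
  have hker : ∀ x ∈ V, T₁ x = 0 → T₂ x = 0 → ∀ k : ℕ, x ∈ maximalIdeal O ^ k • (⊤ : Submodule O _) := by
    intro x hx h1 h2 k
    induction k with
    | zero => simp
    | succ k ih =>
      obtain ⟨y, rfl⟩ := (mem_pow_smul_of_irreducible hϖ).mp ih
      have hy : y ∈ V := locPart_pow_saturated hϖ k hx
      have e1 : T₁ y = 0 := by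
        rw [map_smul] at h1
        exact (smul_eq_zero.mp h1).resolve_left (pow_ne_zero _ hϖ.ne_zero)
      have e2 : T₂ y = 0 := by
        rw [map_smul] at h2
        exact (smul_eq_zero.mp h2).resolve_left (pow_ne_zero _ hϖ.ne_zero)
      have h := Qn.relOp_eq_zero_of_qnew (D := 1) hp5 hp (fun _ => ⟨0, Subsingleton.elim _ _⟩) ρbar
        habs hfrob hqm hc (one_dvd m) squarefree_one (fun _ _ => rfl) hpS hMS hqp hA hσ hy
        (Qn.qnew_of_traces hqm hc y e1 e2)
      rw [Qn.galTw_unit] at h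
      have hy' := hno A hA σ hσ y hy (by rw [h]; exact Submodule.zero_mem _)
      rw [← pow_one (maximalIdeal O), mem_pow_smul_of_irreducible hϖ] at hy'
      obtain ⟨z, rfl⟩ := hy'
      exact (mem_pow_smul_of_irreducible hϖ).mpr ⟨z, by rw [smul_smul, pow_one, pow_succ]⟩
  have hinj : Function.Injective f := fun x y h => by
    refine Subtype.ext (sub_eq_zero.mp (IsHausdorff.haus
      (inferInstance : IsHausdorff (maximalIdeal O) _) _ fun k => ?_))
    rw [SModEq.zero]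
    refine hker _ (sub_mem x.2 y.2) ?_ ?_ k
    · rw [map_sub, sub_eq_zero]; exact congrArg (fun z : W × W => Subtype.val z.1) h
    · rw [map_sub, sub_eq_zero]; exact congrArg (fun z : W × W => Subtype.val z.2) h
  haveI : Module.Finite O W := Module.IsNoetherian.finite O _
  haveI : Module.IsTorsionFree O W := inferInstance
  letI : AddCommGroup W := W.addCommGroup
  haveI : Module.Free O W := Module.free_of_finite_type_torsion_free' (M := W)
  exact (LinearMap.finrank_le_finrank_of_injective hinj).trans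
    (by rw [Module.finrank_prod, two_mul])

/-- No new eigen-systems at a prime where the trace forbids level raising: the rank at most
doubles. -/
theorem finrank_latLoc_mul_le (r : ℕ) [NeZero (M * r)] (hr : r.Prime) (hrM : ¬ r ∣ M) (hrp : r ≠ p)
    (hp5 : 5 ≤ p) (hpS : p ∈ S) (hrS : r ∈ S) (hMS : ∀ l : ℕ, l.Prime → l ∣ M → l ∈ S)
    (hne : NonEis S a)
    (ρbar : ResidualGaloisRep (ResidueField O)) (habs : ρbar.IsAbsolutelyIrreducible)
    (hfrob : ∀ l : ℕ, l.Prime → l ∉ S → ∀ A : ValuationSubring (AlgebraicClosure ℚ),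
      A.LiesOverPrime l → ∀ σ : GQ, A.IsFrobeniusAt σ l →
        LinearMap.charpoly (ρbar.ρ σ) = Polynomial.X ^ 2 -
          Polynomial.C (residue O (a l)) * Polynomial.X + Polynomial.C ((l : ResidueField O)))
    (hno : ∀ A : ValuationSubring (AlgebraicClosure ℚ), A.LiesOverPrime r → ∀ σ : GQ,
      A.IsFrobeniusAt σ r → ∀ x : Lat (M * r) (1 : (ZMod (M * r))ˣ →* Unit) O,
        x ∈ latLoc (M * r) (1 : (ZMod (M * r))ˣ →* Unit) O S a →
        relOp r (galLat (M * r) 1 p O σ) x ∈ maximalIdeal O • (⊤ : Submodule O _) →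
        x ∈ maximalIdeal O • (⊤ : Submodule O _)) :
    Module.finrank O (latLoc (M * r) (1 : (ZMod (M * r))ˣ →* Unit) O S a) ≤
      2 * Module.finrank O (latLoc M (1 : (ZMod M)ˣ →* Unit) O S a) := by
  haveI : Fact r.Prime := ⟨hr⟩
  haveI : NeZero r := ⟨hr.ne_zero⟩
  have key : ∀ N : ℕ, N = r * M → ∀ [NeZero N],
      (∀ l : ℕ, l.Prime → l ∣ N → l ∈ S) →
      (∀ A : ValuationSubring (AlgebraicClosure ℚ), A.LiesOverPrime r → ∀ σ : GQ,
        A.IsFrobeniusAt σ r → ∀ x : Lat N (1 : (ZMod N)ˣ →* Unit) O,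
          x ∈ latLoc N (1 : (ZMod N)ˣ →* Unit) O S a →
          relOp r (galLat N 1 p O σ) x ∈ maximalIdeal O • (⊤ : Submodule O _) →
          x ∈ maximalIdeal O • (⊤ : Submodule O _)) →
      Module.finrank O (latLoc N (1 : (ZMod N)ˣ →* Unit) O S a) ≤
        2 * Module.finrank O (latLoc M (1 : (ZMod M)ˣ →* Unit) O S a) := by
    intro N hN
    subst hN
    intro _ hNS hno'
    exact finrank_latLoc_qm_le (hr.coprime_iff_not_dvd.mpr hrM) hrp hp5 hpS hNS ρbar habs hfrob hno'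
  refine key _ (mul_comm M r) (fun l hl h => ?_) hno
  rcases hl.dvd_mul.mp h with h | h
  · exact hMS l hl h
  · exact ((Nat.prime_dvd_prime_iff_eq hl hr).mp h) ▸ hrS

variable {Δ : Type} [CommGroup Δ] [Fintype Δ] {c : (ZMod M)ˣ →* Δ}

/-- If nothing lives at level `Γ₀(M/q)`, the trace of Frobenius at `q` is `± (q+1)`. -/
theorem qnew_relation (hp5 : 5 ≤ p) (hp : (p : O) ∈ maximalIdeal O) (hΔ : IsPGroup p Δ)
    (hc : Function.Surjective c) {D : ℕ} (hD : D ∣ M) (hsq : Squarefree D)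
    (hcD : ∀ u : (ZMod M)ˣ, ((u : ZMod M).val : ZMod D) = 1 → c u = 1)
    (hpS : p ∈ S) (hMS : ∀ l : ℕ, l.Prime → l ∣ M → l ∈ S) (hne : NonEis S a)
    (ρbar : ResidualGaloisRep (ResidueField O)) (habs : ρbar.IsAbsolutelyIrreducible)
    (hfrob : ∀ l : ℕ, l.Prime → l ∉ S → ∀ A : ValuationSubring (AlgebraicClosure ℚ),
      A.LiesOverPrime l → ∀ σ : GQ, A.IsFrobeniusAt σ l →
        LinearMap.charpoly (ρbar.ρ σ) = Polynomial.X ^ 2 -
          Polynomial.C (residue O (a l)) * Polynomial.X + Polynomial.C ((l : ResidueField O)))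
    {q : ℕ} (hq : q.Prime) (hqp : q ≠ p) (hqM : q ∣ M) (hq2 : ¬ q ^ 2 ∣ M) (hqD : ¬ q ∣ D) (hq1 : q ≡ 1 [MOD p])
    [NeZero (M / q)] (hbot : latLoc (M / q) (1 : (ZMod (M / q))ˣ →* Unit) O S a = ⊥)
    (A : ValuationSubring (AlgebraicClosure ℚ)) (hA : A.LiesOverPrime q) (σ : GQ)
    (hσ : A.IsFrobeniusAt σ q) {x : Lat M c O} (hx : x ∈ latLoc M c O S a) :
    relOp q (galTw M c p O σ) x = 0 := by
  obtain ⟨m, rfl⟩ := hqM
  haveI : Fact q.Prime := ⟨hq⟩
  haveI : NeZero q := ⟨hq.ne_zero⟩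
  haveI : NeZero m := ⟨(mul_ne_zero_iff.mp (NeZero.ne (q * m))).2⟩
  have hqm : q.Coprime m :=
    hq.coprime_iff_not_dvd.mpr fun h => hq2 (by rw [sq]; exact mul_dvd_mul_left q h)
  have hDm : D ∣ m := (hq.coprime_iff_not_dvd.mpr hqD).symm.dvd_of_dvd_mul_left hD
  haveI : NeZero D := ⟨hsq.ne_zero⟩
  haveI : NeZero (q * m * D) := ⟨mul_ne_zero (NeZero.ne _) (NeZero.ne D)⟩
  haveI : NeZero (m * D) := ⟨mul_ne_zero (NeZero.ne _) (NeZero.ne D)⟩
  have hπ := ZMod.unitsMap_surjective (dvd_mul_left m q)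
  let c' : (ZMod m)ˣ →* Δ := MonoidHom.liftOfSurjective _ hπ ⟨c, fun u hu => by
    rw [MonoidHom.mem_ker] at hu ⊢
    refine hcD u ?_
    rw [ZMod.natCast_val, ← ZMod.castHom_apply (h := hD) (u : ZMod (q * m)),
      ← ZMod.castHom_comp hDm (dvd_mul_left m q), RingHom.comp_apply]
    rw [show ZMod.castHom (dvd_mul_left m q) (ZMod m) (u : ZMod (q * m)) = 1 from
      congrArg Units.val hu, map_one]⟩
  have hc' : ∀ u, c' (ZMod.unitsMap (dvd_mul_left m q) u) = c u :=
    MonoidHom.liftOfRightInverse_comp_apply _ _ _ _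
  have hcs : Function.Surjective c' := fun d => by
    obtain ⟨u, rfl⟩ := hc d
    exact ⟨_, hc' u⟩
  have hmS : ∀ l : ℕ, l.Prime → l ∣ m → l ∈ S := fun l hl h => hMS l hl (h.trans (dvd_mul_left m q))
  have hbotm : latLoc m (1 : (ZMod m)ˣ →* Unit) O S a = ⊥ := by
    have key : ∀ N : ℕ, N = m → ∀ [NeZero N], latLoc N (1 : (ZMod N)ˣ →* Unit) O S a = ⊥ →
        latLoc m (1 : (ZMod m)ˣ →* Unit) O S a = ⊥ := by
      intro N hN
      subst hN
      exact fun h => h
    exact key _ (Nat.mul_div_cancel_left m hq.pos) hbot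
  have hzero : ∀ y ∈ latLoc m c' O S a, y = 0 := by
    obtain ⟨n, b, -, hn, hb⟩ := exists_latLoc_basis hp5 hp hΔ hcs hpS hmS hne
    rw [finrank_latLoc_one, hbotm, finrank_bot] at hn
    subst hn
    intro y hy
    obtain ⟨f, hf, -⟩ := hb y hy
    rw [hf, Fin.sum_univ_zero]
  exact Qn.relOp_eq_zero_of_qnew hp5 hp hΔ ρbar habs hfrob hqm hc' hDm hsq hcD hpS hMS hqp hA hσ hx
    (Qn.qnew_of_traces hqm hc' x (hzero _ ((Qn.carrier_one hqm hc').traceMap_mem_latLoc hMS hx))
      (hzero _ ((Qn.carrier_bM hqm hc').traceMap_mem_latLoc hMS hx)))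

end Fermat.Agent.Auto
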